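/-
GATE-M / S41-THETA-CALC (helper13): the ABSTRACT CROSSING CALCULUS of helper37's Θ-bridge
(board 3542, leaf X = CALC).  Mathlib only.

A group `G` acts on "points" `X` and on "cusps" `C`; `s : X → C → C → A` is a `G`-invariant
"side function" (`s P a b` = `[P lies to the left of the geodesic a → b]`).  For a subgroup
`Γ ≤ G` with the finiteness property `FinCross s Γ` (only finitely many `g ∈ Γ` separate two given
points by the translates `g(a,b)`), the crossing sums

  `cross s Γ P Q a b = ∑ g ∈ Γ, (s Q (ga) (gb) - s P (ga) (gb))`,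
  `theta … P a b γ = cross s Γ P (γ P) a b`

define homomorphisms `Γ → A`, independent of the base point, invariant under `Γ` acting on the
cusps, additive on triangles (from a finiteness hypothesis on the triangle function), and
compatible with EVERY double coset operator (conjugation, restriction, corestriction,
Hecke operators) through ONE master lemma in the cocycle shape `α i * γ = c i * α (σ i)`.
-/
import Mathlib

set_option autoImplicit false
set_option linter.unusedSectionVars false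

open scoped BigOperators

namespace Fermat.Agent.GM.Theta.Calc

variable {G : Type*} [Group G] {X C : Type*} [MulAction G X] [MulAction G C]
  {A : Type*} [AddCommGroup A]

/-- `G`-invariance of a side function. -/
def IsInv (G : Type*) [Group G] {X C : Type*} [MulAction G X] [MulAction G C] {A : Type*}
    (s : X → C → C → A) : Prop :=
  ∀ (g : G) (P : X) (a b : C), s (g • P) (g • a) (g • b) = s P a b

theorem IsInv.inv_smul {s : X → C → C → A} (hs : IsInv G s) (g : G) (P : X) (a b : C) :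
    s (g • P) a b = s P (g⁻¹ • a) (g⁻¹ • b) := by
  have := hs g⁻¹ (g • P) a b
  rw [inv_smul_smul] at this
  exact this.symm

theorem IsInv.smul_cusps {s : X → C → C → A} (hs : IsInv G s) (g : G) (P : X) (a b : C) :
    s P (g • a) (g • b) = s (g⁻¹ • P) a b := by
  rw [hs.inv_smul, inv_inv]

/-- The finiteness property (F): for two points `P, P'` and two cusps `a, b` only finitely many
translates `g(a,b)`, `g ∈ Γ`, distinguish `P` from `P'`. -/
def FinCross (s : X → C → C → A) (Γ : Subgroup G) : Prop :=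
  ∀ (P P' : X) (a b : C),
    {g : Γ | s P ((g : G) • a) ((g : G) • b) ≠ s P' ((g : G) • a) ((g : G) • b)}.Finite

theorem FinCross.mono {s : X → C → C → A} {Γ Γ' : Subgroup G} (hF : FinCross s Γ)
    (h : Γ' ≤ Γ) : FinCross s Γ' := by
  intro P P' a b
  have := hF P P' a b
  refine Set.Finite.of_injOn (f := Subgroup.inclusion h) ?_ ?_ this
  · intro g hg
    exact hg
  · intro g _ g' _ hgg'
    exact Subgroup.inclusion_injective h hgg'

/-- The term of the crossing sum. -/
def term (s : X → C → C → A) (P Q : X) (a b : C) (g : G) : A :=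
  s Q (g • a) (g • b) - s P (g • a) (g • b)

theorem FinCross.support_finite {s : X → C → C → A} {Γ : Subgroup G} (hF : FinCross s Γ)
    (P Q : X) (a b : C) :
    (Function.support fun g : Γ => term s P Q a b (g : G)).Finite := by
  refine (hF P Q a b).subset ?_
  intro g hg
  rw [Function.mem_support] at hg
  intro h
  apply hg
  unfold term
  rw [h, sub_self]

/-- The crossing sum `∑_{g ∈ Γ} (s Q (ga) (gb) − s P (ga) (gb))`. -/
noncomputable def cross (s : X → C → C → A) (Γ : Subgroup G) (P Q : X) (a b : C) : A :=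
  ∑ᶠ g : Γ, term s P Q a b (g : G)

theorem cross_self (s : X → C → C → A) (Γ : Subgroup G) (P : X) (a b : C) :
    cross s Γ P P a b = 0 := by
  unfold cross term
  simp

theorem cross_add {s : X → C → C → A} {Γ : Subgroup G} (hF : FinCross s Γ) (P Q R : X)
    (a b : C) : cross s Γ P Q a b + cross s Γ Q R a b = cross s Γ P R a b := by
  unfold cross
  rw [← finsum_add_distrib (hF.support_finite P Q a b) (hF.support_finite Q R a b)]
  refine finsum_congr fun g => ?_
  unfold term
  abel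

theorem cross_symm {s : X → C → C → A} {Γ : Subgroup G} (hF : FinCross s Γ) (P Q : X)
    (a b : C) : cross s Γ Q P a b = - cross s Γ P Q a b := by
  have := cross_add hF P Q P a b
  rw [cross_self] at this
  exact eq_neg_of_add_eq_zero_right this

theorem cross_sub {s : X → C → C → A} {Γ : Subgroup G} (hF : FinCross s Γ) (P₀ P Q : X)
    (a b : C) : cross s Γ P Q a b = cross s Γ P₀ Q a b - cross s Γ P₀ P a b := by
  rw [← cross_add hF P₀ P Q a b]
  abel

/-- Moving both points by an element of `Γ` does not change the crossing sum. -/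
theorem cross_smul {s : X → C → C → A} (hs : IsInv G s) (Γ : Subgroup G) (γ : Γ) (P Q : X)
    (a b : C) : cross s Γ ((γ : G) • P) ((γ : G) • Q) a b = cross s Γ P Q a b := by
  unfold cross
  rw [← finsum_comp_equiv (Equiv.mulLeft γ)]
  refine finsum_congr fun g => ?_
  unfold term
  rw [hs.inv_smul, hs.inv_smul (γ : G) P]
  simp only [Equiv.coe_mulLeft, Subgroup.coe_mul, mul_smul, inv_smul_smul]

/-- Moving both cusps by an element of `Γ` does not change the crossing sum. -/
theorem cross_smul_cusps (s : X → C → C → A) (Γ : Subgroup G) (γ : Γ) (P Q : X)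
    (a b : C) : cross s Γ P Q ((γ : G) • a) ((γ : G) • b) = cross s Γ P Q a b := by
  unfold cross
  rw [← finsum_comp_equiv (Equiv.mulRight γ) (f := fun g : Γ => term s P Q a b (g : G))]
  refine finsum_congr fun g => ?_
  unfold term
  simp only [Equiv.coe_mulRight, Subgroup.coe_mul, mul_smul]


/-! ### The homomorphism `Θ_Γ(a,b)` -/

/-- `Θ_Γ(a,b) : Γ → A`, `γ ↦ ∑_{g ∈ Γ} (s (γP) (ga) (gb) − s P (ga) (gb))`. -/
noncomputable def theta (s : X → C → C → A) (hs : IsInv G s) (Γ : Subgroup G)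
    (hF : FinCross s Γ) (P : X) (a b : C) : Additive Γ →+ A :=
  AddMonoidHom.mk' (fun γ => cross s Γ P (((Additive.toMul γ : Γ) : G) • P) a b) (by
    intro γ γ'
    show cross s Γ P ((((Additive.toMul γ * Additive.toMul γ' : Γ)) : G) • P) a b = _
    rw [Subgroup.coe_mul, mul_smul,
      ← cross_add hF P (((Additive.toMul γ : Γ) : G) • P) _ a b, cross_smul hs])

theorem theta_apply (s : X → C → C → A) (hs : IsInv G s) (Γ : Subgroup G)
    (hF : FinCross s Γ) (P : X) (a b : C) (γ : Γ) :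
    theta s hs Γ hF P a b (Additive.ofMul γ) = cross s Γ P ((γ : G) • P) a b := rfl

/-- `Θ` does not depend on the base point. -/
theorem theta_indep (s : X → C → C → A) (hs : IsInv G s) (Γ : Subgroup G)
    (hF : FinCross s Γ) (P P' : X) (a b : C) :
    theta s hs Γ hF P a b = theta s hs Γ hF P' a b := by
  refine AddMonoidHom.ext fun γ' => ?_
  obtain ⟨γ, rfl⟩ : ∃ γ : Γ, Additive.ofMul γ = γ' := ⟨Additive.toMul γ', rfl⟩
  rw [theta_apply, theta_apply]
  rw [← cross_add hF P P' ((γ : G) • P) a b, ← cross_add hF P' ((γ : G) • P') ((γ : G) • P) a b,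
    cross_smul hs, cross_symm hF P P']
  abel

/-- `Θ_Γ(γ₀ a, γ₀ b) = Θ_Γ(a, b)` for `γ₀ ∈ Γ`. -/
theorem theta_smul_cusps (s : X → C → C → A) (hs : IsInv G s) (Γ : Subgroup G)
    (hF : FinCross s Γ) (P : X) (a b : C) (γ₀ : Γ) :
    theta s hs Γ hF P ((γ₀ : G) • a) ((γ₀ : G) • b) = theta s hs Γ hF P a b := by
  refine AddMonoidHom.ext fun γ' => ?_
  obtain ⟨γ, rfl⟩ : ∃ γ : Γ, Additive.ofMul γ = γ' := ⟨Additive.toMul γ', rfl⟩
  rw [theta_apply, theta_apply, cross_smul_cusps]


/-! ### Triangle additivity -/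

/-- The triangle function `s P (ga) (gb) + s P (gb) (gc) − s P (ga) (gc)`. -/
def tri (s : X → C → C → A) (P : X) (a b c : C) (g : G) : A :=
  s P (g • a) (g • b) + s P (g • b) (g • c) - s P (g • a) (g • c)

/-- The finiteness property (T): for every point and every triangle the triangle function is
constant on `Γ` outside a finite set (the finitely many `g` with `P` inside `g(a,b,c)`). -/
def FinTri (s : X → C → C → A) (Γ : Subgroup G) : Prop :=
  ∀ (P : X) (a b c : C), ∃ k : A, {g : Γ | tri s P a b c (g : G) ≠ k}.Finite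

theorem tri_smul {s : X → C → C → A} (hs : IsInv G s) (γ : G) (P : X) (a b c : C) (g : G) :
    tri s (γ • P) a b c g = tri s P a b c (γ⁻¹ * g) := by
  unfold tri
  rw [hs.inv_smul, hs.inv_smul γ P (g • b), hs.inv_smul γ P (g • a) (g • c)]
  simp only [mul_smul]

theorem cross_add_cusps {s : X → C → C → A} (hs : IsInv G s) {Γ : Subgroup G}
    (hF : FinCross s Γ) (γ : Γ) (P : X) (a b c : C)
    (hT : ∃ k : A, {g : Γ | tri s P a b c (g : G) ≠ k}.Finite) :
    cross s Γ P ((γ : G) • P) a b + cross s Γ P ((γ : G) • P) b c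
      = cross s Γ P ((γ : G) • P) a c := by
  obtain ⟨k, hk⟩ := hT
  set u : Γ → A := fun g => tri s P a b c (g : G) - k with hu
  have hufin : (Function.support u).Finite := by
    refine hk.subset ?_
    intro g hg
    rw [Function.mem_support] at hg
    intro h
    apply hg
    rw [hu]
    simp only
    rw [h, sub_self]
  set v : Γ → A := fun g => tri s ((γ : G) • P) a b c (g : G) - k with hv
  have hvu : ∀ g : Γ, v g = u (Equiv.mulLeft γ⁻¹ g) := by
    intro g
    rw [hv, hu]
    simp only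
    rw [tri_smul hs]
    rfl
  have hvfin : (Function.support v).Finite := by
    have : Function.support v = (Equiv.mulLeft γ⁻¹) ⁻¹' Function.support u := by
      ext g
      rw [Function.mem_support, Set.mem_preimage, Function.mem_support, hvu]
    rw [this]
    exact hufin.preimage (Equiv.injective _).injOn
  have hsum : ∑ᶠ g, v g = ∑ᶠ g, u g := by
    rw [← finsum_comp_equiv (Equiv.mulLeft γ⁻¹) (f := u)]
    exact finsum_congr hvu
  have hzero : ∑ᶠ g, (v g - u g) = 0 := by
    rw [finsum_sub_distrib hvfin hufin, hsum, sub_self]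
  have key : cross s Γ P ((γ : G) • P) a b + cross s Γ P ((γ : G) • P) b c
      - cross s Γ P ((γ : G) • P) a c = ∑ᶠ g, (v g - u g) := by
    unfold cross
    rw [← finsum_add_distrib (hF.support_finite _ _ a b) (hF.support_finite _ _ b c),
      ← finsum_sub_distrib ?_ (hF.support_finite _ _ a c)]
    · refine finsum_congr fun g => ?_
      show term s P ((γ : G) • P) a b (g : G) + term s P ((γ : G) • P) b c (g : G)
          - term s P ((γ : G) • P) a c (g : G)
        = (tri s ((γ : G) • P) a b c (g : G) - k) - (tri s P a b c (g : G) - k)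
      unfold term tri
      abel
    · exact ((hF.support_finite _ _ a b).union (hF.support_finite _ _ b c)).subset
        (Function.support_add _ _)
  rw [hzero] at key
  exact sub_eq_zero.mp key

/-- **Triangle additivity** `Θ(a,b) + Θ(b,c) = Θ(a,c)`, PER TRIPLE: the finiteness hypothesis
(T) is needed only for the triple `(a,b,c)` and only at the base point `P`. -/
theorem theta_add (s : X → C → C → A) (hs : IsInv G s) (Γ : Subgroup G)
    (hF : FinCross s Γ) (P : X) (a b c : C)
    (hT : ∃ k : A, {g : Γ | tri s P a b c (g : G) ≠ k}.Finite) :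
    theta s hs Γ hF P a b + theta s hs Γ hF P b c = theta s hs Γ hF P a c := by
  refine AddMonoidHom.ext fun γ' => ?_
  obtain ⟨γ, rfl⟩ : ∃ γ : Γ, Additive.ofMul γ = γ' := ⟨Additive.toMul γ', rfl⟩
  rw [AddMonoidHom.add_apply, theta_apply, theta_apply, theta_apply]
  exact cross_add_cusps hs hF γ P a b c hT

/-- Triangle additivity with the base point of (T) different from the base point of `Θ`. -/
theorem theta_add' (s : X → C → C → A) (hs : IsInv G s) (Γ : Subgroup G)
    (hF : FinCross s Γ) (P P' : X) (a b c : C)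
    (hT : ∃ k : A, {g : Γ | tri s P' a b c (g : G) ≠ k}.Finite) :
    theta s hs Γ hF P a b + theta s hs Γ hF P b c = theta s hs Γ hF P a c := by
  rw [theta_indep s hs Γ hF P P' a b, theta_indep s hs Γ hF P P' b c,
    theta_indep s hs Γ hF P P' a c]
  exact theta_add s hs Γ hF P' a b c hT

/-- `Θ(a,a) = 0` as soon as the value `s P c c` on a degenerate pair does not depend on the
point (for `side`: it is `0`). -/
theorem theta_self (s : X → C → C → A) (hs : IsInv G s) (Γ : Subgroup G)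
    (hF : FinCross s Γ) (P : X) (a : C) (h0 : ∀ (P Q : X) (c : C), s P c c = s Q c c) :
    theta s hs Γ hF P a a = 0 := by
  refine AddMonoidHom.ext fun γ' => ?_
  obtain ⟨γ, rfl⟩ : ∃ γ : Γ, Additive.ofMul γ = γ' := ⟨Additive.toMul γ', rfl⟩
  rw [theta_apply, AddMonoidHom.zero_apply]
  unfold cross term
  rw [finsum_eq_zero_of_forall_eq_zero]
  intro g
  rw [h0 ((γ : G) • P) P, sub_self]

/-- `Θ(a,a) = 0` from (T) for the degenerate triple `(a,a,a)`. -/
theorem theta_self_of_tri (s : X → C → C → A) (hs : IsInv G s) (Γ : Subgroup G)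
    (hF : FinCross s Γ) (P : X) (a : C)
    (hT : ∃ k : A, {g : Γ | tri s P a a a (g : G) ≠ k}.Finite) :
    theta s hs Γ hF P a a = 0 := by
  have := theta_add s hs Γ hF P a a a hT
  exact add_eq_left.mp this

/-- `Θ(b,a) = −Θ(a,b)` from (T) for the degenerate triple `(a,b,a)` and `Θ(a,a) = 0`. -/
theorem theta_swap (s : X → C → C → A) (hs : IsInv G s) (Γ : Subgroup G)
    (hF : FinCross s Γ) (P : X) (a b : C)
    (hT : ∃ k : A, {g : Γ | tri s P a b a (g : G) ≠ k}.Finite)
    (h0 : theta s hs Γ hF P a a = 0) :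
    theta s hs Γ hF P b a = - theta s hs Γ hF P a b := by
  have := theta_add s hs Γ hF P a b a hT
  rw [h0] at this
  exact eq_neg_of_add_eq_zero_right this

/-- The global form of (T). -/
theorem theta_add_of_finTri (s : X → C → C → A) (hs : IsInv G s) (Γ : Subgroup G)
    (hF : FinCross s Γ) (hT : FinTri s Γ) (P : X) (a b c : C) :
    theta s hs Γ hF P a b + theta s hs Γ hF P b c = theta s hs Γ hF P a c :=
  theta_add s hs Γ hF P a b c (hT P a b c)


/-! ### The master double-coset lemma -/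

section Master

variable {ι κ : Type*} [Fintype ι] [Fintype κ]

/-- Finite support of a function on `ι × Γ` all of whose rows have finite support. -/
theorem support_prod_finite {Γ : Type*} (F : ι × Γ → A)
    (h : ∀ i, (Function.support fun g => F (i, g)).Finite) : (Function.support F).Finite := by
  refine ((Set.finite_univ (α := ι)).prod (Set.finite_iUnion h)).subset ?_
  rintro ⟨i, g⟩ hig
  refine ⟨Set.mem_univ _, Set.mem_iUnion.mpr ⟨i, ?_⟩⟩
  exact hig

/-- `cross` at translated base points, as a sum over the coset `α⁻¹ Γ'`. -/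
theorem cross_translate {s : X → C → C → A} (hs : IsInv G s) (Γ' : Subgroup G) (α : G)
    (P Q : X) (a b : C) :
    cross s Γ' (α • P) (α • Q) a b = ∑ᶠ g' : Γ', term s P Q a b (α⁻¹ * (g' : G)) := by
  unfold cross
  refine finsum_congr fun g' => ?_
  unfold term
  rw [hs.inv_smul, hs.inv_smul α P]
  simp only [mul_smul]

/-- `cross` at translated cusps, as a sum over the coset `Γ β`. -/
theorem cross_translate_cusps (s : X → C → C → A) (Γ : Subgroup G) (β : G)
    (P Q : X) (a b : C) :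
    cross s Γ P Q (β • a) (β • b) = ∑ᶠ g : Γ, term s P Q a b ((g : G) * β) := by
  unfold cross
  refine finsum_congr fun g => ?_
  unfold term
  simp only [mul_smul]

/-- **Master lemma** (Equiv form).  `Γ', Γ ≤ G`; `α : ι → G`, `β : κ → G` such that the sets
`⊔ᵢ αᵢ⁻¹ Γ'` and `⊔ⱼ Γ βⱼ` coincide (bijectively: `e`); `γ ∈ Γ` with the cocycle relation
`αᵢ γ = cᵢ α_{σ i}`, `cᵢ ∈ Γ'`.  Then
`∑ᵢ Θ_{Γ'}(a,b)(cᵢ) = ∑ⱼ Θ_Γ(βⱼ a, βⱼ b)(γ)`. -/
theorem master_equiv (s : X → C → C → A) (hs : IsInv G s) {Γ' Γ : Subgroup G}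
    (hF' : FinCross s Γ') (hF : FinCross s Γ) (α : ι → G) (β : κ → G)
    (e : ι × Γ' ≃ κ × Γ)
    (he : ∀ (i : ι) (g' : Γ'), (α i)⁻¹ * (g' : G) = ((e (i, g')).2 : G) * β (e (i, g')).1)
    (γ : Γ) (σ : Equiv.Perm ι) (c : ι → Γ')
    (hc : ∀ i, α i * (γ : G) = (c i : G) * α (σ i)) (P : X) (a b : C) :
    ∑ i, theta s hs Γ' hF' P a b (Additive.ofMul (c i))
      = ∑ j, theta s hs Γ hF P (β j • a) (β j • b) (Additive.ofMul γ) := by
  -- Step 1: compute each `Θ_{Γ'}(c i)` at the base point `α (σ i) • P` and split at `α i • P`.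
  have h1 : ∀ i, theta s hs Γ' hF' P a b (Additive.ofMul (c i))
      = (cross s Γ' P (α i • P) a b - cross s Γ' P (α (σ i) • P) a b)
        + cross s Γ' (α i • P) (α i • ((γ : G) • P)) a b := by
    intro i
    rw [theta_indep s hs Γ' hF' P (α (σ i) • P), theta_apply, ← mul_smul, ← hc i, mul_smul,
      ← cross_add hF' (α (σ i) • P) (α i • P) _ a b, cross_sub hF' P (α (σ i) • P) (α i • P)]
  -- Step 2: the permutation `σ` kills the first part.
  have h2 : ∑ i, (cross s Γ' P (α i • P) a b - cross s Γ' P (α (σ i) • P) a b) = 0 := by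
    rw [Finset.sum_sub_distrib, Equiv.sum_comp σ (fun i => cross s Γ' P (α i • P) a b), sub_self]
  -- Step 3: regroup the second part over the common set `D`.
  set f : G → A := term s P ((γ : G) • P) a b with hf
  have hrow' : ∀ i, (Function.support fun g' : Γ' => f ((α i)⁻¹ * (g' : G))).Finite := by
    intro i
    have := hF'.support_finite (α i • P) (α i • ((γ : G) • P)) a b
    refine this.subset ?_
    intro g' hg'
    rw [Function.mem_support] at hg' ⊢
    intro h0
    apply hg'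
    rw [hf]
    unfold term at h0 ⊢
    rw [hs.inv_smul, hs.inv_smul (α i) P] at h0
    simpa only [mul_smul] using h0
  have hrow : ∀ j, (Function.support fun g : Γ => f ((g : G) * β j)).Finite := by
    intro j
    have := hF.support_finite P ((γ : G) • P) (β j • a) (β j • b)
    refine this.subset ?_
    intro g hg
    rw [Function.mem_support] at hg ⊢
    intro h0
    apply hg
    rw [hf]
    unfold term at h0 ⊢
    simpa only [mul_smul] using h0
  have h3 : ∑ i, cross s Γ' (α i • P) (α i • ((γ : G) • P)) a b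
      = ∑ j, cross s Γ P ((γ : G) • P) (β j • a) (β j • b) := by
    have e1 : ∑ i, cross s Γ' (α i • P) (α i • ((γ : G) • P)) a b
        = ∑ᶠ x : ι × Γ', f ((α x.1)⁻¹ * (x.2 : G)) := by
      rw [finsum_curry _ (support_prod_finite (fun x : ι × Γ' => f ((α x.1)⁻¹ * (x.2 : G))) hrow'),
        finsum_eq_sum_of_fintype]
      refine Finset.sum_congr rfl fun i _ => ?_
      exact cross_translate hs Γ' (α i) P _ a b
    have e2 : ∑ j, cross s Γ P ((γ : G) • P) (β j • a) (β j • b)
        = ∑ᶠ y : κ × Γ, f ((y.2 : G) * β y.1) := by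
      rw [finsum_curry _ (support_prod_finite (fun y : κ × Γ => f ((y.2 : G) * β y.1)) hrow),
        finsum_eq_sum_of_fintype]
      refine Finset.sum_congr rfl fun j _ => ?_
      exact cross_translate_cusps s Γ (β j) P _ a b
    rw [e1, e2, ← finsum_comp_equiv e]
    refine finsum_congr fun x => ?_
    rw [he x.1 x.2]
  simp_rw [h1]
  rw [Finset.sum_add_distrib, h2, zero_add, h3]
  refine Finset.sum_congr rfl fun j _ => ?_
  rw [theta_apply]


/-- The two parametrisations `(i, g') ↦ αᵢ⁻¹ g'` and `(j, g) ↦ g βⱼ` of one and the same subset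
of `G` give the equivalence consumed by `master_equiv`. -/
theorem exists_equiv_of_cover (Γ' Γ : Subgroup G) (α : ι → G) (β : κ → G)
    (hD : ∀ d : G, (∃ i, α i * d ∈ Γ') ↔ (∃ j, d * (β j)⁻¹ ∈ Γ))
    (hαu : ∀ (d : G) (i i' : ι), α i * d ∈ Γ' → α i' * d ∈ Γ' → i = i')
    (hβu : ∀ (d : G) (j j' : κ), d * (β j)⁻¹ ∈ Γ → d * (β j')⁻¹ ∈ Γ → j = j') :
    ∃ e : ι × Γ' ≃ κ × Γ, ∀ (i : ι) (g' : Γ'),
      (α i)⁻¹ * (g' : G) = ((e (i, g')).2 : G) * β (e (i, g')).1 := by
  classical
  let D : Set G := {d | ∃ i, α i * d ∈ Γ'}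
  let f₁ : ι × Γ' → D := fun x => ⟨(α x.1)⁻¹ * (x.2 : G), x.1, by
    rw [mul_inv_cancel_left]; exact x.2.2⟩
  let f₂ : κ × Γ → D := fun y => ⟨(y.2 : G) * β y.1, (hD _).mpr ⟨y.1, by
    rw [mul_inv_cancel_right]; exact y.2.2⟩⟩
  have hf₁ : Function.Bijective f₁ := by
    constructor
    · rintro ⟨i, g'⟩ ⟨i', g''⟩ h
      have h' : (α i)⁻¹ * (g' : G) = (α i')⁻¹ * (g'' : G) := congrArg Subtype.val h
      have hi : i = i' := by
        refine hαu ((α i)⁻¹ * (g' : G)) i i' ?_ ?_
        · rw [mul_inv_cancel_left]; exact g'.2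
        · rw [h', mul_inv_cancel_left]; exact g''.2
      subst hi
      have : (g' : G) = (g'' : G) := mul_left_cancel h'
      rw [Subtype.ext this]
    · rintro ⟨d, i, hi⟩
      refine ⟨(i, ⟨α i * d, hi⟩), Subtype.ext ?_⟩
      show (α i)⁻¹ * (α i * d) = d
      rw [inv_mul_cancel_left]
  have hf₂ : Function.Bijective f₂ := by
    constructor
    · rintro ⟨j, g⟩ ⟨j', g₂⟩ h
      have h' : (g : G) * β j = (g₂ : G) * β j' := congrArg Subtype.val h
      have hj : j = j' := by
        refine hβu ((g : G) * β j) j j' ?_ ?_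
        · rw [mul_inv_cancel_right]; exact g.2
        · rw [h', mul_inv_cancel_right]; exact g₂.2
      subst hj
      have : (g : G) = (g₂ : G) := mul_right_cancel h'
      rw [Subtype.ext this]
    · rintro ⟨d, hd⟩
      obtain ⟨j, hj⟩ := (hD d).mp hd
      refine ⟨(j, ⟨d * (β j)⁻¹, hj⟩), Subtype.ext ?_⟩
      show d * (β j)⁻¹ * β j = d
      rw [inv_mul_cancel_right]
  refine ⟨(Equiv.ofBijective f₁ hf₁).trans (Equiv.ofBijective f₂ hf₂).symm, ?_⟩
  intro i g'
  have := (Equiv.ofBijective f₂ hf₂).apply_symm_apply ((Equiv.ofBijective f₁ hf₁) (i, g'))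
  have h2 := congrArg Subtype.val this
  exact h2.symm

/-- **Master lemma**.  `Γ', Γ ≤ G`; `α : ι → G`, `β : κ → G` with
`⊔ᵢ αᵢ⁻¹ Γ' = ⊔ⱼ Γ βⱼ` (disjoint unions); `γ ∈ Γ` with `αᵢ γ = cᵢ α_{σ i}`, `cᵢ ∈ Γ'`.  Then
`∑ᵢ Θ_{Γ'}(a,b)(cᵢ) = ∑ⱼ Θ_Γ(βⱼ a, βⱼ b)(γ)`. -/
theorem master (s : X → C → C → A) (hs : IsInv G s) {Γ' Γ : Subgroup G}
    (hF' : FinCross s Γ') (hF : FinCross s Γ) (α : ι → G) (β : κ → G)
    (hD : ∀ d : G, (∃ i, α i * d ∈ Γ') ↔ (∃ j, d * (β j)⁻¹ ∈ Γ))
    (hαu : ∀ (d : G) (i i' : ι), α i * d ∈ Γ' → α i' * d ∈ Γ' → i = i')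
    (hβu : ∀ (d : G) (j j' : κ), d * (β j)⁻¹ ∈ Γ → d * (β j')⁻¹ ∈ Γ → j = j')
    (γ : Γ) (σ : Equiv.Perm ι) (c : ι → Γ')
    (hc : ∀ i, α i * (γ : G) = (c i : G) * α (σ i)) (P : X) (a b : C) :
    ∑ i, theta s hs Γ' hF' P a b (Additive.ofMul (c i))
      = ∑ j, theta s hs Γ hF P (β j • a) (β j • b) (Additive.ofMul γ) := by
  obtain ⟨e, he⟩ := exists_equiv_of_cover Γ' Γ α β hD hαu hβu
  exact master_equiv s hs hF' hF α β e he γ σ c hc P a b

end Master

/-! ### (N3) corestriction, (N2) restriction, (N1) conjugation -/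

section Cor

variable {ι : Type*} [Fintype ι]

/-- **(N3)** `cores (Θ_{Γ'}(a,b)) = Θ_Γ(a,b)`: for right coset representatives `r` of `Γ' \ Γ`
and the cocycle `rᵢ γ = cᵢ r_{σ i}`. -/
theorem theta_cores (s : X → C → C → A) (hs : IsInv G s) {Γ' Γ : Subgroup G} (hle : Γ' ≤ Γ)
    (hF : FinCross s Γ) (r : ι → G) (hr : ∀ i, r i ∈ Γ)
    (hcov : ∀ g ∈ Γ, ∃ i, g * (r i)⁻¹ ∈ Γ')
    (huniq : ∀ i i', r i * (r i')⁻¹ ∈ Γ' → i = i')
    (γ : Γ) (σ : Equiv.Perm ι) (c : ι → Γ')
    (hc : ∀ i, r i * (γ : G) = (c i : G) * r (σ i)) (P : X) (a b : C) :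
    ∑ i, theta s hs Γ' (hF.mono hle) P a b (Additive.ofMul (c i))
      = theta s hs Γ hF P a b (Additive.ofMul γ) := by
  have := master s hs (hF.mono hle) hF r (fun _ : Unit => (1 : G)) ?_ ?_ ?_ γ σ c hc P a b
  · rw [this]
    simp
  · intro d
    constructor
    · rintro ⟨i, hi⟩
      refine ⟨(), ?_⟩
      have : d = (r i)⁻¹ * (r i * d) := by rw [inv_mul_cancel_left]
      rw [inv_one, mul_one, this]
      exact Γ.mul_mem (Γ.inv_mem (hr i)) (hle hi)
    · rintro ⟨_, hd⟩
      rw [inv_one, mul_one] at hd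
      obtain ⟨i, hi⟩ := hcov d⁻¹ (Γ.inv_mem hd)
      refine ⟨i, ?_⟩
      have : r i * d = (d⁻¹ * (r i)⁻¹)⁻¹ := by rw [mul_inv_rev, inv_inv, inv_inv]
      rw [this]
      exact Γ'.inv_mem hi
  · intro d i i' hi hi'
    refine huniq i i' ?_
    have : r i * (r i')⁻¹ = (r i * d) * (r i' * d)⁻¹ := by
      rw [mul_inv_rev, mul_assoc, mul_inv_cancel_left]
    rw [this]
    exact Γ'.mul_mem hi (Γ'.inv_mem hi')
  · intro d j j' _ _
    rfl

/-- **(N2)** `res (Θ_Γ(a,b)) = ∑ⱼ Θ_{Γ'}(rⱼ a, rⱼ b)` for right coset representatives `r` of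
`Γ' \ Γ`. -/
theorem theta_res (s : X → C → C → A) (hs : IsInv G s) {Γ' Γ : Subgroup G} (hle : Γ' ≤ Γ)
    (hF : FinCross s Γ) (r : ι → G) (hr : ∀ i, r i ∈ Γ)
    (hcov : ∀ g ∈ Γ, ∃ i, g * (r i)⁻¹ ∈ Γ')
    (huniq : ∀ i i', r i * (r i')⁻¹ ∈ Γ' → i = i')
    (γ' : Γ') (P : X) (a b : C) :
    theta s hs Γ hF P a b (Additive.ofMul (Subgroup.inclusion hle γ'))
      = ∑ j, theta s hs Γ' (hF.mono hle) P (r j • a) (r j • b) (Additive.ofMul γ') := by
  have := master s hs hF (hF.mono hle) (fun _ : Unit => (1 : G)) r ?_ ?_ ?_ γ' (Equiv.refl _)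
    (fun _ => Subgroup.inclusion hle γ') ?_ P a b
  · rw [← this]
    simp
  · intro d
    constructor
    · rintro ⟨_, hd⟩
      rw [one_mul] at hd
      exact hcov d hd
    · rintro ⟨j, hj⟩
      refine ⟨(), ?_⟩
      rw [one_mul]
      have : d = (d * (r j)⁻¹) * r j := by rw [inv_mul_cancel_right]
      rw [this]
      exact Γ.mul_mem (hle hj) (hr j)
  · intro d i i' _ _
    rfl
  · intro d j j' hj hj'
    refine huniq j j' ?_
    have : r j * (r j')⁻¹ = (d * (r j)⁻¹)⁻¹ * (d * (r j')⁻¹) := by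
      rw [mul_inv_rev, inv_inv, mul_assoc, inv_mul_cancel_left]
    rw [this]
    exact Γ'.mul_mem (Γ'.inv_mem hj) hj'
  · intro _
    simp

end Cor

/-- The conjugate subgroup `h Γ h⁻¹`. -/
def conjSubgroup (h : G) (Γ : Subgroup G) : Subgroup G := Γ.map (MulAut.conj h).toMonoidHom

theorem mem_conjSubgroup {h : G} {Γ : Subgroup G} {x : G} :
    x ∈ conjSubgroup h Γ ↔ h⁻¹ * x * h ∈ Γ := by
  unfold conjSubgroup
  rw [Subgroup.mem_map]
  constructor
  · rintro ⟨g, hg, rfl⟩
    simpa [MulAut.conj_apply, mul_assoc] using hg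
  · intro hx
    refine ⟨h⁻¹ * x * h, hx, ?_⟩
    simp [MulAut.conj_apply, mul_assoc]

theorem conj_mem_conjSubgroup (h : G) {Γ : Subgroup G} (γ : Γ) :
    h * (γ : G) * h⁻¹ ∈ conjSubgroup h Γ := by
  rw [mem_conjSubgroup]
  simp [mul_assoc]

theorem FinCross.conj {s : X → C → C → A} (hs : IsInv G s) {Γ : Subgroup G}
    (hF : FinCross s Γ) (h : G) : FinCross s (conjSubgroup h Γ) := by
  intro P P' a b
  have := hF (h⁻¹ • P) (h⁻¹ • P') (h⁻¹ • a) (h⁻¹ • b)
  let φ : conjSubgroup h Γ → Γ := fun x => ⟨h⁻¹ * (x : G) * h, mem_conjSubgroup.mp x.2⟩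
  refine Set.Finite.of_injOn (f := φ) ?_ ?_ this
  · intro x hx
    show s (h⁻¹ • P) ((h⁻¹ * (x : G) * h) • h⁻¹ • a) ((h⁻¹ * (x : G) * h) • h⁻¹ • b)
      ≠ s (h⁻¹ • P') ((h⁻¹ * (x : G) * h) • h⁻¹ • a) ((h⁻¹ * (x : G) * h) • h⁻¹ • b)
    have e : ∀ u : C, (h⁻¹ * (x : G) * h) • h⁻¹ • u = h⁻¹ • ((x : G) • u) := by
      intro u
      simp only [mul_smul, smul_inv_smul]
    rw [e, e, hs h⁻¹, hs h⁻¹]
    exact hx
  · intro x _ y _ hxy
    have h1 : h⁻¹ * (x : G) * h = h⁻¹ * (y : G) * h := congrArg Subtype.val hxy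
    exact Subtype.ext (mul_left_cancel (mul_right_cancel h1))

/-- Conjugation invariance of the crossing sums:
`cross (hΓh⁻¹) (hP) (hQ) (ha) (hb) = cross Γ P Q a b`. -/
theorem cross_conj {s : X → C → C → A} (hs : IsInv G s) (Γ : Subgroup G) (h : G) (P Q : X)
    (a b : C) :
    cross s (conjSubgroup h Γ) (h • P) (h • Q) (h • a) (h • b) = cross s Γ P Q a b := by
  unfold cross
  let e : Γ ≃ conjSubgroup h Γ :=
    { toFun := fun g => ⟨h * (g : G) * h⁻¹, conj_mem_conjSubgroup h g⟩
      invFun := fun x => ⟨h⁻¹ * (x : G) * h, mem_conjSubgroup.mp x.2⟩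
      left_inv := fun g => Subtype.ext (by simp [mul_assoc])
      right_inv := fun x => Subtype.ext (by simp [mul_assoc]) }
  rw [← finsum_comp_equiv e]
  refine finsum_congr fun g => ?_
  show term s (h • P) (h • Q) (h • a) (h • b) (h * (g : G) * h⁻¹) = term s P Q a b (g : G)
  unfold term
  have e1 : ∀ u : C, (h * (g : G) * h⁻¹) • h • u = h • ((g : G) • u) := by
    intro u
    simp only [mul_smul, inv_smul_smul]
  rw [e1, e1, hs, hs]

/-- **(N1)** `Θ_{hΓh⁻¹}(a,b)(hγh⁻¹) = Θ_Γ(h⁻¹a, h⁻¹b)(γ)`. -/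
theorem theta_conj (s : X → C → C → A) (hs : IsInv G s) {Γ : Subgroup G}
    (hF : FinCross s Γ) (h : G) (γ : Γ) (P : X) (a b : C) :
    theta s hs (conjSubgroup h Γ) (hF.conj hs h) P a b
        (Additive.ofMul ⟨h * (γ : G) * h⁻¹, conj_mem_conjSubgroup h γ⟩)
      = theta s hs Γ hF P (h⁻¹ • a) (h⁻¹ • b) (Additive.ofMul γ) := by
  have := master s hs (hF.conj hs h) hF (fun _ : Unit => h) (fun _ : Unit => h⁻¹) ?_ ?_ ?_ γ
    (Equiv.refl _) (fun _ => ⟨h * (γ : G) * h⁻¹, conj_mem_conjSubgroup h γ⟩) ?_ P a b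
  · simpa using this
  · intro d
    constructor
    · rintro ⟨_, hd⟩
      refine ⟨(), ?_⟩
      rw [mem_conjSubgroup] at hd
      simpa [mul_assoc] using hd
    · rintro ⟨_, hd⟩
      refine ⟨(), ?_⟩
      rw [mem_conjSubgroup]
      simpa [mul_assoc] using hd
  · intro d i i' _ _
    rfl
  · intro d j j' _ _
    rfl
  · intro _
    simp [mul_assoc]

/-- **(N1)**, second form: `Θ_{hΓh⁻¹}(ha,hb)(hγh⁻¹) = Θ_Γ(a,b)(γ)`. -/
theorem theta_conj' (s : X → C → C → A) (hs : IsInv G s) {Γ : Subgroup G}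
    (hF : FinCross s Γ) (h : G) (γ : Γ) (P : X) (a b : C) :
    theta s hs (conjSubgroup h Γ) (hF.conj hs h) P (h • a) (h • b)
        (Additive.ofMul ⟨h * (γ : G) * h⁻¹, conj_mem_conjSubgroup h γ⟩)
      = theta s hs Γ hF P a b (Additive.ofMul γ) := by
  rw [theta_conj, inv_smul_smul, inv_smul_smul]

end Fermat.Agent.GM.Theta.Calc
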