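import Fermat.Agent.GM.Theta.Defs

set_option autoImplicit false

open scoped MatrixGroups

namespace Fermat.Agent.GM.Theta

/-- `SL(2,ℤ) → GL(2,ℚ)⁺`. -/
noncomputable def emb : SL(2,ℤ) →* GL(2, ℚ)⁺ :=
  (Matrix.SpecialLinearGroup.toGLPos).comp (Matrix.SpecialLinearGroup.map (Int.castRingHom ℚ))

theorem mat_emb (g : SL(2,ℤ)) (i j : Fin 2) : mat (emb g) i j = ((g i j : ℤ) : ℚ) := by
  simp [mat, emb]

theorem emb_smul_cu (g : SL(2,ℤ)) (a : Cu) :
    emb g • a = ⟨(g 0 0 : ℤ) * a.x + (g 0 1 : ℤ) * a.y, (g 1 0 : ℤ) * a.x + (g 1 1 : ℤ) * a.y⟩ := by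
  rw [smul_cu_def]; simp only [Cu.mv, mat_emb]

theorem det_mat_emb (g : SL(2,ℤ)) : (mat (emb g)).det = 1 := by
  rw [Matrix.det_fin_two]; simp only [mat_emb]
  have := g.det_coe
  rw [Matrix.det_fin_two] at this
  exact_mod_cast this


theorem dt_emb_smul (g : SL(2,ℤ)) (a b : Cu) : dt (emb g • a) (emb g • b) = dt a b := by
  rw [dt_smul, det_mat_emb, one_mul]

theorem emb_smul_scale (g : SL(2,ℤ)) (t : ℚ) (a : Cu) :
    emb g • Cu.scale t a = Cu.scale t (emb g • a) := by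
  rw [emb_smul_cu, emb_smul_cu]; ext <;> simp only [Cu.scale] <;> ring

/-- squared euclidean norm of a rational vector -/
def nsq (a : Cu) : ℚ := a.x ^ 2 + a.y ^ 2

theorem nsq_nonneg (a : Cu) : 0 ≤ nsq a := by unfold nsq; positivity

theorem nsq_scale (t : ℚ) (a : Cu) : nsq (Cu.scale t a) = t ^ 2 * nsq a := by
  simp only [nsq, Cu.scale]; ring

/-- the lower eigenvalue bound `disc / trace` -/
noncomputable def Frm.mu (P : Frm) : ℝ := (P.A * P.C - P.B ^ 2) / (P.A + P.C)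

theorem Frm.mu_pos (P : Frm) : 0 < P.mu := by
  unfold Frm.mu
  have := P.hA; have := P.hC; have := P.hD
  positivity

/-- `Q(a) ≥ μ · |a|²`. -/
theorem Frm.lower (P : Frm) (a : Cu) : P.mu * ((nsq a : ℚ) : ℝ) ≤ P.bil a a := by
  have hs : 0 < P.A + P.C := by have := P.hA; have := P.hC; linarith
  have key : (P.A + P.C) * P.bil a a
      = (P.A * a.x + P.B * a.y) ^ 2 + (P.B * a.x + P.C * a.y) ^ 2
        + (P.A * P.C - P.B ^ 2) * ((nsq a : ℚ) : ℝ) := by
    simp only [Frm.bil, nsq]; push_cast; ring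
  unfold Frm.mu
  rw [div_mul_eq_mul_div, div_le_iff₀ hs]
  nlinarith [sq_nonneg (P.A * (a.x : ℝ) + P.B * a.y), sq_nonneg (P.B * (a.x : ℝ) + P.C * a.y)]

/-- An integral vector: both coordinates are integers. -/
def Cu.IsInt (a : Cu) : Prop := ∃ m n : ℤ, a = ⟨m, n⟩

theorem Cu.IsInt.smul {a : Cu} (ha : a.IsInt) (g : SL(2,ℤ)) : (emb g • a).IsInt := by
  obtain ⟨m, n, rfl⟩ := ha
  refine ⟨g 0 0 * m + g 0 1 * n, g 1 0 * m + g 1 1 * n, ?_⟩
  rw [emb_smul_cu]; ext <;> push_cast <;> ring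

theorem Cu.IsInt.one_le_nsq {a : Cu} (ha : a.IsInt) (h0 : a.x ≠ 0 ∨ a.y ≠ 0) : 1 ≤ nsq a := by
  obtain ⟨m, n, rfl⟩ := ha
  simp only [nsq]
  have : (1 : ℤ) ≤ m ^ 2 + n ^ 2 := by
    rcases h0 with h | h
    · have hm : m ≠ 0 := by intro h'; apply h; simp [h']
      have : 1 ≤ m ^ 2 := by
        have := sq_pos_of_ne_zero hm; omega
      nlinarith [sq_nonneg n]
    · have hn : n ≠ 0 := by intro h'; apply h; simp [h']
      have : 1 ≤ n ^ 2 := by
        have := sq_pos_of_ne_zero hn; omega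
      nlinarith [sq_nonneg m]
  exact_mod_cast this

/-- every rational vector is a nonzero rational multiple of an integral one -/
theorem Cu.exists_scale_isInt (a : Cu) : ∃ t : ℚ, t ≠ 0 ∧ (Cu.scale t a).IsInt := by
  refine ⟨(a.x.den * a.y.den : ℕ), ?_, a.x.num * a.y.den, a.y.num * a.x.den, ?_⟩
  · have h1 := a.x.den_ne_zero; have h2 := a.y.den_ne_zero
    exact_mod_cast Nat.mul_ne_zero h1 h2
  · ext
    · simp only [Cu.scale]
      have h := Rat.num_div_den a.x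
      have hd : (a.x.den : ℚ) ≠ 0 := by exact_mod_cast a.x.den_ne_zero
      push_cast
      calc (a.x.den : ℚ) * a.y.den * a.x = (a.x.den : ℚ) * a.y.den * (a.x.num / a.x.den) := by rw [h]
        _ = a.x.num * a.y.den := by field_simp
    · simp only [Cu.scale]
      have h := Rat.num_div_den a.y
      have hd : (a.y.den : ℚ) ≠ 0 := by exact_mod_cast a.y.den_ne_zero
      push_cast
      calc (a.x.den : ℚ) * a.y.den * a.y = (a.x.den : ℚ) * a.y.den * (a.y.num / a.y.den) := by rw [h]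
        _ = a.y.num * a.x.den := by field_simp

theorem smul_ne_zero_of_ne_zero (g : SL(2,ℤ)) {a : Cu} (h0 : a.x ≠ 0 ∨ a.y ≠ 0) :
    (emb g • a).x ≠ 0 ∨ (emb g • a).y ≠ 0 := by
  by_contra h
  rw [not_or, not_not, not_not] at h
  have h1 : emb g • a = ⟨0, 0⟩ := Cu.ext h.1 h.2
  have h2 : a = (emb g)⁻¹ • (⟨0, 0⟩ : Cu) := by rw [← h1, inv_smul_smul]
  have h3 : (emb g)⁻¹ • (⟨0, 0⟩ : Cu) = ⟨0, 0⟩ := by
    rw [smul_cu_def]; simp [Cu.mv]
  rw [h3] at h2
  rcases h0 with h0 | h0 <;> · apply h0; rw [h2]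

/-- uniform lower bound for the norms in an `SL(2,ℤ)`-orbit of a nonzero rational vector -/
theorem exists_nsq_lower {a : Cu} (h0 : a.x ≠ 0 ∨ a.y ≠ 0) :
    ∃ ν : ℚ, 0 < ν ∧ ∀ g : SL(2,ℤ), ν ≤ nsq (emb g • a) := by
  obtain ⟨t, ht, hint⟩ := Cu.exists_scale_isInt a
  refine ⟨1 / t ^ 2, by positivity, fun g => ?_⟩
  have h1 : (emb g • Cu.scale t a).IsInt := hint.smul g
  have h2 : (emb g • Cu.scale t a).x ≠ 0 ∨ (emb g • Cu.scale t a).y ≠ 0 := by
    apply smul_ne_zero_of_ne_zero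
    simp only [Cu.scale]
    rcases h0 with h | h
    · left; exact mul_ne_zero ht h
    · right; exact mul_ne_zero ht h
  have h3 := h1.one_le_nsq h2
  rw [emb_smul_scale, nsq_scale] at h3
  have ht2 : (0 : ℚ) < t ^ 2 := by positivity
  rw [div_le_iff₀ ht2]
  linarith


theorem finite_bdd_entries (K : ℤ) : {g : SL(2,ℤ) | ∀ i j, |g i j| ≤ K}.Finite := by
  have hfin : (Set.pi Set.univ
      (fun _ : Fin 2 => Set.pi Set.univ (fun _ : Fin 2 => Set.Icc (-K) K))).Finite :=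
    Set.Finite.pi (fun _ => Set.Finite.pi (fun _ => Set.finite_Icc _ _))
  refine Set.Finite.subset
    (hfin.preimage (f := fun g : SL(2,ℤ) => fun i j => g i j) ?_) ?_
  · intro g _ h _ hgh
    ext i j
    exact congrFun (congrFun hgh i) j
  · intro g hg
    simp only [Set.mem_preimage, Set.mem_pi, Set.mem_univ, Set.mem_Icc, forall_true_left]
    intro i j
    exact abs_le.1 (hg i j)

theorem abs_le_of_sq_le {x R : ℚ} (h : x ^ 2 ≤ R) : |x| ≤ R + 1 := by
  have hx : |x| ^ 2 = x ^ 2 := sq_abs x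
  have h0 : 0 ≤ |x| := abs_nonneg x
  by_cases h1 : |x| ≤ 1
  · have : 0 ≤ R := le_trans (sq_nonneg x) h
    linarith
  · rw [not_le] at h1
    nlinarith

/-- Only finitely many `g ∈ SL(2,ℤ)` keep two independent vectors in a bounded region. -/
theorem finite_of_nsq_le {a b : Cu} (hD : dt a b ≠ 0) (R : ℚ) :
    {g : SL(2,ℤ) | nsq (emb g • a) ≤ R ∧ nsq (emb g • b) ≤ R}.Finite := by
  set M : ℚ := (R + 1) * (|a.x| + |a.y| + |b.x| + |b.y|) / |dt a b| with hM
  have hDpos : 0 < |dt a b| := abs_pos.2 hD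
  refine Set.Finite.subset (finite_bdd_entries ⌈2 * M⌉) ?_
  intro g hg
  obtain ⟨hu, hw⟩ := hg
  rw [emb_smul_cu] at hu hw
  simp only [nsq] at hu hw
  set u1 : ℚ := (g 0 0 : ℤ) * a.x + (g 0 1 : ℤ) * a.y with hu1
  set u2 : ℚ := (g 1 0 : ℤ) * a.x + (g 1 1 : ℤ) * a.y with hu2
  set w1 : ℚ := (g 0 0 : ℤ) * b.x + (g 0 1 : ℤ) * b.y with hw1
  set w2 : ℚ := (g 1 0 : ℤ) * b.x + (g 1 1 : ℤ) * b.y with hw2
  have bu1 : |u1| ≤ R + 1 := abs_le_of_sq_le (by nlinarith [sq_nonneg u2])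
  have bu2 : |u2| ≤ R + 1 := abs_le_of_sq_le (by nlinarith [sq_nonneg u1])
  have bw1 : |w1| ≤ R + 1 := abs_le_of_sq_le (by nlinarith [sq_nonneg w2])
  have bw2 : |w2| ≤ R + 1 := abs_le_of_sq_le (by nlinarith [sq_nonneg w1])
  have hR : 0 ≤ R + 1 := le_trans (abs_nonneg _) bu1
  have e00 : ((g 0 0 : ℤ) : ℚ) * dt a b = u1 * b.y - w1 * a.y := by
    simp only [hu1, hw1, dt]; ring
  have e01 : ((g 0 1 : ℤ) : ℚ) * dt a b = w1 * a.x - u1 * b.x := by
    simp only [hu1, hw1, dt]; ring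
  have e10 : ((g 1 0 : ℤ) : ℚ) * dt a b = u2 * b.y - w2 * a.y := by
    simp only [hu2, hw2, dt]; ring
  have e11 : ((g 1 1 : ℤ) : ℚ) * dt a b = w2 * a.x - u2 * b.x := by
    simp only [hu2, hw2, dt]; ring
  have hax := abs_nonneg a.x; have hay := abs_nonneg a.y
  have hbx := abs_nonneg b.x; have hby := abs_nonneg b.y
  -- generic bound
  have bound : ∀ (z p q r s : ℚ), z * dt a b = p * q - r * s → |p| ≤ R + 1 → |r| ≤ R + 1 →
      |q| ≤ |a.x| + |a.y| + |b.x| + |b.y| → |s| ≤ |a.x| + |a.y| + |b.x| + |b.y| →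
      |z| ≤ 2 * M := by
    intro z p q r s hz hp hr hq hs
    have h1 : |z| * |dt a b| = |p * q - r * s| := by rw [← abs_mul, hz]
    have h2 : |p * q - r * s| ≤ |p| * |q| + |r| * |s| := by
      calc |p * q - r * s| ≤ |p * q| + |r * s| := abs_sub _ _
        _ = |p| * |q| + |r| * |s| := by rw [abs_mul, abs_mul]
    have h3 : |p| * |q| ≤ (R + 1) * (|a.x| + |a.y| + |b.x| + |b.y|) :=
      mul_le_mul hp hq (abs_nonneg _) hR
    have h4 : |r| * |s| ≤ (R + 1) * (|a.x| + |a.y| + |b.x| + |b.y|) :=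
      mul_le_mul hr hs (abs_nonneg _) hR
    rw [hM, mul_div_assoc', le_div_iff₀ hDpos]
    linarith
  have hq1 : |b.y| ≤ |a.x| + |a.y| + |b.x| + |b.y| := by linarith
  have hq2 : |a.y| ≤ |a.x| + |a.y| + |b.x| + |b.y| := by linarith
  have hq3 : |a.x| ≤ |a.x| + |a.y| + |b.x| + |b.y| := by linarith
  have hq4 : |b.x| ≤ |a.x| + |a.y| + |b.x| + |b.y| := by linarith
  have b00 := bound _ _ _ _ _ e00 bu1 bw1 hq1 hq2
  have b01 := bound _ _ _ _ _ e01 bw1 bu1 hq3 hq4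
  have b10 := bound _ _ _ _ _ e10 bu2 bw2 hq1 hq2
  have b11 := bound _ _ _ _ _ e11 bw2 bu2 hq3 hq4
  have fin : ∀ z : ℤ, |(z : ℚ)| ≤ 2 * M → |z| ≤ ⌈2 * M⌉ := by
    intro z hz
    have h1 : ((|z| : ℤ) : ℚ) ≤ ((⌈2 * M⌉ : ℤ) : ℚ) := by
      rw [Int.cast_abs]
      exact le_trans hz (Int.le_ceil _)
    exact_mod_cast h1
  intro i j
  fin_cases i <;> fin_cases j
  · exact fin _ b00
  · exact fin _ b01
  · exact fin _ b10
  · exact fin _ b11


/-- Gram identity for a linear combination of two forms. -/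
theorem gram_comb (P P' : Frm) (l l' : ℝ) (u w : Cu) :
    (l * P.bil u w + l' * P'.bil u w) ^ 2
      + ((l * P.A + l' * P'.A) * (l * P.C + l' * P'.C) - (l * P.B + l' * P'.B) ^ 2)
          * ((dt u w : ℚ) : ℝ) ^ 2
      = (l * P.bil u u + l' * P'.bil u u) * (l * P.bil w w + l' * P'.bil w w) := by
  simp only [Frm.bil, dt]; push_cast; ring

/-- **Crossing bound.** If the geodesic `{u, w}` (weakly) separates the points `P` and `P'`,
then `|u|² |w|²` is bounded in terms of `det (u | w)`. -/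
theorem cross_bound (P P' : Frm) (u w : Cu) (h : P.bil u w * P'.bil u w ≤ 0)
    (hne : P.bil u w ≠ 0 ∨ P'.bil u w ≠ 0) :
    (min P.mu P'.mu) ^ 2 * (((nsq u : ℚ) : ℝ) * ((nsq w : ℚ) : ℝ))
      ≤ max P.A P'.A * max P.C P'.C * ((dt u w : ℚ) : ℝ) ^ 2 := by
  obtain ⟨p, hp⟩ : ∃ p, p = P.bil u w := ⟨_, rfl⟩
  obtain ⟨p', hp'⟩ : ∃ p', p' = P'.bil u w := ⟨_, rfl⟩
  rw [← hp, ← hp'] at h hne
  have hl : 0 ≤ |p'| := abs_nonneg _
  have hl' : 0 ≤ |p| := abs_nonneg _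
  have hL : 0 < |p'| + |p| := by
    rcases hne with h1 | h1
    · have := abs_pos.2 h1; linarith
    · have := abs_pos.2 h1; linarith
  have hzero : |p'| * p + |p| * p' = 0 := by
    rcases le_total 0 p with h1 | h1
    · have h2 : p' ≤ 0 ∨ p = 0 := by
        by_contra hc
        rw [not_or, not_le] at hc
        have : 0 < p := lt_of_le_of_ne h1 (Ne.symm hc.2)
        nlinarith
      rcases h2 with h2 | h2
      · rw [abs_of_nonneg h1, abs_of_nonpos h2]; ring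
      · rw [h2]; simp
    · have h2 : 0 ≤ p' ∨ p = 0 := by
        by_contra hc
        rw [not_or, not_le] at hc
        have : p < 0 := lt_of_le_of_ne h1 hc.2
        nlinarith
      rcases h2 with h2 | h2
      · rw [abs_of_nonpos h1, abs_of_nonneg h2]; ring
      · rw [h2]; simp
  have gram := gram_comb P P' |p'| |p| u w
  rw [← hp, ← hp', hzero] at gram
  set m := min P.mu P'.mu with hm
  have hm0 : 0 < m := lt_min P.mu_pos P'.mu_pos
  have hmP : m ≤ P.mu := min_le_left _ _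
  have hmP' : m ≤ P'.mu := min_le_right _ _
  set Am := max P.A P'.A with hAm
  set Cm := max P.C P'.C with hCm
  have hA1 : P.A ≤ Am := le_max_left _ _
  have hA2 : P'.A ≤ Am := le_max_right _ _
  have hC1 : P.C ≤ Cm := le_max_left _ _
  have hC2 : P'.C ≤ Cm := le_max_right _ _
  have hPA := P.hA; have hPA' := P'.hA; have hPC := P.hC; have hPC' := P'.hC
  set nu : ℝ := ((nsq u : ℚ) : ℝ) with hnu
  set nw : ℝ := ((nsq w : ℚ) : ℝ) with hnw
  have hnu0 : 0 ≤ nu := by rw [hnu]; exact_mod_cast nsq_nonneg u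
  have hnw0 : 0 ≤ nw := by rw [hnw]; exact_mod_cast nsq_nonneg w
  -- lower bounds
  have lu : (|p'| + |p|) * (m * nu) ≤ |p'| * P.bil u u + |p| * P'.bil u u := by
    have h1 : m * nu ≤ P.bil u u := le_trans (mul_le_mul_of_nonneg_right hmP hnu0) (P.lower u)
    have h2 : m * nu ≤ P'.bil u u := le_trans (mul_le_mul_of_nonneg_right hmP' hnu0) (P'.lower u)
    have := add_le_add (mul_le_mul_of_nonneg_left h1 hl) (mul_le_mul_of_nonneg_left h2 hl')
    linarith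
  have lw : (|p'| + |p|) * (m * nw) ≤ |p'| * P.bil w w + |p| * P'.bil w w := by
    have h1 : m * nw ≤ P.bil w w := le_trans (mul_le_mul_of_nonneg_right hmP hnw0) (P.lower w)
    have h2 : m * nw ≤ P'.bil w w := le_trans (mul_le_mul_of_nonneg_right hmP' hnw0) (P'.lower w)
    have := add_le_add (mul_le_mul_of_nonneg_left h1 hl) (mul_le_mul_of_nonneg_left h2 hl')
    linarith
  have lu0 : 0 ≤ (|p'| + |p|) * (m * nu) := by positivity
  have lw0 : 0 ≤ (|p'| + |p|) * (m * nw) := by positivity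
  have lower : ((|p'| + |p|) * (m * nu)) * ((|p'| + |p|) * (m * nw))
      ≤ (|p'| * P.bil u u + |p| * P'.bil u u) * (|p'| * P.bil w w + |p| * P'.bil w w) :=
    mul_le_mul lu lw lw0 (le_trans lu0 lu)
  -- upper bound
  have uA : |p'| * P.A + |p| * P'.A ≤ (|p'| + |p|) * Am := by
    have := add_le_add (mul_le_mul_of_nonneg_left hA1 hl) (mul_le_mul_of_nonneg_left hA2 hl')
    linarith
  have uC : |p'| * P.C + |p| * P'.C ≤ (|p'| + |p|) * Cm := by
    have := add_le_add (mul_le_mul_of_nonneg_left hC1 hl) (mul_le_mul_of_nonneg_left hC2 hl')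
    linarith
  have uA0 : 0 ≤ |p'| * P.A + |p| * P'.A := by positivity
  have uC0 : 0 ≤ |p'| * P.C + |p| * P'.C := by positivity
  have upper : (|p'| * P.A + |p| * P'.A) * (|p'| * P.C + |p| * P'.C)
      ≤ ((|p'| + |p|) * Am) * ((|p'| + |p|) * Cm) :=
    mul_le_mul uA uC uC0 (le_trans uA0 uA)
  have hD2 : 0 ≤ ((dt u w : ℚ) : ℝ) ^ 2 := sq_nonneg _
  have hB2 : 0 ≤ (|p'| * P.B + |p| * P'.B) ^ 2 := sq_nonneg _
  have key : (|p'| + |p|) ^ 2 * (m ^ 2 * (nu * nw))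
      ≤ (|p'| + |p|) ^ 2 * (Am * Cm * ((dt u w : ℚ) : ℝ) ^ 2) := by
    have e1 : ((|p'| + |p|) * (m * nu)) * ((|p'| + |p|) * (m * nw))
        = (|p'| + |p|) ^ 2 * (m ^ 2 * (nu * nw)) := by ring
    have e2 : ((|p'| + |p|) * Am) * ((|p'| + |p|) * Cm) * ((dt u w : ℚ) : ℝ) ^ 2
        = (|p'| + |p|) ^ 2 * (Am * Cm * ((dt u w : ℚ) : ℝ) ^ 2) := by ring
    rw [← e1, ← e2]
    have h3 : ((|p'| * P.A + |p| * P'.A) * (|p'| * P.C + |p| * P'.C)
        - (|p'| * P.B + |p| * P'.B) ^ 2) * ((dt u w : ℚ) : ℝ) ^ 2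
        ≤ ((|p'| + |p|) * Am) * ((|p'| + |p|) * Cm) * ((dt u w : ℚ) : ℝ) ^ 2 := by
      apply mul_le_mul_of_nonneg_right _ hD2
      linarith
    have h4 : (0:ℝ) ^ 2 = 0 := by norm_num
    rw [h4, zero_add] at gram
    linarith
  have hL2 : 0 < (|p'| + |p|) ^ 2 := by positivity
  exact le_of_mul_le_mul_left key hL2


theorem ne_zero_of_dt_ne_zero_left {a b : Cu} (h : dt a b ≠ 0) : a.x ≠ 0 ∨ a.y ≠ 0 := by
  by_contra hc
  rw [not_or, not_not, not_not] at hc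
  apply h; simp [dt, hc.1, hc.2]

theorem ne_zero_of_dt_ne_zero_right {a b : Cu} (h : dt a b ≠ 0) : b.x ≠ 0 ∨ b.y ≠ 0 := by
  by_contra hc
  rw [not_or, not_not, not_not] at hc
  apply h; simp [dt, hc.1, hc.2]

/-- A real bound on both norms in the orbit gives finiteness. -/
theorem finite_of_real_bound {a b : Cu} (hD : dt a b ≠ 0) (B : ℝ) :
    {g : SL(2,ℤ) | ((nsq (emb g • a) : ℚ) : ℝ) ≤ B ∧ ((nsq (emb g • b) : ℚ) : ℝ) ≤ B}.Finite := by
  refine Set.Finite.subset (finite_of_nsq_le hD ((⌈B⌉₊ : ℕ) : ℚ)) ?_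
  intro g hg
  have hB : B ≤ ((⌈B⌉₊ : ℕ) : ℝ) := Nat.le_ceil B
  constructor
  · have : ((nsq (emb g • a) : ℚ) : ℝ) ≤ (((⌈B⌉₊ : ℕ) : ℚ) : ℝ) := by
      push_cast; exact le_trans hg.1 hB
    exact_mod_cast this
  · have : ((nsq (emb g • b) : ℚ) : ℝ) ≤ (((⌈B⌉₊ : ℕ) : ℚ) : ℝ) := by
      push_cast; exact le_trans hg.2 hB
    exact_mod_cast this

/-- If `|ga|²·|gb|² ≤ K` for `g` in a set, the set is finite. -/
theorem finite_of_prod_bound {a b : Cu} (hD : dt a b ≠ 0) (K : ℝ) :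
    {g : SL(2,ℤ) | ((nsq (emb g • a) : ℚ) : ℝ) * ((nsq (emb g • b) : ℚ) : ℝ) ≤ K}.Finite := by
  obtain ⟨νa, hνa, ha⟩ := exists_nsq_lower (ne_zero_of_dt_ne_zero_left hD)
  obtain ⟨νb, hνb, hb⟩ := exists_nsq_lower (ne_zero_of_dt_ne_zero_right hD)
  have hνa' : (0 : ℝ) < (νa : ℝ) := by exact_mod_cast hνa
  have hνb' : (0 : ℝ) < (νb : ℝ) := by exact_mod_cast hνb
  refine Set.Finite.subset (finite_of_real_bound hD (max (K / νa) (K / νb))) ?_
  intro g hg
  have h1 : (νa : ℝ) ≤ ((nsq (emb g • a) : ℚ) : ℝ) := by exact_mod_cast ha g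
  have h2 : (νb : ℝ) ≤ ((nsq (emb g • b) : ℚ) : ℝ) := by exact_mod_cast hb g
  have hg' : ((nsq (emb g • a) : ℚ) : ℝ) * ((nsq (emb g • b) : ℚ) : ℝ) ≤ K := hg
  have n1 : (0 : ℝ) ≤ ((nsq (emb g • a) : ℚ) : ℝ) := le_trans hνa'.le h1
  have n2 : (0 : ℝ) ≤ ((nsq (emb g • b) : ℚ) : ℝ) := le_trans hνb'.le h2
  constructor
  · apply le_trans _ (le_max_right _ _)
    rw [le_div_iff₀ hνb']
    calc ((nsq (emb g • a) : ℚ) : ℝ) * νb ≤ ((nsq (emb g • a) : ℚ) : ℝ) * ((nsq (emb g • b) : ℚ) : ℝ) :=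
          mul_le_mul_of_nonneg_left h2 n1
      _ ≤ K := hg'
  · apply le_trans _ (le_max_left _ _)
    rw [le_div_iff₀ hνa']
    calc ((nsq (emb g • b) : ℚ) : ℝ) * νa ≤ ((nsq (emb g • b) : ℚ) : ℝ) * ((nsq (emb g • a) : ℚ) : ℝ) :=
          mul_le_mul_of_nonneg_left h1 n2
      _ = ((nsq (emb g • a) : ℚ) : ℝ) * ((nsq (emb g • b) : ℚ) : ℝ) := mul_comm _ _
      _ ≤ K := hg'

/-- **(F)**: only finitely many `SL(2,ℤ)`-translates of the geodesic `{a, b}` separate two given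
interior points. -/
theorem finCross_SL2Z (P P' : Frm) (a b : Cu) :
    {g : SL(2,ℤ) | side P (emb g • a) (emb g • b) ≠ side P' (emb g • a) (emb g • b)}.Finite := by
  by_cases hD : dt a b = 0
  · convert Set.finite_empty
    ext g
    simp only [Set.mem_ofPred_eq, Set.mem_empty_iff_false, iff_false, not_not]
    unfold side
    rw [dt_emb_smul, hD]; simp
  · set m := min P.mu P'.mu with hm
    have hm0 : 0 < m := lt_min P.mu_pos P'.mu_pos
    set K : ℝ := max P.A P'.A * max P.C P'.C * ((dt a b : ℚ) : ℝ) ^ 2 / m ^ 2 with hK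
    refine Set.Finite.subset (finite_of_prod_bound hD K) ?_
    intro g hg
    simp only [Set.mem_ofPred_eq] at hg ⊢
    have hDg := dt_emb_smul g a b
    set u := emb g • a with hu
    set w := emb g • b with hw
    have hDr : ((dt u w : ℚ) : ℝ) ≠ 0 := by rw [hDg]; exact_mod_cast hD
    have hD2 : 0 < ((dt u w : ℚ) : ℝ) ^ 2 := by positivity
    -- the two sides differ: the products `p D`, `p' D` have different strict signs
    have hsep : P.bil u w * P'.bil u w ≤ 0 ∧ (P.bil u w ≠ 0 ∨ P'.bil u w ≠ 0) := by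
      unfold side at hg
      by_cases h1 : P.bil u w * ((dt u w : ℚ) : ℝ) < 0
      · by_cases h2 : P'.bil u w * ((dt u w : ℚ) : ℝ) < 0
        · simp [h1, h2] at hg
        · rw [not_lt] at h2
          refine ⟨?_, Or.inl ?_⟩
          · have : (P.bil u w * P'.bil u w) * ((dt u w : ℚ) : ℝ) ^ 2 ≤ 0 := by nlinarith
            by_contra hc; rw [not_le] at hc
            have := mul_pos hc hD2; linarith
          · intro h0; rw [h0] at h1; simp at h1
      · by_cases h2 : P'.bil u w * ((dt u w : ℚ) : ℝ) < 0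
        · rw [not_lt] at h1
          refine ⟨?_, Or.inr ?_⟩
          · have : (P.bil u w * P'.bil u w) * ((dt u w : ℚ) : ℝ) ^ 2 ≤ 0 := by nlinarith
            by_contra hc; rw [not_le] at hc
            have := mul_pos hc hD2; linarith
          · intro h0; rw [h0] at h2; simp at h2
        · simp [h1, h2] at hg
    have hb := cross_bound P P' u w hsep.1 hsep.2
    rw [hDg] at hb
    rw [hK, le_div_iff₀ (by positivity)]
    rw [← hm] at hb
    linarith

end Fermat.Agent.GM.Theta
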