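/-
GATE-M / S41-THETA-FIN (core): the two finiteness inequalities behind the intrinsic crossing
formula of helper37 (board 3542), in a definition-free form.  Mathlib only.

`bil A B C` is the real symmetric bilinear form with matrix `[[A,B],[B,C]]` evaluated on
integer vectors, `dt` the determinant of two integer vectors, `nsq` the squared euclidean norm.

* `exists_bound_of_sign_change` : (F) if `bil P v w` and `bil P' v w` have opposite signs
  (weakly) for two positive definite forms, then `|v|², |w|² ≤ K · dt(v,w)²`.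
* `exists_bound_of_inside` : (T) if `a + b + c = 0` and the three cross terms `-bil P a b`,
  `-bil P b c`, `-bil P c a` are `≥ 0`, then `|a|², |b|², |c|² ≤ K · dt(a,b)²`.
* `finite_sign_change`, `finite_inside` : the corresponding sets of `g ∈ SL(2,ℤ)` are finite.
-/
import Mathlib

set_option autoImplicit false

open scoped MatrixGroups

namespace Fermat.Agent.GM.Theta.FinCore

/-- The real symmetric bilinear form `[[A,B],[B,C]]` on integer vectors. -/
def bil (A B C : ℝ) (v w : Fin 2 → ℤ) : ℝ :=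
  A * v 0 * w 0 + B * (v 0 * w 1 + v 1 * w 0) + C * v 1 * w 1

/-- The determinant of two integer vectors. -/
def dt (v w : Fin 2 → ℤ) : ℤ := v 0 * w 1 - v 1 * w 0

/-- The squared euclidean norm of an integer vector. -/
def nsq (v : Fin 2 → ℤ) : ℤ := v 0 ^ 2 + v 1 ^ 2

theorem bil_comm (A B C : ℝ) (v w : Fin 2 → ℤ) : bil A B C v w = bil A B C w v := by
  unfold bil; ring

theorem gram (A B C : ℝ) (v w : Fin 2 → ℤ) :
    bil A B C v w ^ 2 + (A * C - B ^ 2) * (dt v w : ℝ) ^ 2
      = bil A B C v v * bil A B C w w := by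
  unfold bil dt; push_cast; ring

theorem bil_combo (s r A B C A' B' C' : ℝ) (v w : Fin 2 → ℤ) :
    bil (s * A + r * A') (s * B + r * B') (s * C + r * C') v w
      = s * bil A B C v w + r * bil A' B' C' v w := by
  unfold bil; ring

theorem nsq_nonneg (v : Fin 2 → ℤ) : 0 ≤ nsq v := by unfold nsq; positivity

theorem one_le_nsq {v : Fin 2 → ℤ} (hv : v ≠ 0) : 1 ≤ nsq v := by
  have h : v 0 ≠ 0 ∨ v 1 ≠ 0 := by
    by_contra hcon
    push Not at hcon
    apply hv
    funext i
    fin_cases i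
    · exact hcon.1
    · exact hcon.2
  unfold nsq
  rcases h with h | h
  · have : 1 ≤ v 0 ^ 2 := by
      have := Int.one_le_abs h
      nlinarith [sq_abs (v 0), abs_nonneg (v 0)]
    nlinarith [sq_nonneg (v 1)]
  · have : 1 ≤ v 1 ^ 2 := by
      have := Int.one_le_abs h
      nlinarith [sq_abs (v 1), abs_nonneg (v 1)]
    nlinarith [sq_nonneg (v 0)]

theorem C_pos {A B C : ℝ} (hA : 0 < A) (hdet : 0 < A * C - B ^ 2) : 0 < C := by
  by_contra h
  push Not at h
  nlinarith [sq_nonneg B, mul_nonpos_of_nonneg_of_nonpos hA.le h]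

/-- The lower bound `Q(v) ≥ det/(A+C) · |v|²` for a positive definite form. -/
theorem lower (A B C : ℝ) (hA : 0 < A) (hdet : 0 < A * C - B ^ 2) (v : Fin 2 → ℤ) :
    (A * C - B ^ 2) / (A + C) * (nsq v : ℝ) ≤ bil A B C v v := by
  have hC := C_pos hA hdet
  have hAC : 0 < A + C := by linarith
  rw [div_mul_eq_mul_div, div_le_iff₀ hAC]
  unfold bil nsq
  push_cast
  nlinarith [sq_nonneg (A * v 0 + B * v 1), sq_nonneg (B * v 0 + C * v 1)]

/-- A lower bound valid for two positive definite forms simultaneously. -/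
theorem exists_common_lower (A B C A' B' C' : ℝ) (hA : 0 < A) (hdet : 0 < A * C - B ^ 2)
    (hA' : 0 < A') (hdet' : 0 < A' * C' - B' ^ 2) :
    ∃ μ : ℝ, 0 < μ ∧ (∀ v, μ * (nsq v : ℝ) ≤ bil A B C v v) ∧
      (∀ v, μ * (nsq v : ℝ) ≤ bil A' B' C' v v) := by
  have hC := C_pos hA hdet
  have hC' := C_pos hA' hdet'
  set m := (A * C - B ^ 2) / (A + C) with hm
  set m' := (A' * C' - B' ^ 2) / (A' + C') with hm'
  have hmpos : 0 < m := div_pos hdet (by linarith)
  have hm'pos : 0 < m' := div_pos hdet' (by linarith)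
  refine ⟨min m m', lt_min hmpos hm'pos, fun v => ?_, fun v => ?_⟩
  · have h1 := lower A B C hA hdet v
    have h2 : (0:ℝ) ≤ (nsq v : ℝ) := by exact_mod_cast nsq_nonneg v
    calc min m m' * (nsq v : ℝ) ≤ m * (nsq v : ℝ) :=
          mul_le_mul_of_nonneg_right (min_le_left _ _) h2
      _ ≤ _ := h1
  · have h1 := lower A' B' C' hA' hdet' v
    have h2 : (0:ℝ) ≤ (nsq v : ℝ) := by exact_mod_cast nsq_nonneg v
    calc min m m' * (nsq v : ℝ) ≤ m' * (nsq v : ℝ) :=
          mul_le_mul_of_nonneg_right (min_le_right _ _) h2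
      _ ≤ _ := h1

/-- Core of (F): with nonnegative weights `s, r`, not both zero, such that the combined form
`s P + r P'` pairs `v, w` to zero, the norms of `v, w` are bounded by the determinant. -/
theorem bound_of_combo_zero (A B C A' B' C' μ : ℝ) (hA : 0 < A) (hdet : 0 < A * C - B ^ 2)
    (hA' : 0 < A') (hdet' : 0 < A' * C' - B' ^ 2) (hμ : 0 < μ)
    (hl : ∀ v, μ * (nsq v : ℝ) ≤ bil A B C v v) (hl' : ∀ v, μ * (nsq v : ℝ) ≤ bil A' B' C' v v)
    (s r : ℝ) (hs : 0 ≤ s) (hr : 0 ≤ r) (hsr : 0 < s + r) (v w : Fin 2 → ℤ)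
    (h0 : s * bil A B C v w + r * bil A' B' C' v w = 0) :
    μ ^ 2 * ((nsq v : ℝ) * (nsq w : ℝ)) ≤ (max A A' * max C C') * (dt v w : ℝ) ^ 2 := by
  have hC := C_pos hA hdet
  have hC' := C_pos hA' hdet'
  have hg := gram (s * A + r * A') (s * B + r * B') (s * C + r * C') v w
  rw [bil_combo, bil_combo, bil_combo, h0] at hg
  -- lower bounds for the combined form
  have hv : (s + r) * (μ * (nsq v : ℝ)) ≤ s * bil A B C v v + r * bil A' B' C' v v := by
    nlinarith [hl v, hl' v]
  have hw : (s + r) * (μ * (nsq w : ℝ)) ≤ s * bil A B C w w + r * bil A' B' C' w w := by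
    nlinarith [hl w, hl' w]
  have hnv : (0:ℝ) ≤ (nsq v : ℝ) := by exact_mod_cast nsq_nonneg v
  have hnw : (0:ℝ) ≤ (nsq w : ℝ) := by exact_mod_cast nsq_nonneg w
  -- upper bound for the determinant of the combined form
  have hAm : s * A + r * A' ≤ (s + r) * max A A' := by
    nlinarith [le_max_left A A', le_max_right A A']
  have hCm : s * C + r * C' ≤ (s + r) * max C C' := by
    nlinarith [le_max_left C C', le_max_right C C']
  have hA0 : 0 ≤ s * A + r * A' := by positivity
  have hC0 : 0 ≤ s * C + r * C' := by positivity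
  have hmaxA : 0 < max A A' := lt_max_of_lt_left hA
  have hmaxC : 0 < max C C' := lt_max_of_lt_left hC
  have hdetle : (s * A + r * A') * (s * C + r * C') - (s * B + r * B') ^ 2
      ≤ (s + r) ^ 2 * (max A A' * max C C') := by
    have : (s * A + r * A') * (s * C + r * C') ≤ ((s + r) * max A A') * ((s + r) * max C C') :=
      mul_le_mul hAm hCm hC0 (by positivity)
    nlinarith [sq_nonneg (s * B + r * B')]
  have hD : (0:ℝ) ≤ (dt v w : ℝ) ^ 2 := sq_nonneg _
  -- combine
  have h1 : ((s + r) * (μ * (nsq v : ℝ))) * ((s + r) * (μ * (nsq w : ℝ)))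
      ≤ (s * bil A B C v v + r * bil A' B' C' v v) * (s * bil A B C w w + r * bil A' B' C' w w) :=
    mul_le_mul hv hw (by positivity) (le_trans (by positivity) hv)
  have h2 : ((s * A + r * A') * (s * C + r * C') - (s * B + r * B') ^ 2) * (dt v w : ℝ) ^ 2
      ≤ (s + r) ^ 2 * (max A A' * max C C') * (dt v w : ℝ) ^ 2 :=
    mul_le_mul_of_nonneg_right hdetle hD
  have h3 : (s + r) ^ 2 * (μ ^ 2 * ((nsq v : ℝ) * (nsq w : ℝ)))
      ≤ (s + r) ^ 2 * ((max A A' * max C C') * (dt v w : ℝ) ^ 2) := by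
    calc (s + r) ^ 2 * (μ ^ 2 * ((nsq v : ℝ) * (nsq w : ℝ)))
        = ((s + r) * (μ * (nsq v : ℝ))) * ((s + r) * (μ * (nsq w : ℝ))) := by ring
      _ ≤ (s * bil A B C v v + r * bil A' B' C' v v)
            * (s * bil A B C w w + r * bil A' B' C' w w) := h1
      _ = ((s * A + r * A') * (s * C + r * C') - (s * B + r * B') ^ 2) * (dt v w : ℝ) ^ 2 := by
          rw [← hg]; ring
      _ ≤ (s + r) ^ 2 * (max A A' * max C C') * (dt v w : ℝ) ^ 2 := h2
      _ = (s + r) ^ 2 * ((max A A' * max C C') * (dt v w : ℝ) ^ 2) := by ring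
  have hsr2 : 0 < (s + r) ^ 2 := by positivity
  exact le_of_mul_le_mul_left h3 hsr2

/-- **(F)**: if two positive definite forms pair `v, w` with (weakly) opposite signs, then
`|v|², |w|² ≤ K · dt(v,w)²` with `K` depending only on the two forms. -/
theorem exists_bound_of_sign_change (A B C A' B' C' : ℝ) (hA : 0 < A)
    (hdet : 0 < A * C - B ^ 2) (hA' : 0 < A') (hdet' : 0 < A' * C' - B' ^ 2) :
    ∃ K : ℝ, 0 ≤ K ∧ ∀ v w : Fin 2 → ℤ, v ≠ 0 → w ≠ 0 →
      bil A B C v w * bil A' B' C' v w ≤ 0 →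
      (nsq v : ℝ) ≤ K * (dt v w : ℝ) ^ 2 ∧ (nsq w : ℝ) ≤ K * (dt v w : ℝ) ^ 2 := by
  obtain ⟨μ, hμ, hl, hl'⟩ := exists_common_lower A B C A' B' C' hA hdet hA' hdet'
  have hC := C_pos hA hdet
  have hmaxA : 0 < max A A' := lt_max_of_lt_left hA
  have hmaxC : 0 < max C C' := lt_max_of_lt_left hC
  refine ⟨(max A A' * max C C') / μ ^ 2, by positivity, fun v w hv hw hsign => ?_⟩
  have key : μ ^ 2 * ((nsq v : ℝ) * (nsq w : ℝ)) ≤ (max A A' * max C C') * (dt v w : ℝ) ^ 2 := by
    set β := bil A B C v w with hβ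
    set β' := bil A' B' C' v w with hβ'
    by_cases hb : β = 0
    · refine bound_of_combo_zero A B C A' B' C' μ hA hdet hA' hdet' hμ hl hl' 1 0 zero_le_one
        le_rfl (by norm_num) v w ?_
      rw [← hβ, hb]; ring
    · by_cases hb' : β' = 0
      · refine bound_of_combo_zero A B C A' B' C' μ hA hdet hA' hdet' hμ hl hl' 0 1 le_rfl
          zero_le_one (by norm_num) v w ?_
        rw [← hβ', hb']; ring
      · -- strictly opposite signs: weights `|β'|`, `|β|`
        have hlt : β * β' < 0 := lt_of_le_of_ne hsign (mul_ne_zero hb hb')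
        refine bound_of_combo_zero A B C A' B' C' μ hA hdet hA' hdet' hμ hl hl' |β'| |β|
          (abs_nonneg _) (abs_nonneg _) (by positivity) v w ?_
        rw [← hβ, ← hβ']
        rcases lt_or_gt_of_ne hb with hneg | hpos
        · have hp' : 0 < β' := by
            by_contra hcon
            push Not at hcon
            nlinarith [mul_nonneg_of_nonpos_of_nonpos hneg.le hcon]
          rw [abs_of_pos hp', abs_of_neg hneg]; ring
        · have hn' : β' < 0 := by
            by_contra hcon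
            push Not at hcon
            nlinarith [mul_nonneg hpos.le hcon]
          rw [abs_of_neg hn', abs_of_pos hpos]; ring
  have hnv : (1:ℝ) ≤ (nsq v : ℝ) := by exact_mod_cast one_le_nsq hv
  have hnw : (1:ℝ) ≤ (nsq w : ℝ) := by exact_mod_cast one_le_nsq hw
  have hμ2 : 0 < μ ^ 2 := by positivity
  constructor
  · rw [div_mul_eq_mul_div, le_div_iff₀ hμ2]
    nlinarith [key, mul_le_mul_of_nonneg_left hnw (le_trans zero_le_one hnv)]
  · rw [div_mul_eq_mul_div, le_div_iff₀ hμ2]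
    nlinarith [key, mul_le_mul_of_nonneg_right hnv (le_trans zero_le_one hnw)]

/-- Algebraic core of (T). -/
theorem inside_core (m E x y z na nb nc : ℝ) (hm : 0 < m) (hx0 : 0 ≤ x) (hy0 : 0 ≤ y)
    (hz0 : 0 ≤ z) (hsum : x * y + y * z + z * x = E)
    (ha : m * na ≤ x + z) (hb : m * nb ≤ x + y) (hc : m * nc ≤ y + z)
    (hna : 1 ≤ na) (hnb : 1 ≤ nb) (hnc : 1 ≤ nc) :
    na ≤ 2 * E / m ^ 2 ∧ nb ≤ 2 * E / m ^ 2 ∧ nc ≤ 2 * E / m ^ 2 := by
  have hxm : m * x ≤ E := by
    have h1 : m ≤ y + z := by nlinarith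
    nlinarith [mul_nonneg hy0 hz0, mul_le_mul_of_nonneg_right h1 hx0]
  have hym : m * y ≤ E := by
    have h1 : m ≤ x + z := by nlinarith
    nlinarith [mul_nonneg hx0 hz0, mul_le_mul_of_nonneg_right h1 hy0]
  have hzm : m * z ≤ E := by
    have h1 : m ≤ x + y := by nlinarith
    nlinarith [mul_nonneg hx0 hy0, mul_le_mul_of_nonneg_right h1 hz0]
  have hm2 : 0 < m ^ 2 := by positivity
  refine ⟨?_, ?_, ?_⟩
  · rw [le_div_iff₀ hm2]
    have h1 : m * (m * na) ≤ m * (x + z) := mul_le_mul_of_nonneg_left ha hm.le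
    have e : na * m ^ 2 = m * (m * na) := by ring
    rw [e]; linarith
  · rw [le_div_iff₀ hm2]
    have h1 : m * (m * nb) ≤ m * (x + y) := mul_le_mul_of_nonneg_left hb hm.le
    have e : nb * m ^ 2 = m * (m * nb) := by ring
    rw [e]; linarith
  · rw [le_div_iff₀ hm2]
    have h1 : m * (m * nc) ≤ m * (y + z) := mul_le_mul_of_nonneg_left hc hm.le
    have e : nc * m ^ 2 = m * (m * nc) := by ring
    rw [e]; linarith

/-- **(T)**: if `a + b + c = 0` and the three cross terms `-bil a b`, `-bil b c`, `-bil c a` of a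
positive definite form are nonnegative, then `|a|², |b|², |c|² ≤ K · dt(a,b)²` with `K` depending
only on the form. -/
theorem exists_bound_of_inside (A B C : ℝ) (hA : 0 < A) (hdet : 0 < A * C - B ^ 2) :
    ∃ K : ℝ, 0 ≤ K ∧ ∀ a b c : Fin 2 → ℤ, a ≠ 0 → b ≠ 0 → c ≠ 0 → a + b + c = 0 →
      bil A B C a b ≤ 0 → bil A B C b c ≤ 0 → bil A B C c a ≤ 0 →
      (nsq a : ℝ) ≤ K * (dt a b : ℝ) ^ 2 ∧ (nsq b : ℝ) ≤ K * (dt a b : ℝ) ^ 2 ∧
        (nsq c : ℝ) ≤ K * (dt a b : ℝ) ^ 2 := by
  have hC := C_pos hA hdet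
  have hmpos : 0 < (A * C - B ^ 2) / (A + C) := div_pos hdet (by linarith)
  refine ⟨2 * (A * C - B ^ 2) / ((A * C - B ^ 2) / (A + C)) ^ 2, by positivity,
    fun a b c ha hb hc habc hab hbc hca => ?_⟩
  have hc0 : c 0 = - a 0 - b 0 := by
    have := congrFun habc 0; simp only [Pi.add_apply, Pi.zero_apply] at this; linarith
  have hc1 : c 1 = - a 1 - b 1 := by
    have := congrFun habc 1; simp only [Pi.add_apply, Pi.zero_apply] at this; linarith
  have hQa : bil A B C a a = - bil A B C a b + - bil A B C c a := by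
    unfold bil; rw [hc0, hc1]; push_cast; ring
  have hQb : bil A B C b b = - bil A B C a b + - bil A B C b c := by
    unfold bil; rw [hc0, hc1]; push_cast; ring
  have hQc : bil A B C c c = - bil A B C b c + - bil A B C c a := by
    unfold bil; rw [hc0, hc1]; push_cast; ring
  have hg := gram A B C a b
  have hsum : (- bil A B C a b) * (- bil A B C b c) + (- bil A B C b c) * (- bil A B C c a)
      + (- bil A B C c a) * (- bil A B C a b) = (A * C - B ^ 2) * (dt a b : ℝ) ^ 2 := by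
    rw [hQa, hQb] at hg
    linear_combination (-1 : ℝ) * hg
  have hla := lower A B C hA hdet a
  have hlb := lower A B C hA hdet b
  have hlc := lower A B C hA hdet c
  rw [hQa] at hla
  rw [hQb] at hlb
  rw [hQc] at hlc
  have hna : (1:ℝ) ≤ (nsq a : ℝ) := by exact_mod_cast one_le_nsq ha
  have hnb : (1:ℝ) ≤ (nsq b : ℝ) := by exact_mod_cast one_le_nsq hb
  have hnc : (1:ℝ) ≤ (nsq c : ℝ) := by exact_mod_cast one_le_nsq hc
  have key := inside_core ((A * C - B ^ 2) / (A + C)) ((A * C - B ^ 2) * (dt a b : ℝ) ^ 2)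
    (- bil A B C a b) (- bil A B C b c) (- bil A B C c a) (nsq a) (nsq b) (nsq c) hmpos
    (by linarith) (by linarith) (by linarith) hsum hla hlb hlc hna hnb hnc
  have e : 2 * (A * C - B ^ 2) / ((A * C - B ^ 2) / (A + C)) ^ 2 * (dt a b : ℝ) ^ 2
      = 2 * ((A * C - B ^ 2) * (dt a b : ℝ) ^ 2) / ((A * C - B ^ 2) / (A + C)) ^ 2 := by
    ring
  rw [e]
  exact key

/-! ### Finiteness over `SL(2,ℤ)` -/

/-- The action of `SL(2,ℤ)` on integer vectors. -/
def mv (g : SL(2,ℤ)) (a : Fin 2 → ℤ) : Fin 2 → ℤ := (g : Matrix (Fin 2) (Fin 2) ℤ).mulVec a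

theorem mv_apply (g : SL(2,ℤ)) (a : Fin 2 → ℤ) (i : Fin 2) :
    mv g a i = g i 0 * a 0 + g i 1 * a 1 := by
  simp [mv, Matrix.mulVec, dotProduct, Fin.sum_univ_two]

theorem dt_mv (g : SL(2,ℤ)) (a b : Fin 2 → ℤ) : dt (mv g a) (mv g b) = dt a b := by
  have hdet : g 0 0 * g 1 1 - g 0 1 * g 1 0 = 1 := by
    have := g.det_coe
    rw [Matrix.det_fin_two] at this
    exact this
  unfold dt
  rw [mv_apply, mv_apply, mv_apply, mv_apply]
  linear_combination (a 0 * b 1 - a 1 * b 0) * hdet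

theorem mv_add (g : SL(2,ℤ)) (a b : Fin 2 → ℤ) : mv g (a + b) = mv g a + mv g b := by
  unfold mv; exact Matrix.mulVec_add _ _ _

theorem mv_zero (g : SL(2,ℤ)) : mv g 0 = 0 := by
  unfold mv; exact Matrix.mulVec_zero _

theorem mv_ne_zero (g : SL(2,ℤ)) {a : Fin 2 → ℤ} (ha : a ≠ 0) : mv g a ≠ 0 := by
  intro h
  apply ha
  have h0 := congrFun h 0
  have h1 := congrFun h 1
  rw [mv_apply] at h0 h1
  simp only [Pi.zero_apply] at h0 h1
  have hdet : g 0 0 * g 1 1 - g 0 1 * g 1 0 = 1 := by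
    have := g.det_coe
    rw [Matrix.det_fin_two] at this
    exact this
  funext i
  fin_cases i
  · show a 0 = 0
    linear_combination (-(a 0)) * hdet + g 1 1 * h0 - g 0 1 * h1
  · show a 1 = 0
    linear_combination (-(a 1)) * hdet - g 1 0 * h0 + g 0 0 * h1

theorem ne_zero_of_dt_left {a b : Fin 2 → ℤ} (hD : dt a b ≠ 0) : a ≠ 0 := by
  rintro rfl; apply hD; simp [dt]

theorem ne_zero_of_dt_right {a b : Fin 2 → ℤ} (hD : dt a b ≠ 0) : b ≠ 0 := by
  rintro rfl; apply hD; simp [dt]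

/-- `g ↦ (g a, g b)` is injective when `a, b` are independent. -/
theorem mv_pair_injective (a b : Fin 2 → ℤ) (hD : dt a b ≠ 0) :
    Function.Injective (fun g : SL(2,ℤ) => (mv g a, mv g b)) := by
  intro g h hgh
  simp only [Prod.mk.injEq] at hgh
  obtain ⟨h1, h2⟩ := hgh
  have key : ∀ i : Fin 2, g i 0 = h i 0 ∧ g i 1 = h i 1 := by
    intro i
    have e1 := congrFun h1 i
    have e2 := congrFun h2 i
    rw [mv_apply, mv_apply] at e1 e2
    unfold dt at hD
    constructor
    · have : (g i 0 - h i 0) * (a 0 * b 1 - a 1 * b 0) = 0 := by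
        linear_combination b 1 * e1 - a 1 * e2
      rcases mul_eq_zero.mp this with h0 | h0
      · linarith
      · exact absurd h0 hD
    · have : (g i 1 - h i 1) * (a 0 * b 1 - a 1 * b 0) = 0 := by
        linear_combination a 0 * e2 - b 0 * e1
      rcases mul_eq_zero.mp this with h0 | h0
      · linarith
      · exact absurd h0 hD
  apply Matrix.SpecialLinearGroup.ext
  intro i j
  fin_cases j
  · exact (key i).1
  · exact (key i).2

/-- Integer vectors of bounded norm form a finite set. -/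
theorem finite_nsq_le (K : ℝ) : {v : Fin 2 → ℤ | (nsq v : ℝ) ≤ K}.Finite := by
  apply Set.Finite.subset (Set.finite_Icc (fun _ : Fin 2 => - ⌊K⌋) (fun _ : Fin 2 => ⌊K⌋))
  intro v hv
  simp only [Set.mem_ofPred_eq] at hv
  have hcomp : ∀ i : Fin 2, (v i) ^ 2 ≤ nsq v := by
    intro i
    unfold nsq
    fin_cases i
    · show v 0 ^ 2 ≤ v 0 ^ 2 + v 1 ^ 2
      nlinarith [sq_nonneg (v 1)]
    · show v 1 ^ 2 ≤ v 0 ^ 2 + v 1 ^ 2
      nlinarith [sq_nonneg (v 0)]
  have habs : ∀ i : Fin 2, |v i| ≤ ⌊K⌋ := by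
    intro i
    rw [Int.le_floor]
    have h1 : |v i| ≤ (v i) ^ 2 := by
      have := sq_abs (v i)
      rcases eq_or_ne (v i) 0 with h0 | h0
      · simp [h0]
      · have := Int.one_le_abs h0
        nlinarith [abs_nonneg (v i)]
    have h2 : ((|v i| : ℤ) : ℝ) ≤ ((nsq v : ℤ) : ℝ) := by exact_mod_cast h1.trans (hcomp i)
    linarith
  rw [Set.mem_Icc]
  constructor
  · intro i
    have := habs i
    have := neg_abs_le (v i)
    show - ⌊K⌋ ≤ v i
    linarith
  · intro i
    have := habs i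
    have := le_abs_self (v i)
    show v i ≤ ⌊K⌋
    linarith

/-- Finiteness of the set of `g` moving two independent vectors into a bounded region. -/
theorem finite_bounded (a b : Fin 2 → ℤ) (hD : dt a b ≠ 0) (K : ℝ) :
    {g : SL(2,ℤ) | (nsq (mv g a) : ℝ) ≤ K ∧ (nsq (mv g b) : ℝ) ≤ K}.Finite := by
  have hfin := (finite_nsq_le K).prod (finite_nsq_le K)
  have := Set.Finite.preimage ((mv_pair_injective a b hD).injOn) hfin
  refine this.subset ?_
  intro g hg
  exact ⟨hg.1, hg.2⟩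

/-- **(F) over `SL(2,ℤ)`**: for two positive definite forms and independent integer vectors
`a, b`, only finitely many `g` give (weakly) opposite signs to `bil (g a) (g b)`. -/
theorem finite_sign_change (A B C A' B' C' : ℝ) (hA : 0 < A) (hdet : 0 < A * C - B ^ 2)
    (hA' : 0 < A') (hdet' : 0 < A' * C' - B' ^ 2) (a b : Fin 2 → ℤ) (hD : dt a b ≠ 0) :
    {g : SL(2,ℤ) | bil A B C (mv g a) (mv g b) * bil A' B' C' (mv g a) (mv g b) ≤ 0}.Finite := by
  obtain ⟨K, _, hK⟩ := exists_bound_of_sign_change A B C A' B' C' hA hdet hA' hdet'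
  refine (finite_bounded a b hD (K * (dt a b : ℝ) ^ 2)).subset ?_
  intro g hg
  have := hK (mv g a) (mv g b) (mv_ne_zero g (ne_zero_of_dt_left hD))
    (mv_ne_zero g (ne_zero_of_dt_right hD)) hg
  rw [dt_mv] at this
  exact this

/-- **(T) over `SL(2,ℤ)`**: for a positive definite form and integer vectors `a + b + c = 0`
spanning a nondegenerate triangle, only finitely many `g` make all three cross terms
`bil (g a) (g b)`, `bil (g b) (g c)`, `bil (g c) (g a)` nonpositive (i.e. put the base point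
inside the closed ideal triangle `g (a, b, c)`). -/
theorem finite_inside (A B C : ℝ) (hA : 0 < A) (hdet : 0 < A * C - B ^ 2)
    (a b c : Fin 2 → ℤ) (habc : a + b + c = 0) (hD : dt a b ≠ 0) :
    {g : SL(2,ℤ) | bil A B C (mv g a) (mv g b) ≤ 0 ∧ bil A B C (mv g b) (mv g c) ≤ 0 ∧
      bil A B C (mv g c) (mv g a) ≤ 0}.Finite := by
  obtain ⟨K, _, hK⟩ := exists_bound_of_inside A B C hA hdet
  have hc : c ≠ 0 := by
    rintro rfl
    apply hD
    have h0 := congrFun habc 0
    have h1 := congrFun habc 1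
    simp only [Pi.add_apply, Pi.zero_apply, add_zero] at h0 h1
    unfold dt
    have e0 : a 0 = - b 0 := by linarith
    have e1 : a 1 = - b 1 := by linarith
    rw [e0, e1]; ring
  refine (finite_bounded a b hD (K * (dt a b : ℝ) ^ 2)).subset ?_
  intro g hg
  have hsum : mv g a + mv g b + mv g c = 0 := by
    rw [← mv_add, ← mv_add, habc, mv_zero]
  have := hK (mv g a) (mv g b) (mv g c) (mv_ne_zero g (ne_zero_of_dt_left hD))
    (mv_ne_zero g (ne_zero_of_dt_right hD)) (mv_ne_zero g hc) hsum hg.1 hg.2.1 hg.2.2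
  rw [dt_mv] at this
  exact ⟨this.1, this.2.1⟩

end Fermat.Agent.GM.Theta.FinCore
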