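/-
GATE-M / S41-THETA-FIN (T): the triangle finiteness input of helper37's intrinsic crossing
formula, for the image `emb.range` of `SL(2,ℤ)` in `GL(2,ℚ)⁺`, in the per-triple shape of
`Theta/Calc` (`Calc.tri`, hypothesis `hT` of `Calc.theta_add`).  Uses the definition-free Gram
bounds of `Theta/FinCore`.
-/
import Fermat.Agent.GM.Theta.Fin
import Fermat.Agent.GM.Theta.Calc
import Fermat.Agent.GM.Theta.FinCore

set_option autoImplicit false

open scoped MatrixGroups

namespace Fermat.Agent.GM.Theta.TriFin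

open Fermat.Agent.GM.Theta

/-- The cusp representative attached to an integer vector. -/
def cuOf (v : Fin 2 → ℤ) : Cu := ⟨(v 0 : ℚ), (v 1 : ℚ)⟩

theorem smul_cuOf (g : SL(2,ℤ)) (v : Fin 2 → ℤ) : emb g • cuOf v = cuOf (FinCore.mv g v) := by
  rw [emb_smul_cu]
  ext
  · simp only [cuOf, FinCore.mv_apply]; push_cast; ring
  · simp only [cuOf, FinCore.mv_apply]; push_cast; ring

theorem smul_scale (g : GL(2, ℚ)⁺) (t : ℚ) (a : Cu) : g • Cu.scale t a = Cu.scale t (g • a) := by
  rw [smul_cu_def, smul_cu_def]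
  ext <;> simp only [Cu.mv, Cu.scale] <;> ring

theorem bil_cuOf (P : Frm) (v w : Fin 2 → ℤ) :
    P.bil (cuOf v) (cuOf w) = FinCore.bil P.A P.B P.C v w := by
  simp only [Frm.bil, cuOf, FinCore.bil]; push_cast; ring

theorem dt_cuOf (v w : Fin 2 → ℤ) : dt (cuOf v) (cuOf w) = (FinCore.dt v w : ℚ) := by
  simp only [dt, cuOf, FinCore.dt]; push_cast; ring

/-- Clearing denominators: every cusp representative is a nonzero rational multiple of an
integral one. -/
theorem exists_scale_eq_cuOf (a : Cu) : ∃ (t : ℚ) (v : Fin 2 → ℤ), t ≠ 0 ∧ Cu.scale t a = cuOf v := by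
  refine ⟨(a.x.den : ℚ) * (a.y.den : ℚ), ![a.x.num * a.y.den, a.y.num * a.x.den], ?_, ?_⟩
  · have h1 : (a.x.den : ℚ) ≠ 0 := by exact_mod_cast a.x.den_nz
    have h2 : (a.y.den : ℚ) ≠ 0 := by exact_mod_cast a.y.den_nz
    exact mul_ne_zero h1 h2
  · have hx := Rat.mul_den_eq_num a.x
    have hy := Rat.mul_den_eq_num a.y
    ext
    · simp only [Cu.scale, cuOf, Matrix.cons_val_zero]
      push_cast
      linear_combination (a.y.den : ℚ) * hx
    · simp only [Cu.scale, cuOf, Matrix.cons_val_one]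
      push_cast
      linear_combination (a.x.den : ℚ) * hy

/-- `side` along the `SL(2,ℤ)`-orbit, after rescaling the two cusps. -/
theorem side_smul_of_scale (P : Frm) (g : SL(2,ℤ)) {a b : Cu} {s t : ℚ} (hs : s ≠ 0) (ht : t ≠ 0)
    {v w : Fin 2 → ℤ} (hv : Cu.scale s a = cuOf v) (hw : Cu.scale t b = cuOf w) :
    side P (emb g • a) (emb g • b)
      = side P (cuOf (FinCore.mv g v)) (cuOf (FinCore.mv g w)) := by
  rw [← smul_cuOf, ← smul_cuOf, ← hv, ← hw, smul_scale, smul_scale, side_scale_left P hs,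
    side_scale_right P ht]

theorem dt_of_scale {a b : Cu} {s t : ℚ} {v w : Fin 2 → ℤ}
    (hv : Cu.scale s a = cuOf v) (hw : Cu.scale t b = cuOf w) :
    (FinCore.dt v w : ℚ) = s * t * dt a b := by
  rw [← dt_cuOf, ← hv, ← hw, dt_scale_left, dt_scale_right]; ring

/-- `side` of integral representatives in terms of `FinCore`. -/
theorem side_cuOf (P : Frm) (v w : Fin 2 → ℤ) :
    side P (cuOf v) (cuOf w)
      = if FinCore.bil P.A P.B P.C v w * (FinCore.dt v w : ℝ) < 0 then 1 else 0 := by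
  unfold side
  rw [bil_cuOf, dt_cuOf]
  push_cast
  rfl

/-- The value of the triangle function off the (closed) triangle: pure sign bookkeeping. -/
theorem tri_value (X Y Z D : ℝ) (hD : D ≠ 0) (hXZ : X + Z < 0) (hXY : X + Y < 0)
    (hYZ : Y + Z < 0) (hne : ¬ (X ≤ 0 ∧ Y ≤ 0 ∧ Z ≤ 0)) :
    ((if X * D < 0 then (1:ℤ) else 0) + (if Y * D < 0 then 1 else 0)
      - (if Z * (-D) < 0 then 1 else 0)) = if 0 < D then 1 else 0 := by
  have hcases : 0 < X ∨ 0 < Y ∨ 0 < Z := by
    by_contra h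
    rw [not_or, not_or, not_lt, not_lt, not_lt] at h
    exact hne ⟨h.1, h.2.1, h.2.2⟩
  rcases lt_or_gt_of_ne hD with hDneg | hDpos
  · -- D < 0
    have hk : ¬ (0 < D) := not_lt.mpr hDneg.le
    rw [if_neg hk]
    rcases hcases with hX | hY | hZ
    · have hY' : Y < 0 := by linarith
      have hZ' : Z < 0 := by linarith
      have h1 : X * D < 0 := mul_neg_of_pos_of_neg hX hDneg
      have h2 : ¬ (Y * D < 0) := not_lt.mpr (mul_nonneg_of_nonpos_of_nonpos hY'.le hDneg.le)
      have h3 : Z * (-D) < 0 := mul_neg_of_neg_of_pos hZ' (by linarith)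
      rw [if_pos h1, if_neg h2, if_pos h3]; norm_num
    · have hX' : X < 0 := by linarith
      have hZ' : Z < 0 := by linarith
      have h1 : ¬ (X * D < 0) := not_lt.mpr (mul_nonneg_of_nonpos_of_nonpos hX'.le hDneg.le)
      have h2 : Y * D < 0 := mul_neg_of_pos_of_neg hY hDneg
      have h3 : Z * (-D) < 0 := mul_neg_of_neg_of_pos hZ' (by linarith)
      rw [if_neg h1, if_pos h2, if_pos h3]; norm_num
    · have hX' : X < 0 := by linarith
      have hY' : Y < 0 := by linarith
      have h1 : ¬ (X * D < 0) := not_lt.mpr (mul_nonneg_of_nonpos_of_nonpos hX'.le hDneg.le)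
      have h2 : ¬ (Y * D < 0) := not_lt.mpr (mul_nonneg_of_nonpos_of_nonpos hY'.le hDneg.le)
      have h3 : ¬ (Z * (-D) < 0) := not_lt.mpr (mul_nonneg hZ.le (by linarith))
      rw [if_neg h1, if_neg h2, if_neg h3]; norm_num
  · -- D > 0
    rw [if_pos hDpos]
    rcases hcases with hX | hY | hZ
    · have hY' : Y < 0 := by linarith
      have hZ' : Z < 0 := by linarith
      have h1 : ¬ (X * D < 0) := not_lt.mpr (mul_nonneg hX.le hDpos.le)
      have h2 : Y * D < 0 := mul_neg_of_neg_of_pos hY' hDpos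
      have h3 : ¬ (Z * (-D) < 0) :=
        not_lt.mpr (mul_nonneg_of_nonpos_of_nonpos hZ'.le (by linarith))
      rw [if_neg h1, if_pos h2, if_neg h3]; norm_num
    · have hX' : X < 0 := by linarith
      have hZ' : Z < 0 := by linarith
      have h1 : X * D < 0 := mul_neg_of_neg_of_pos hX' hDpos
      have h2 : ¬ (Y * D < 0) := not_lt.mpr (mul_nonneg hY.le hDpos.le)
      have h3 : ¬ (Z * (-D) < 0) :=
        not_lt.mpr (mul_nonneg_of_nonpos_of_nonpos hZ'.le (by linarith))
      rw [if_pos h1, if_neg h2, if_neg h3]; norm_num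
    · have hX' : X < 0 := by linarith
      have hY' : Y < 0 := by linarith
      have h1 : X * D < 0 := mul_neg_of_neg_of_pos hX' hDpos
      have h2 : Y * D < 0 := mul_neg_of_neg_of_pos hY' hDpos
      have h3 : Z * (-D) < 0 := mul_neg_of_pos_of_neg hZ (by linarith)
      rw [if_pos h1, if_pos h2, if_pos h3]; norm_num

/-- `Q(a) = - bil a b - bil c a` when `a + b + c = 0`. -/
theorem bil_self_of_sum_zero (A B C : ℝ) (a b c : Fin 2 → ℤ) (habc : a + b + c = 0) :
    FinCore.bil A B C a a = - FinCore.bil A B C a b - FinCore.bil A B C c a := by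
  have hc0 : c 0 = - a 0 - b 0 := by
    have := congrFun habc 0; simp only [Pi.add_apply, Pi.zero_apply] at this; linarith
  have hc1 : c 1 = - a 1 - b 1 := by
    have := congrFun habc 1; simp only [Pi.add_apply, Pi.zero_apply] at this; linarith
  unfold FinCore.bil; rw [hc0, hc1]; push_cast; ring

theorem bil_self_pos (P : Frm) {v : Fin 2 → ℤ} (hv : v ≠ 0) : 0 < FinCore.bil P.A P.B P.C v v := by
  have h1 := FinCore.lower P.A P.B P.C P.hA P.hD v
  have h2 : (1:ℝ) ≤ (FinCore.nsq v : ℝ) := by exact_mod_cast FinCore.one_le_nsq hv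
  have hC := FinCore.C_pos P.hA P.hD
  have hA := P.hA
  have hm : 0 < (P.A * P.C - P.B ^ 2) / (P.A + P.C) := div_pos P.hD (by linarith)
  nlinarith

/-- **(T)** for `SL(2,ℤ)` and an integral triple with `a + b + c = 0`: off a finite set of `g`
the triangle function `side (ga,gb) + side (gb,gc) - side (ga,gc)` is the constant `[0 < D]`. -/
theorem finite_tri_ne_int (P : Frm) (a b c : Fin 2 → ℤ) (habc : a + b + c = 0)
    (hD : FinCore.dt a b ≠ 0) :
    {g : SL(2,ℤ) | side P (cuOf (FinCore.mv g a)) (cuOf (FinCore.mv g b))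
        + side P (cuOf (FinCore.mv g b)) (cuOf (FinCore.mv g c))
        - side P (cuOf (FinCore.mv g a)) (cuOf (FinCore.mv g c))
        ≠ if 0 < FinCore.dt a b then 1 else 0}.Finite := by
  refine (FinCore.finite_inside P.A P.B P.C P.hA P.hD a b c habc hD).subset ?_
  intro g hg
  simp only [Set.mem_ofPred_eq] at hg ⊢
  by_contra hne
  apply hg
  -- the three vectors still sum to zero
  have hsum : FinCore.mv g a + FinCore.mv g b + FinCore.mv g c = 0 := by
    rw [← FinCore.mv_add, ← FinCore.mv_add, habc, FinCore.mv_zero]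
  have hsum2 : FinCore.mv g b + FinCore.mv g c + FinCore.mv g a = 0 := by
    rw [← hsum]; abel
  have hsum3 : FinCore.mv g c + FinCore.mv g a + FinCore.mv g b = 0 := by
    rw [← hsum]; abel
  have ha0 : a ≠ 0 := FinCore.ne_zero_of_dt_left hD
  have hb0 : b ≠ 0 := FinCore.ne_zero_of_dt_right hD
  have hc0 : c ≠ 0 := by
    rintro rfl
    apply hD
    have h0 := congrFun habc 0
    have h1 := congrFun habc 1
    simp only [Pi.add_apply, Pi.zero_apply, add_zero] at h0 h1
    unfold FinCore.dt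
    have e0 : a 0 = - b 0 := by linarith
    have e1 : a 1 = - b 1 := by linarith
    rw [e0, e1]; ring
  have hQa := bil_self_of_sum_zero P.A P.B P.C _ _ _ hsum
  have hQb := bil_self_of_sum_zero P.A P.B P.C _ _ _ hsum2
  have hQc := bil_self_of_sum_zero P.A P.B P.C _ _ _ hsum3
  have hpa := bil_self_pos P (FinCore.mv_ne_zero g ha0)
  have hpb := bil_self_pos P (FinCore.mv_ne_zero g hb0)
  have hpc := bil_self_pos P (FinCore.mv_ne_zero g hc0)
  -- determinants
  have hdab : FinCore.dt (FinCore.mv g a) (FinCore.mv g b) = FinCore.dt a b := FinCore.dt_mv g a b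
  have hdbc : FinCore.dt (FinCore.mv g b) (FinCore.mv g c) = FinCore.dt a b := by
    rw [FinCore.dt_mv]
    have h0 := congrFun habc 0
    have h1 := congrFun habc 1
    simp only [Pi.add_apply, Pi.zero_apply] at h0 h1
    unfold FinCore.dt
    have e0 : c 0 = - a 0 - b 0 := by linarith
    have e1 : c 1 = - a 1 - b 1 := by linarith
    rw [e0, e1]; ring
  have hdac : FinCore.dt (FinCore.mv g a) (FinCore.mv g c) = - FinCore.dt a b := by
    rw [FinCore.dt_mv]
    have h0 := congrFun habc 0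
    have h1 := congrFun habc 1
    simp only [Pi.add_apply, Pi.zero_apply] at h0 h1
    unfold FinCore.dt
    have e0 : c 0 = - a 0 - b 0 := by linarith
    have e1 : c 1 = - a 1 - b 1 := by linarith
    rw [e0, e1]; ring
  rw [side_cuOf, side_cuOf, side_cuOf, hdab, hdbc, hdac,
    FinCore.bil_comm P.A P.B P.C (FinCore.mv g a) (FinCore.mv g c)]
  have hD' : (FinCore.dt a b : ℝ) ≠ 0 := by exact_mod_cast hD
  have key := tri_value (FinCore.bil P.A P.B P.C (FinCore.mv g a) (FinCore.mv g b))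
    (FinCore.bil P.A P.B P.C (FinCore.mv g b) (FinCore.mv g c))
    (FinCore.bil P.A P.B P.C (FinCore.mv g c) (FinCore.mv g a)) (FinCore.dt a b : ℝ) hD'
    (by linarith) (by linarith) (by linarith) hne
  have hcast : ((0:ℝ) < (FinCore.dt a b : ℝ)) ↔ (0 < FinCore.dt a b) := by exact_mod_cast Iff.rfl
  simp only [hcast] at key
  push_cast
  exact key

theorem scale_cuOf (t : ℤ) (v : Fin 2 → ℤ) :
    Cu.scale (t : ℚ) (cuOf v) = cuOf (fun i => t * v i) := by
  ext <;> simp only [Cu.scale, cuOf] <;> push_cast <;> ring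

theorem scale_scale (s t : ℚ) (a : Cu) : Cu.scale s (Cu.scale t a) = Cu.scale (s * t) a := by
  ext <;> simp only [Cu.scale] <;> ring

/-- **(T)** for `SL(2,ℤ)`, any triple of pairwise distinct cusps: the triangle function
`side (ga,gb) + side (gb,gc) - side (ga,gc)` is constant off a finite set of `g`. -/
theorem exists_finite_tri_ne (P : Frm) (a b c : Cu) (h1 : dt a b ≠ 0) (h2 : dt b c ≠ 0)
    (h3 : dt a c ≠ 0) :
    ∃ k : ℤ, {g : SL(2,ℤ) | side P (emb g • a) (emb g • b) + side P (emb g • b) (emb g • c)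
      - side P (emb g • a) (emb g • c) ≠ k}.Finite := by
  obtain ⟨sa, va, hsa, hva⟩ := exists_scale_eq_cuOf a
  obtain ⟨sb, vb, hsb, hvb⟩ := exists_scale_eq_cuOf b
  obtain ⟨sc, vc, hsc, hvc⟩ := exists_scale_eq_cuOf c
  have hγ : FinCore.dt va vb ≠ 0 := by
    have := dt_of_scale hva hvb
    intro h0; rw [h0] at this
    have : sa * sb * dt a b = 0 := by exact_mod_cast this.symm
    exact (mul_ne_zero (mul_ne_zero hsa hsb) h1) this
  have hα : FinCore.dt vb vc ≠ 0 := by
    have := dt_of_scale hvb hvc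
    intro h0; rw [h0] at this
    have : sb * sc * dt b c = 0 := by exact_mod_cast this.symm
    exact (mul_ne_zero (mul_ne_zero hsb hsc) h2) this
  have hβ' : FinCore.dt va vc ≠ 0 := by
    have := dt_of_scale hva hvc
    intro h0; rw [h0] at this
    have : sa * sc * dt a c = 0 := by exact_mod_cast this.symm
    exact (mul_ne_zero (mul_ne_zero hsa hsc) h3) this
  have hβ : FinCore.dt vc va ≠ 0 := by
    intro h0; apply hβ'
    unfold FinCore.dt at h0 ⊢; linarith
  -- the normalised integral triple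
  set a' : Fin 2 → ℤ := fun i => FinCore.dt vb vc * va i with ha'
  set b' : Fin 2 → ℤ := fun i => FinCore.dt vc va * vb i with hb'
  set c' : Fin 2 → ℤ := fun i => FinCore.dt va vb * vc i with hc'
  have habc : a' + b' + c' = 0 := by
    funext i
    simp only [ha', hb', hc', Pi.add_apply, Pi.zero_apply, FinCore.dt]
    fin_cases i
    · show (vb 0 * vc 1 - vb 1 * vc 0) * va 0 + (vc 0 * va 1 - vc 1 * va 0) * vb 0
        + (va 0 * vb 1 - va 1 * vb 0) * vc 0 = 0
      ring
    · show (vb 0 * vc 1 - vb 1 * vc 0) * va 1 + (vc 0 * va 1 - vc 1 * va 0) * vb 1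
        + (va 0 * vb 1 - va 1 * vb 0) * vc 1 = 0
      ring
  have hD : FinCore.dt a' b' ≠ 0 := by
    have : FinCore.dt a' b' = FinCore.dt vb vc * FinCore.dt vc va * FinCore.dt va vb := by
      simp only [ha', hb', FinCore.dt]; ring
    rw [this]
    exact mul_ne_zero (mul_ne_zero hα hβ) hγ
  have hva' : Cu.scale ((FinCore.dt vb vc : ℚ) * sa) a = cuOf a' := by
    rw [← scale_scale, hva, scale_cuOf]
  have hvb' : Cu.scale ((FinCore.dt vc va : ℚ) * sb) b = cuOf b' := by
    rw [← scale_scale, hvb, scale_cuOf]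
  have hvc' : Cu.scale ((FinCore.dt va vb : ℚ) * sc) c = cuOf c' := by
    rw [← scale_scale, hvc, scale_cuOf]
  have hsa' : (FinCore.dt vb vc : ℚ) * sa ≠ 0 := mul_ne_zero (by exact_mod_cast hα) hsa
  have hsb' : (FinCore.dt vc va : ℚ) * sb ≠ 0 := mul_ne_zero (by exact_mod_cast hβ) hsb
  have hsc' : (FinCore.dt va vb : ℚ) * sc ≠ 0 := mul_ne_zero (by exact_mod_cast hγ) hsc
  refine ⟨if 0 < FinCore.dt a' b' then 1 else 0, ?_⟩
  refine (finite_tri_ne_int P a' b' c' habc hD).subset ?_
  intro g hg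
  simp only [Set.mem_ofPred_eq] at hg ⊢
  rwa [side_smul_of_scale P g hsa' hsb' hva' hvb', side_smul_of_scale P g hsb' hsc' hvb' hvc',
    side_smul_of_scale P g hsa' hsc' hva' hvc'] at hg

/-! ### Versions indexed by the subgroup `emb.range ≤ GL(2,ℚ)⁺` -/

theorem finite_range_of_finite {p : GL(2, ℚ)⁺ → Prop} (h : {g : SL(2,ℤ) | p (emb g)}.Finite) :
    {g : ↥emb.range | p (g : GL(2, ℚ)⁺)}.Finite := by
  have hsub : {g : ↥emb.range | p (g : GL(2, ℚ)⁺)} ⊆ emb.rangeRestrict '' {g | p (emb g)} := by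
    rintro ⟨x, ⟨g, rfl⟩⟩ hx
    exact ⟨g, hx, Subtype.ext rfl⟩
  exact (h.image _).subset hsub

/-- (T) in the per-triple shape for `Γ = emb.range`. -/
theorem exists_finite_tri_ne_range (P : Frm) (a b c : Cu) (h1 : dt a b ≠ 0) (h2 : dt b c ≠ 0)
    (h3 : dt a c ≠ 0) :
    ∃ k : ℤ, {g : ↥emb.range | side P (g • a) (g • b) + side P (g • b) (g • c)
      - side P (g • a) (g • c) ≠ k}.Finite := by
  obtain ⟨k, hk⟩ := exists_finite_tri_ne P a b c h1 h2 h3
  exact ⟨k, finite_range_of_finite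
    (p := fun x => side P (x • a) (x • b) + side P (x • b) (x • c) - side P (x • a) (x • c) ≠ k) hk⟩

/-! ### Degenerate triples and the `Calc.tri` shape -/

/-- Two nonzero parallel vectors are proportional. -/
theorem exists_scale_of_dt_eq_zero {a b : Cu} (ha : a.x ≠ 0 ∨ a.y ≠ 0) (hb : b.x ≠ 0 ∨ b.y ≠ 0)
    (h : dt a b = 0) : ∃ t : ℚ, t ≠ 0 ∧ b = Cu.scale t a := by
  unfold dt at h
  by_cases hx : a.x = 0
  · have hy : a.y ≠ 0 := by tauto
    have hbx : b.x = 0 := by
      rw [hx] at h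
      have : a.y * b.x = 0 := by linarith
      rcases mul_eq_zero.mp this with h0 | h0
      · exact absurd h0 hy
      · exact h0
    have hby : b.y ≠ 0 := by tauto
    refine ⟨b.y / a.y, div_ne_zero hby hy, ?_⟩
    ext
    · simp only [Cu.scale, hx, hbx, mul_zero]
    · simp only [Cu.scale]; field_simp
  · have hbne : b.x ≠ 0 := by
      intro hbx
      rw [hbx] at h
      have : a.x * b.y = 0 := by linarith
      rcases mul_eq_zero.mp this with h0 | h0
      · exact hx h0
      · rcases hb with hb | hb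
        · exact hb hbx
        · exact hb h0
    refine ⟨b.x / a.x, div_ne_zero hbne hx, ?_⟩
    ext
    · simp only [Cu.scale]; field_simp
    · simp only [Cu.scale]; field_simp; linarith

theorem side_eq_zero_of_dt_eq_zero (P : Frm) {a b : Cu} (h : dt a b = 0) : side P a b = 0 := by
  unfold side; rw [h]; simp

theorem dt_scale_self (t : ℚ) (a : Cu) : dt a (Cu.scale t a) = 0 := by
  simp only [dt, Cu.scale]; ring

theorem dt_self (a : Cu) : dt a a = 0 := by
  simp only [dt]; ring

/-- For independent `a, b` only finitely many `g ∈ SL(2,ℤ)` put the base point ON the geodesic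
`g a → g b`. -/
theorem finite_bil_eq_zero (P : Frm) {a b : Cu} (hD : dt a b ≠ 0) :
    {g : SL(2,ℤ) | P.bil (emb g • a) (emb g • b) = 0}.Finite := by
  obtain ⟨s, v, hs, hv⟩ := exists_scale_eq_cuOf a
  obtain ⟨t, w, ht, hw⟩ := exists_scale_eq_cuOf b
  have hD' : FinCore.dt v w ≠ 0 := by
    have := dt_of_scale hv hw
    intro h0; rw [h0] at this
    have : s * t * dt a b = 0 := by exact_mod_cast this.symm
    exact (mul_ne_zero (mul_ne_zero hs ht) hD) this
  refine (FinCore.finite_sign_change P.A P.B P.C P.A P.B P.C P.hA P.hD P.hA P.hD v w hD').subset ?_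
  intro g hg
  simp only [Set.mem_ofPred_eq] at hg ⊢
  have e : FinCore.bil P.A P.B P.C (FinCore.mv g v) (FinCore.mv g w)
      = (s : ℝ) * (t : ℝ) * P.bil (emb g • a) (emb g • b) := by
    rw [← bil_cuOf, ← smul_cuOf, ← smul_cuOf, ← hv, ← hw, smul_scale, smul_scale,
      Frm.bil_scale_left, Frm.bil_scale_right]
    ring
  rw [e, hg]; simp

/-- `side P a b + side P b a = 1` off the geodesic. -/
theorem side_add_side_swap (P : Frm) {a b : Cu} (hD : dt a b ≠ 0) (hb : P.bil a b ≠ 0) :
    side P a b + side P b a = 1 := by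
  have h : P.bil a b * ((dt a b : ℚ) : ℝ) ≠ 0 :=
    mul_ne_zero hb (by exact_mod_cast hD)
  rw [side_swap P a b h]; ring

/-- **(T), per triple, for all genuine cusps** (nonzero vectors), `SL(2,ℤ)`-indexed. -/
theorem exists_finite_tri_ne_of_ne_zero (P : Frm) (a b c : Cu) (ha : a.x ≠ 0 ∨ a.y ≠ 0)
    (hb : b.x ≠ 0 ∨ b.y ≠ 0) (hc : c.x ≠ 0 ∨ c.y ≠ 0) :
    ∃ k : ℤ, {g : SL(2,ℤ) | Calc.tri side P a b c (emb g) ≠ k}.Finite := by
  by_cases h1 : dt a b = 0
  · -- `b ∥ a`
    obtain ⟨t, ht, rfl⟩ := exists_scale_of_dt_eq_zero ha hb h1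
    refine ⟨0, ?_⟩
    convert Set.finite_empty
    ext g
    simp only [Set.mem_ofPred_eq, Set.mem_empty_iff_false, iff_false, not_not]
    unfold Calc.tri
    rw [emb_smul_scale, side_scale_left P ht,
      side_eq_zero_of_dt_eq_zero P (dt_scale_self t (emb g • a))]
    ring
  by_cases h2 : dt b c = 0
  · -- `c ∥ b`
    obtain ⟨t, ht, rfl⟩ := exists_scale_of_dt_eq_zero hb hc h2
    refine ⟨0, ?_⟩
    convert Set.finite_empty
    ext g
    simp only [Set.mem_ofPred_eq, Set.mem_empty_iff_false, iff_false, not_not]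
    unfold Calc.tri
    rw [emb_smul_scale]
    simp only [side_scale_right P ht]
    rw [side_eq_zero_of_dt_eq_zero P (dt_self (emb g • b))]
    ring
  by_cases h3 : dt a c = 0
  · -- `c ∥ a`, `a, b` independent
    obtain ⟨t, ht, rfl⟩ := exists_scale_of_dt_eq_zero ha hc h3
    refine ⟨1, ?_⟩
    refine (finite_bil_eq_zero P h1).subset ?_
    intro g hg
    simp only [Set.mem_ofPred_eq] at hg ⊢
    by_contra hne
    apply hg
    unfold Calc.tri
    rw [emb_smul_scale]
    simp only [side_scale_right P ht]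
    rw [side_eq_zero_of_dt_eq_zero P (dt_self (emb g • a)), sub_zero]
    have hD : dt (emb g • a) (emb g • b) ≠ 0 := by rw [dt_emb_smul]; exact h1
    exact side_add_side_swap P hD hne
  · obtain ⟨k, hk⟩ := exists_finite_tri_ne P a b c h1 h2 h3
    exact ⟨k, hk⟩

/-- **(T), per triple, for all genuine cusps**, in the shape of the hypothesis `hT` of
`Calc.theta_add` for `Γ = emb.range`. -/
theorem exists_finite_tri_ne_range_of_ne_zero (P : Frm) (a b c : Cu) (ha : a.x ≠ 0 ∨ a.y ≠ 0)
    (hb : b.x ≠ 0 ∨ b.y ≠ 0) (hc : c.x ≠ 0 ∨ c.y ≠ 0) :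
    ∃ k : ℤ, {g : ↥(emb.range) | Calc.tri side P a b c (g : GL(2, ℚ)⁺) ≠ k}.Finite := by
  obtain ⟨k, hk⟩ := exists_finite_tri_ne_of_ne_zero P a b c ha hb hc
  exact ⟨k, finite_range_of_finite (p := fun x => Calc.tri side P a b c x ≠ k) hk⟩

/-- The same for any subgroup `Γ ≤ emb.range`. -/
theorem exists_finite_tri_ne_of_le (Γ : Subgroup GL(2, ℚ)⁺) (hΓ : Γ ≤ emb.range) (P : Frm)
    (a b c : Cu) (ha : a.x ≠ 0 ∨ a.y ≠ 0) (hb : b.x ≠ 0 ∨ b.y ≠ 0) (hc : c.x ≠ 0 ∨ c.y ≠ 0) :
    ∃ k : ℤ, {g : ↥Γ | Calc.tri side P a b c (g : GL(2, ℚ)⁺) ≠ k}.Finite := by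
  obtain ⟨k, hk⟩ := exists_finite_tri_ne_range_of_ne_zero P a b c ha hb hc
  refine ⟨k, Set.Finite.of_injOn (f := Subgroup.inclusion hΓ) ?_ ?_ hk⟩
  · intro g hg
    exact hg
  · intro g _ g' _ hgg'
    exact Subgroup.inclusion_injective hΓ hgg'

end Fermat.Agent.GM.Theta.TriFin
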