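import Fermat.Agent.GM.Theta.Main
import Fermat.Agent.GM.Theta.TriFin

/-!
# GATE-M / S41-D-BRIDGE-THETA : the consumer API `thetaSL`

`thetaSL Γ a b : Additive Γ →+ ℤ` for `Γ ≤ SL(2,ℤ)` and cusps `a b : Cu` (nonzero rational vectors),
with additivity, `Γ`-invariance, scaling invariance, independence of the cusp in `Θ(c, γ c)`,
and invariance under elements of `GL(2,ℚ)⁺` normalising `Γ`.
-/

set_option autoImplicit false

open scoped MatrixGroups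
open ModularGroup

namespace Fermat.Agent.GM.Theta

open Fermat.Agent.GM.Theta.Calc

/-- a genuine cusp representative: a nonzero vector -/
def Cu.Nz (a : Cu) : Prop := a.x ≠ 0 ∨ a.y ≠ 0

theorem Cu.Nz.smul {a : Cu} (ha : a.Nz) (g : SL(2,ℤ)) : (g • a).Nz :=
  smul_ne_zero_of_ne_zero g ha

theorem Cu.Nz.scale {a : Cu} (ha : a.Nz) {t : ℚ} (ht : t ≠ 0) : (Cu.scale t a).Nz := by
  rcases ha with h | h
  · left; exact mul_ne_zero ht h
  · right; exact mul_ne_zero ht h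

theorem nz_e0 : e0.Nz := Or.inr (by norm_num [e0])

theorem nz_eInf : eInf.Nz := Or.inl (by norm_num [eInf])

variable (Γ : Subgroup SL(2,ℤ))

/-- **`Θ_Γ(a, b)`** for `Γ ≤ SL(2,ℤ)`: `γ ↦ ∑_{g ∈ Γ} (side (γ PU) (g a) (g b) − side PU (g a) (g b))`. -/
noncomputable def thetaSL (a b : Cu) : Additive Γ →+ ℤ :=
  theta side isInv_side_SL Γ (finCross_side_SL Γ) PU a b

theorem thetaSL_apply (a b : Cu) (γ : Γ) :
    thetaSL Γ a b (Additive.ofMul γ) = cross side Γ PU ((γ : SL(2,ℤ)) • PU) a b := rfl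

/-- any base point computes `Θ` -/
theorem thetaSL_eq_theta (P : Frm) (a b : Cu) :
    thetaSL Γ a b = theta side isInv_side_SL Γ (finCross_side_SL Γ) P a b :=
  theta_indep side isInv_side_SL Γ (finCross_side_SL Γ) PU P a b

/-- (T) for subgroups of `SL(2,ℤ)` acting through `emb` -/
theorem hT_SL (P : Frm) {a b c : Cu} (ha : a.Nz) (hb : b.Nz) (hc : c.Nz) :
    ∃ k : ℤ, {g : Γ | tri side P a b c (g : SL(2,ℤ)) ≠ k}.Finite := by
  obtain ⟨k, hk⟩ := TriFin.exists_finite_tri_ne_of_ne_zero P a b c ha hb hc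
  refine ⟨k, Set.Finite.of_injOn (f := fun g : Γ => (g : SL(2,ℤ))) ?_ ?_ hk⟩
  · intro g hg
    exact hg
  · intro g _ g' _ h
    exact Subtype.ext h

/-- **additivity** `Θ(a,b) + Θ(b,c) = Θ(a,c)` -/
theorem thetaSL_add {a b c : Cu} (ha : a.Nz) (hb : b.Nz) (hc : c.Nz) :
    thetaSL Γ a b + thetaSL Γ b c = thetaSL Γ a c :=
  theta_add side isInv_side_SL Γ (finCross_side_SL Γ) PU a b c (hT_SL Γ PU ha hb hc)

theorem thetaSL_self {a : Cu} (ha : a.Nz) : thetaSL Γ a a = 0 :=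
  theta_self_of_tri side isInv_side_SL Γ (finCross_side_SL Γ) PU a (hT_SL Γ PU ha ha ha)

theorem thetaSL_swap {a b : Cu} (ha : a.Nz) (hb : b.Nz) : thetaSL Γ b a = - thetaSL Γ a b :=
  theta_swap side isInv_side_SL Γ (finCross_side_SL Γ) PU a b (hT_SL Γ PU ha hb ha)
    (thetaSL_self Γ ha)

/-- **`Γ`-invariance** -/
theorem thetaSL_smul (a b : Cu) (γ : Γ) :
    thetaSL Γ ((γ : SL(2,ℤ)) • a) ((γ : SL(2,ℤ)) • b) = thetaSL Γ a b :=
  theta_smul_cusps side isInv_side_SL Γ (finCross_side_SL Γ) PU a b γ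

theorem sl_smul_scale (g : SL(2,ℤ)) (t : ℚ) (a : Cu) : g • Cu.scale t a = Cu.scale t (g • a) :=
  emb_smul_scale g t a

theorem thetaSL_scale_left {t : ℚ} (ht : t ≠ 0) (a b : Cu) :
    thetaSL Γ (Cu.scale t a) b = thetaSL Γ a b := by
  refine AddMonoidHom.ext fun γ' => ?_
  obtain ⟨γ, rfl⟩ : ∃ γ : Γ, Additive.ofMul γ = γ' := ⟨Additive.toMul γ', rfl⟩
  rw [thetaSL_apply, thetaSL_apply]
  unfold cross
  refine finsum_congr fun g => ?_
  unfold term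
  rw [sl_smul_scale, side_scale_left _ ht, side_scale_left _ ht]

theorem thetaSL_scale_right {t : ℚ} (ht : t ≠ 0) (a b : Cu) :
    thetaSL Γ a (Cu.scale t b) = thetaSL Γ a b := by
  refine AddMonoidHom.ext fun γ' => ?_
  obtain ⟨γ, rfl⟩ : ∃ γ : Γ, Additive.ofMul γ = γ' := ⟨Additive.toMul γ', rfl⟩
  rw [thetaSL_apply, thetaSL_apply]
  unfold cross
  refine finsum_congr fun g => ?_
  unfold term
  rw [sl_smul_scale, side_scale_right _ ht, side_scale_right _ ht]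

/-- **independence of the cusp**: `Θ(c, γ c) = Θ(c', γ c')` -/
theorem thetaSL_orbit {c c' : Cu} (hc : c.Nz) (hc' : c'.Nz) (γ : Γ) :
    thetaSL Γ c ((γ : SL(2,ℤ)) • c) = thetaSL Γ c' ((γ : SL(2,ℤ)) • c') := by
  have h1 := thetaSL_add Γ hc hc' (hc'.smul (γ : SL(2,ℤ)))
  have h2 := thetaSL_add Γ hc (hc.smul (γ : SL(2,ℤ))) (hc'.smul (γ : SL(2,ℤ)))
  have h3 := thetaSL_smul Γ c c' γ
  -- Θ(c,c') + Θ(c',γc') = Θ(c,γc') = Θ(c,γc) + Θ(γc,γc') = Θ(c,γc) + Θ(c,c')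
  rw [h3] at h2
  have : thetaSL Γ c c' + thetaSL Γ c' ((γ : SL(2,ℤ)) • c')
      = thetaSL Γ c ((γ : SL(2,ℤ)) • c) + thetaSL Γ c c' := by rw [h1, h2]
  rw [add_comm (thetaSL Γ c ((γ : SL(2,ℤ)) • c))] at this
  exact (add_left_cancel this).symm


/-- **invariance under the normaliser**: if `w ∈ GL(2,ℚ)⁺` satisfies `w g = κ(g) w` for a
surjective `κ : Γ → Γ`, then `Θ_Γ(w a, w b)(κ γ) = Θ_Γ(a, b)(γ)`. -/
theorem thetaSL_normalizer (w : GL(2, ℚ)⁺) (κ : Γ → Γ)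
    (hκ : ∀ g : Γ, w * emb (g : SL(2,ℤ)) = emb ((κ g : Γ) : SL(2,ℤ)) * w)
    (hsurj : Function.Surjective κ) (a b : Cu) (γ : Γ) :
    thetaSL Γ (w • a) (w • b) (Additive.ofMul (κ γ)) = thetaSL Γ a b (Additive.ofMul γ) := by
  have hinj : Function.Injective κ := by
    intro g g' h
    have h1 := hκ g
    have h2 := hκ g'
    rw [h] at h1
    have : w * emb (g : SL(2,ℤ)) = w * emb (g' : SL(2,ℤ)) := by rw [h1, h2]
    exact Subtype.ext (emb_injective (mul_left_cancel this))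
  let e : Γ ≃ Γ := Equiv.ofBijective κ ⟨hinj, hsurj⟩
  rw [thetaSL_eq_theta Γ (w⁻¹ • PU) a b, thetaSL_apply, theta_apply]
  unfold cross
  rw [← finsum_comp_equiv e]
  refine finsum_congr fun g => ?_
  show term side PU (((κ γ : Γ) : SL(2,ℤ)) • PU) (w • a) (w • b) ((κ g : Γ) : SL(2,ℤ))
    = term side (w⁻¹ • PU) ((γ : SL(2,ℤ)) • w⁻¹ • PU) a b (g : SL(2,ℤ))
  unfold term
  have e1 : ∀ u : Cu, ((κ g : Γ) : SL(2,ℤ)) • w • u = w • ((g : SL(2,ℤ)) • u) := by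
    intro u
    rw [sl_smul_cu, sl_smul_cu, ← mul_smul, ← mul_smul, hκ g]
  have e2 : (γ : SL(2,ℤ)) • w⁻¹ • PU = w⁻¹ • (((κ γ : Γ) : SL(2,ℤ)) • PU) := by
    rw [sl_smul_frm, sl_smul_frm, ← mul_smul, ← mul_smul]
    congr 1
    have := hκ γ
    calc emb (γ : SL(2,ℤ)) * w⁻¹ = w⁻¹ * (w * emb (γ : SL(2,ℤ))) * w⁻¹ := by group
      _ = w⁻¹ * (emb ((κ γ : Γ) : SL(2,ℤ)) * w) * w⁻¹ := by rw [this]
      _ = w⁻¹ * emb ((κ γ : Γ) : SL(2,ℤ)) := by group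
  rw [e1, e1, e2, side_smul' w, side_smul' w PU]


open Fermat.Agent.S16.LB.PPLift in
/-- **`Θ` on a unimodular edge, in the Manin model** (`theta_eq_cocycle` restated for `thetaSL`). -/
theorem thetaSL_edge (hneg : (-1 : SL(2,ℤ)) ∈ Γ) (h : SL(2,ℤ))
    (c : SL(2,ℤ) → SL(2,ℤ) ⧸ Γ → ℤ)
    (hc : ∀ g' g x, c (g' * g) x = c g x + c g' (g • x))
    (hcS : ∀ x, c S x = indic Γ ((h⁻¹ : SL(2,ℤ)) : SL(2,ℤ) ⧸ Γ) (S • x)
        - indic Γ ((h⁻¹ : SL(2,ℤ)) : SL(2,ℤ) ⧸ Γ) x)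
    (hcU : c (S * T) = 0) (γ : Γ) :
    thetaSL Γ (h • e0) (h • eInf) (Additive.ofMul γ) = -2 * c (γ : SL(2,ℤ)) (x0 Γ) :=
  theta_eq_cocycle Γ hneg h c hc hcS hcU γ

end Fermat.Agent.GM.Theta
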