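/-
GATE-M (S41) / S41-D-OUTER (helper37).

The OUTER adjointness statements (O1), (O2) of `GM/Asm/DAsm.dPackage`, hence the whole package (D)
of `GM/End/Plug.S41_of_remaining_leaves`, UNCONDITIONALLY.

* `lamForm_isometry` : for `-1 ∈ Γ ≤ SL(2,ℤ)` of finite index, `w ∈ GL(2,ℚ)⁺` normalising `Γ`
  (`w g = κ(g) w`, `κ : Γ →* Γ` onto), the operator `ψ ↦ ψ ∘ κ` is an ISOMETRY of the unimodular cup
  form `lamForm` on `parabolicHoms ℤ Γ ℤ`.  Proof: `⟨x, ·⟩ = pairT a` for `x = bridge (j a)`; the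
  functional `F = pairT a' ∘ W - pairT a` kills every `Θ_Γ(∞, γ⁻¹∞)` by helper14's key identity (K),
  the normaliser invariance and the orbit independence of `Θ` (`GM/Theta/Sym`); hence it kills the
  parabolic classes (`functional_eq_zero_on_parabolic`).
* `lamB_wP_wP`, `lamB_wP_left` : the Atkin–Lehner operator `w_q` of helper91 is an isometry and
  self-adjoint for `lamB (N q)`.
* `lamB_O1` : (O1) `⟨res_δ y, z⟩_{N q} = ⟨y, cores_δ z⟩_N`.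
* `lamB_heckeP`, `lamB_latT` : (O2) `⟨T_l x, y⟩_N = ⟨x, T_l y⟩_N` for every prime `l ∤ N`.
* `dPackage_full` : the binder `hD` of `S41_of_remaining_leaves` VERBATIM.
-/
import Fermat.Agent.GM.Asm.DAsm
import Fermat.Agent.GM.Bridge.KeyK
import Fermat.Agent.GM.B.AtkinLehner
import Fermat.Agent.GM.Theta.Sym

set_option autoImplicit false
set_option linter.unusedSectionVars false

open scoped MatrixGroups
open CongruenceSubgroup Matrix Matrix.SpecialLinearGroup ModularCurve.Period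
open P2MW.S_ModularForm_heckeT_slash_eq_self_of_mem_Gamma0.ModularForm.HeckeSlashInvariance
open P2MW.S_ModularForm_heckeT_slash_eq_self_of_mem_Gamma0.ModularForm
open Fermat.Agent.S16_helper49 Fermat.Agent.GM.Amalgam Fermat.Agent.GM.B Fermat.Agent.GM.Bridge
  Fermat.Agent.GM.PD Fermat.Agent.GJ.J2.Lat Fermat.Agent.GM.Asm
open Fermat.Agent.GM.Theta.Calc Fermat.Agent.GM.Bridge.KeyK
open Fermat.Agent.S16.LB.PingPong Fermat.Agent.S16.LB.PPLift

namespace Fermat.Agent.GM.Theta.Outer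

open Fermat.Agent.GM.Theta

/-! ### generalities -/

theorem nz_glpos_smul (g : GL(2, ℚ)⁺) {a : Cu} (ha : a.Nz) : (g • a).Nz := by
  by_contra h
  unfold Cu.Nz at h
  push Not at h
  have h1 : g • a = ⟨0, 0⟩ := Cu.ext h.1 h.2
  have h2 : a = g⁻¹ • (⟨0, 0⟩ : Cu) := by rw [← h1, inv_smul_smul]
  have h3 : g⁻¹ • (⟨0, 0⟩ : Cu) = ⟨0, 0⟩ := by
    rw [smul_cu_def]
    ext <;> simp [Cu.mv]
  rw [h3] at h2
  rcases ha with h | h <;> simp [h2] at h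

section General

variable {Γ : Subgroup SL(2,ℤ)} [Fintype (SL(2,ℤ) ⧸ Γ)] [DecidableEq (SL(2,ℤ) ⧸ Γ)]

theorem coe_bridgeP_symm (hneg : (-1 : SL(2,ℤ)) ∈ Γ) (y : parabolicHoms ℤ Γ ℤ) :
    (((bridgeP hneg).symm y : PQ (suData Γ hneg)) : BQ (suData Γ hneg))
      = (bridgeB hneg).symm (y : Additive Γ →+ ℤ) := by
  rw [LinearEquiv.eq_symm_apply, ← bridgeP_coe, LinearEquiv.apply_symm_apply]

theorem exists_aSub_rep (hneg : (-1 : SL(2,ℤ)) ∈ Γ) (x : parabolicHoms ℤ Γ ℤ) :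
    ∃ a : aSub (suData Γ hneg),
      (x : Additive Γ →+ ℤ) = bridgeB hneg (jMap (suData Γ hneg) a) := by
  obtain ⟨p, rfl⟩ := (bridgeP hneg).surjective x
  obtain ⟨a, ha⟩ := p.2
  exact ⟨a, by rw [bridgeP_coe, ha]⟩

/-- `⟨x, y⟩ = pairT a y` when `x = bridge (j a)` -/
theorem lamForm_eq_pairT (hneg : (-1 : SL(2,ℤ)) ∈ Γ) (a : aSub (suData Γ hneg))
    (x y : parabolicHoms ℤ Γ ℤ)
    (hx : (x : Additive Γ →+ ℤ) = bridgeB hneg (jMap (suData Γ hneg) a)) :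
    lamForm hneg x y = pairT hneg a (y : Additive Γ →+ ℤ) := by
  have hx' : x = bridgeP hneg ⟨jMap (suData Γ hneg) a, ⟨a, rfl⟩⟩ := by
    apply Subtype.ext
    rw [bridgeP_coe, hx]
  rw [lamForm_apply, pairT_apply, ← coe_bridgeP_symm, hx', LinearEquiv.symm_apply_apply,
    cupForm_apply]

variable (w : GL(2, ℚ)⁺) (κ : Γ →* Γ)
  (hκ : ∀ g : Γ, w * Theta.emb (g : SL(2,ℤ)) = Theta.emb ((κ g : Γ) : SL(2,ℤ)) * w)
  (hsurj : Function.Surjective κ)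

include hκ hsurj in
/-- `Θ_Γ(∞, (κ δ)⁻¹ ∞) ∘ κ = Θ_Γ(∞, δ⁻¹ ∞)` -/
theorem thInf_comp (δ g : Γ) :
    ThInf Γ (κ δ) (Additive.ofMul (κ g)) = ThInf Γ δ (Additive.ofMul g) := by
  have h1 := thetaSL_normalizer Γ w κ hκ hsurj (w⁻¹ • eInf)
    (w⁻¹ • ((((κ δ : Γ) : SL(2,ℤ))⁻¹ : SL(2,ℤ)) • eInf)) g
  rw [smul_inv_smul, smul_inv_smul] at h1
  have h2 : w⁻¹ • ((((κ δ : Γ) : SL(2,ℤ))⁻¹ : SL(2,ℤ)) • eInf)
      = (((δ⁻¹ : Γ) : SL(2,ℤ))) • (w⁻¹ • eInf) := by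
    rw [sl_smul_cu, sl_smul_cu, ← mul_smul, ← mul_smul]
    congr 1
    have := hκ δ
    rw [Subgroup.coe_inv, map_inv, map_inv]
    calc w⁻¹ * (Theta.emb ((κ δ : Γ) : SL(2,ℤ)))⁻¹
        = (Theta.emb ((κ δ : Γ) : SL(2,ℤ)) * w)⁻¹ := by group
      _ = (w * Theta.emb (δ : SL(2,ℤ)))⁻¹ := by rw [this]
      _ = (Theta.emb (δ : SL(2,ℤ)))⁻¹ * w⁻¹ := by group
  rw [h2, thetaSL_orbit Γ (nz_glpos_smul w⁻¹ nz_eInf) nz_eInf (δ⁻¹ : Γ)] at h1
  exact h1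

include hκ hsurj in
/-- **the isometry theorem**: `ψ ↦ ψ ∘ κ` preserves the cup form on `parabolicHoms ℤ Γ ℤ`. -/
theorem lamForm_isometry (hneg : (-1 : SL(2,ℤ)) ∈ Γ)
    (Wop : (Additive Γ →+ ℤ) →+ (Additive Γ →+ ℤ))
    (hW : ∀ (ψ : Additive Γ →+ ℤ) (g : Γ),
      Wop ψ (Additive.ofMul g) = ψ (Additive.ofMul (κ g)))
    (WP : parabolicHoms ℤ Γ ℤ → parabolicHoms ℤ Γ ℤ)
    (hWP : ∀ x, ((WP x : parabolicHoms ℤ Γ ℤ) : Additive Γ →+ ℤ) = Wop x)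
    (x y : parabolicHoms ℤ Γ ℤ) : lamForm hneg (WP x) (WP y) = lamForm hneg x y := by
  obtain ⟨a, ha⟩ := exists_aSub_rep hneg x
  obtain ⟨a', ha'⟩ := exists_aSub_rep hneg (WP x)
  rw [lamForm_eq_pairT hneg a' (WP x) (WP y) ha', lamForm_eq_pairT hneg a x y ha, hWP]
  let F : (Additive Γ →+ ℤ) →ₗ[ℤ] ℤ := (pairT hneg a').comp Wop.toIntLinearMap - pairT hneg a
  have hF : ∀ γ : Γ, F (ThInf Γ γ) = 0 := by
    intro γ
    obtain ⟨δ, rfl⟩ := hsurj γ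
    show pairT hneg a' (Wop (ThInf Γ (κ δ))) - pairT hneg a (ThInf Γ (κ δ)) = 0
    have e : Wop (ThInf Γ (κ δ)) = ThInf Γ δ := by
      refine AddMonoidHom.ext fun g' => ?_
      obtain ⟨g, rfl⟩ : ∃ g : Γ, Additive.ofMul g = g' := ⟨Additive.toMul g', rfl⟩
      rw [hW]
      exact thInf_comp w κ hκ hsurj δ g
    rw [e, keyK', keyK', ← ha', ← ha, hWP, hW, sub_self]
  have h0 := functional_eq_zero_on_parabolic hneg F hF y
  exact sub_eq_zero.1 h0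

end General

/-! ### the rational Atkin–Lehner matrix -/

/-- `GL(2,ℚ)⁺ → GL(2,ℝ)` -/
noncomputable def toR : GL(2, ℚ)⁺ →* GL (Fin 2) ℝ :=
  (Matrix.GeneralLinearGroup.map (algebraMap ℚ ℝ)).comp (Subgroup.subtype _)

theorem toR_apply (g : GL(2, ℚ)⁺) (i j : Fin 2) :
    ((toR g : GL (Fin 2) ℝ) : Matrix (Fin 2) (Fin 2) ℝ) i j = ((mat g i j : ℚ) : ℝ) := rfl

theorem toR_injective : Function.Injective toR := by
  intro g h hgh
  apply Subtype.ext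
  apply Units.ext
  ext i j
  have := congrArg (fun M : GL (Fin 2) ℝ => (M : Matrix (Fin 2) (Fin 2) ℝ) i j) hgh
  simp only [toR_apply] at this
  exact_mod_cast this

theorem toR_emb (g : SL(2,ℤ)) : toR (Theta.emb g) = embR g := by
  apply Units.ext
  ext i j
  rw [toR_apply, mat_emb]
  simp [embR]

/-- `diag(q, 1) ∈ GL(2,ℚ)⁺` -/
noncomputable def dQ (q : ℕ) (hq : q ≠ 0) : GL(2, ℚ)⁺ :=
  ⟨Matrix.GeneralLinearGroup.mkOfDetNeZero !![(q : ℚ), 0; 0, 1]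
      (by rw [Matrix.det_fin_two_of]; simpa using hq),
    by
      rw [Matrix.mem_glpos]
      show 0 < (!![(q : ℚ), 0; 0, 1] : Matrix (Fin 2) (Fin 2) ℚ).det
      rw [Matrix.det_fin_two_of]
      have : (0 : ℚ) < q := by exact_mod_cast Nat.pos_of_ne_zero hq
      simpa using this⟩

theorem toR_dQ (q : ℕ) (hq : q ≠ 0) : toR (dQ q hq) = dlt q := by
  apply Units.ext
  ext i j
  rw [toR_apply, ModularForm.val_heckeDiagMatrix hq]
  fin_cases i <;> fin_cases j <;> simp [mat, dQ, Matrix.GeneralLinearGroup.mkOfDetNeZero]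

section AL

variable {N q : ℕ} [Fact q.Prime] (hqN : ¬ q ∣ N)

/-- the rational Atkin–Lehner matrix `W = r₀ δ` -/
noncomputable def wQ : GL(2, ℚ)⁺ :=
  Theta.emb ((rZero hqN : Gamma0 N) : SL(2, ℤ)) * dQ q q_ne_zero'

theorem toR_wQ : toR (wQ hqN) = wMat hqN := by
  unfold wQ wMat
  rw [map_mul, toR_emb, toR_dQ]

theorem wQ_rel (g : Gamma0 (N * q)) :
    wQ hqN * Theta.emb (g : SL(2, ℤ))
      = Theta.emb ((wHom hqN g : Gamma0 (N * q)) : SL(2, ℤ)) * wQ hqN := by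
  apply toR_injective
  rw [map_mul, map_mul, toR_wQ, toR_emb, toR_emb]
  exact wMat_rel hqN g

/-- `κ (κ g) = m g m⁻¹`, `m = wSq` -/
theorem wHom_wHom (g : Gamma0 (N * q)) :
    wHom hqN (wHom hqN g)
      = (⟨wSq hqN, wSq_mem hqN⟩ : Gamma0 (N * q)) * g * (⟨wSq hqN, wSq_mem hqN⟩ : Gamma0 (N * q))⁻¹ := by
  rw [eq_mul_inv_iff_mul_eq]
  apply Subtype.ext
  apply embR_injective
  rw [Subgroup.coe_mul, Subgroup.coe_mul, map_mul, map_mul]
  show embR ((wHom hqN (wHom hqN g) : Gamma0 (N * q)) : SL(2, ℤ)) * embR (wSq hqN)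
    = embR (wSq hqN) * embR (g : SL(2, ℤ))
  have h1 := wMat_rel hqN g
  have h2 := wMat_rel hqN (wHom hqN g)
  have h3 := wMat_mul_wMat hqN
  have h4 : wMat hqN * wMat hqN * embR (g : SL(2, ℤ))
      = embR ((wHom hqN (wHom hqN g) : Gamma0 (N * q)) : SL(2, ℤ)) * (wMat hqN * wMat hqN) := by
    rw [mul_assoc, h1, ← mul_assoc, h2, mul_assoc]
  rw [h3, ← mul_assoc, ← zq_comm, mul_assoc, mul_assoc] at h4
  exact (mul_left_cancel h4).symm

theorem wHom_surjective : Function.Surjective (wHom hqN) := by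
  intro γ
  refine ⟨wHom hqN ((⟨wSq hqN, wSq_mem hqN⟩ : Gamma0 (N * q))⁻¹ * γ
    * (⟨wSq hqN, wSq_mem hqN⟩ : Gamma0 (N * q))), ?_⟩
  rw [wHom_wHom]
  group

attribute [local instance] quotFintype quotDecEq

variable [NeZero N] [NeZero (N * q)]

/-- **`w_q` is an isometry of the unimodular cup form of level `N q`** -/
theorem lamB_wP_wP (x y : Lam (N * q)) :
    lamB (N * q) (wP hqN ℤ x) (wP hqN ℤ y) = lamB (N * q) x y :=
  lamForm_isometry (wQ hqN) (wHom hqN) (wQ_rel hqN) (wHom_surjective hqN)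
    (Asm.neg_one_mem_Gamma0 (N * q)) (wOp hqN ℤ) (fun ψ g => wOp_apply hqN ψ g) (wP hqN ℤ)
    (fun _ => rfl) x y

/-- **`w_q` is self-adjoint** -/
theorem lamB_wP_left (x z : Lam (N * q)) :
    lamB (N * q) (wP hqN ℤ x) z = lamB (N * q) x (wP hqN ℤ z) := by
  conv_lhs => rw [← wP_wP hqN z]
  exact lamB_wP_wP hqN x (wP hqN ℤ z)

/-- **(O1)** `⟨res_δ y, z⟩_{N q} = ⟨y, cores_δ z⟩_N` -/
theorem lamB_O1 (y : Lam N) (z : Lam (N * q)) :
    lamB (N * q) (resDP ℤ N q y) z = lamB N y (coresDP ℤ hqN z) := by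
  rw [← wP_resP hqN, lamB_wP_left, lamB_resP_coresP hqN, coresP_wP]

end AL

/-! ### (O2) and the package (D) -/

section Package

attribute [local instance] quotFintype quotDecEq

variable {N : ℕ} [NeZero N]

theorem lamB_skew (M : ℕ) [NeZero M] (x y : Lam M) : lamB M x y = - lamB M y x :=
  lamForm_skew (Asm.neg_one_mem_Gamma0 M) x y

/-- **(O2)** `⟨T_l x, y⟩_N = ⟨x, T_l y⟩_N` for a prime `l ∤ N` (helper91's `heckeP`) -/
theorem lamB_heckeP {l : ℕ} [Fact l.Prime] (hlN : ¬ l ∣ N) (x y : Lam N) :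
    lamB N (heckeP ℤ hlN x) y = lamB N x (heckeP ℤ hlN y) := by
  have : NeZero (N * l) := ⟨Nat.mul_ne_zero (NeZero.ne N) (Fact.out : l.Prime).ne_zero⟩
  have e1 : heckeP ℤ hlN x = coresP ℤ hlN (resDP ℤ N l x) :=
    Subtype.ext (by rw [heckeP_coe, coresP_coe, resDP_coe, cores_comp_resD])
  have e2 : heckeP ℤ hlN y = coresDP ℤ hlN (resP ℤ N l y) :=
    Subtype.ext (by rw [heckeP_coe, coresDP_coe, resP_coe, coresD_comp_res])
  rw [e1, e2, ← lamB_O1 hlN, lamB_skew N, ← lamB_resP_coresP hlN, ← lamB_skew (N * l)]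

theorem heckeP_eq_latT_primes (l : Nat.Primes) [Fact (l : ℕ).Prime] (hlN : ¬ (l : ℕ) ∣ N)
    (x : Lam N) : heckeP ℤ hlN x = latT N l x := by
  apply Subtype.ext
  rw [heckeP_coe, coe_latT, cohGen_of_not_dvd N ℤ l hlN]

/-- **(O2)** for `latT` -/
theorem lamB_latT (l : Nat.Primes) (hlN : ¬ (l : ℕ) ∣ N) (x y : Lam N) :
    lamB N (latT N l x) y = lamB N x (latT N l y) := by
  have : Fact (l : ℕ).Prime := ⟨l.2⟩
  rw [← heckeP_eq_latT_primes l hlN, ← heckeP_eq_latT_primes l hlN]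
  exact lamB_heckeP hlN x y

variable {q : ℕ} [Fact q.Prime] [NeZero (N * q)]

/-- **the package (D)**: the binder `hD` of `GM/End/Plug.S41_of_remaining_leaves`, verbatim. -/
theorem dPackage_full (p : ℕ) (hqN : ¬ q ∣ N) :
    ∃ (B : Lam N →+ Lam N →+ ZMod p) (B2 : Lam (N * q) →+ Lam (N * q) →+ ZMod p),
      (∀ x : Lam N, (∀ y, B x y = 0) → ∃ z, x = (p : ℤ) • z) ∧
      (∀ w : Lam (N * q), (∀ z, B2 w z = 0) → ∃ z, w = (p : ℤ) • z) ∧
      (∀ (x y : Lam N) (z : Lam (N * q)),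
        B2 (alphaP ℤ N q (x, y)) z = B x (betaP ℤ hqN z).1 + B y (betaP ℤ hqN z).2) ∧
      (∀ l : Nat.Primes, ¬ (l : ℕ) ∣ N * q → ∀ x y : Lam N,
        B (latT N l x) y = B x (latT N l y)) := by
  refine ⟨lamBmod N p, lamBmod (N * q) p, lamBmod_left_nondeg N p, lamBmod_left_nondeg (N * q) p,
    ?_, ?_⟩
  · intro x y z
    rw [alphaP_apply, betaP_apply, map_add, AddMonoidHom.add_apply, lamBmod_apply, lamBmod_apply,
      lamBmod_apply, lamBmod_apply, lamB_resP_coresP hqN, lamB_O1 hqN]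
  · intro l hl x y
    have hlN : ¬ (l : ℕ) ∣ N := fun h => hl (dvd_mul_of_dvd_left h q)
    rw [lamBmod_apply, lamBmod_apply, lamB_latT l hlN]

end Package

end Fermat.Agent.GM.Theta.Outer
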