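import Mathlib

/-!
# GATE-M / S41-D-BRIDGE-THETA : definitions

Cusps are represented by nonzero rational vectors `a : Cu` (the cusp is `a.x / a.y ∈ P¹(ℚ)`), interior
base points of the upper half plane by positive definite real binary quadratic forms `P : Frm`
(`z = x + i y` corresponds to `N(v) = |v.y z - v.x|²`-type forms).  `GL(2,ℚ)⁺` acts on both, and

  `side P a b = 1` iff `bil P a b * det (a | b) < 0`   ("`P` lies strictly on one side of the geodesic
  from `a` to `b`")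

is invariant under the diagonal action and under rescaling of `a`, `b`.
-/

set_option autoImplicit false

open scoped MatrixGroups

namespace Fermat.Agent.GM.Theta

/-- A cusp representative: a rational vector `(x, y)`. -/
@[ext] structure Cu where
  x : ℚ
  y : ℚ
deriving DecidableEq

/-- `det (a | b)`. -/
def dt (a b : Cu) : ℚ := a.x * b.y - a.y * b.x

/-- matrix times vector -/
def Cu.mv (m : Matrix (Fin 2) (Fin 2) ℚ) (a : Cu) : Cu :=
  ⟨m 0 0 * a.x + m 0 1 * a.y, m 1 0 * a.x + m 1 1 * a.y⟩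

/-- rescaling of a cusp representative -/
def Cu.scale (t : ℚ) (a : Cu) : Cu := ⟨t * a.x, t * a.y⟩

@[simp] theorem Cu.mv_one (a : Cu) : Cu.mv 1 a = a := by
  ext <;> simp [Cu.mv]

theorem Cu.mv_mul (m n : Matrix (Fin 2) (Fin 2) ℚ) (a : Cu) :
    Cu.mv (m * n) a = Cu.mv m (Cu.mv n a) := by
  ext <;> simp [Cu.mv, Matrix.mul_apply, Fin.sum_univ_two] <;> ring

theorem dt_mv (m : Matrix (Fin 2) (Fin 2) ℚ) (a b : Cu) :
    dt (Cu.mv m a) (Cu.mv m b) = m.det * dt a b := by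
  simp only [dt, Cu.mv, Matrix.det_fin_two]; ring

theorem dt_swap (a b : Cu) : dt b a = - dt a b := by simp only [dt]; ring

theorem dt_scale_left (t : ℚ) (a b : Cu) : dt (Cu.scale t a) b = t * dt a b := by
  simp only [dt, Cu.scale]; ring

theorem dt_scale_right (t : ℚ) (a b : Cu) : dt a (Cu.scale t b) = t * dt a b := by
  simp only [dt, Cu.scale]; ring

/-- Positive definite real binary quadratic forms `A x² + 2 B x y + C y²`. -/
@[ext] structure Frm where
  A : ℝ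
  B : ℝ
  C : ℝ
  hA : 0 < A
  hD : 0 < A * C - B ^ 2

/-- The symmetric bilinear form of `P`, evaluated on rational vectors. -/
def Frm.bil (P : Frm) (a b : Cu) : ℝ :=
  P.A * ((a.x : ℝ) * b.x) + P.B * ((a.x : ℝ) * b.y + a.y * b.x) + P.C * ((a.y : ℝ) * b.y)

theorem Frm.bil_comm (P : Frm) (a b : Cu) : P.bil a b = P.bil b a := by
  simp only [Frm.bil]; ring

theorem Frm.bil_scale_left (P : Frm) (t : ℚ) (a b : Cu) :
    P.bil (Cu.scale t a) b = t * P.bil a b := by
  simp only [Frm.bil, Cu.scale]; push_cast; ring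

theorem Frm.bil_scale_right (P : Frm) (t : ℚ) (a b : Cu) :
    P.bil a (Cu.scale t b) = t * P.bil a b := by
  simp only [Frm.bil, Cu.scale]; push_cast; ring

theorem Frm.hC (P : Frm) : 0 < P.C := by
  have h1 := P.hA; have h2 := P.hD
  by_contra h
  rw [not_lt] at h
  nlinarith [sq_nonneg P.B, mul_nonpos_of_nonneg_of_nonpos h1.le h]

/-- Gram identity: `bil(a,b)² + disc · det(a|b)² = Q(a) Q(b)`. -/
theorem Frm.gram (P : Frm) (a b : Cu) :
    P.bil a b ^ 2 + (P.A * P.C - P.B ^ 2) * ((dt a b : ℚ) : ℝ) ^ 2 = P.bil a a * P.bil b b := by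
  simp only [Frm.bil, dt]; push_cast; ring

/-- `A · Q(a) = (A x + B y)² + disc · y²`. -/
theorem Frm.A_mul_bil_self (P : Frm) (a : Cu) :
    P.A * P.bil a a = (P.A * a.x + P.B * a.y) ^ 2 + (P.A * P.C - P.B ^ 2) * (a.y : ℝ) ^ 2 := by
  simp only [Frm.bil]; ring

theorem Frm.bil_self_pos (P : Frm) {a : Cu} (ha : a.x ≠ 0 ∨ a.y ≠ 0) : 0 < P.bil a a := by
  have h := P.A_mul_bil_self a
  have hA := P.hA; have hD := P.hD
  by_cases hy : a.y = 0
  · have hx : a.x ≠ 0 := by tauto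
    have hx' : (a.x : ℝ) ≠ 0 := by exact_mod_cast hx
    have : 0 < P.A * P.bil a a := by
      rw [h, hy]; simp only [Rat.cast_zero, mul_zero, add_zero]
      have : 0 < (P.A * (a.x : ℝ)) ^ 2 := by positivity
      nlinarith
    exact (mul_pos_iff_of_pos_left hA).1 this
  · have hy' : (a.y : ℝ) ≠ 0 := by exact_mod_cast hy
    have : 0 < P.A * P.bil a a := by
      rw [h]
      have h1 : 0 < (P.A * P.C - P.B ^ 2) * (a.y : ℝ) ^ 2 := by positivity
      nlinarith [sq_nonneg (P.A * (a.x : ℝ) + P.B * a.y)]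
    exact (mul_pos_iff_of_pos_left hA).1 this


/-- Pull-back of a form along an invertible rational matrix: `(P.pull m).bil a b = P.bil (m a) (m b)`. -/
def Frm.pull (P : Frm) (m : Matrix (Fin 2) (Fin 2) ℚ) (hm : m.det ≠ 0) : Frm where
  A := P.bil (Cu.mv m ⟨1, 0⟩) (Cu.mv m ⟨1, 0⟩)
  B := P.bil (Cu.mv m ⟨1, 0⟩) (Cu.mv m ⟨0, 1⟩)
  C := P.bil (Cu.mv m ⟨0, 1⟩) (Cu.mv m ⟨0, 1⟩)
  hA := by
    apply P.bil_self_pos
    by_contra h
    rw [not_or, not_not, not_not] at h
    apply hm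
    simp only [Cu.mv, mul_one, mul_zero, add_zero] at h
    rw [Matrix.det_fin_two, h.1, h.2]; ring
  hD := by
    have h := P.gram (Cu.mv m ⟨1, 0⟩) (Cu.mv m ⟨0, 1⟩)
    have h2 : dt (Cu.mv m ⟨1, 0⟩) (Cu.mv m ⟨0, 1⟩) = m.det := by
      rw [dt_mv]; simp [dt]
    rw [h2] at h
    have h3 : (0 : ℝ) < (P.A * P.C - P.B ^ 2) * ((m.det : ℚ) : ℝ) ^ 2 := by
      have : ((m.det : ℚ) : ℝ) ≠ 0 := by exact_mod_cast hm
      have := P.hD
      positivity
    nlinarith

theorem Frm.bil_pull (P : Frm) (m : Matrix (Fin 2) (Fin 2) ℚ) (hm : m.det ≠ 0) (a b : Cu) :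
    (P.pull m hm).bil a b = P.bil (Cu.mv m a) (Cu.mv m b) := by
  simp only [Frm.pull, Frm.bil, Cu.mv]; push_cast; ring

theorem Frm.ext_bil {P P' : Frm} (h : ∀ a b, P.bil a b = P'.bil a b) : P = P' := by
  have h1 := h ⟨1, 0⟩ ⟨1, 0⟩
  have h2 := h ⟨1, 0⟩ ⟨0, 1⟩
  have h3 := h ⟨0, 1⟩ ⟨0, 1⟩
  simp only [Frm.bil, Rat.cast_one, Rat.cast_zero, mul_one, mul_zero, add_zero, zero_add] at h1 h2 h3
  exact Frm.ext h1 h2 h3

/-- the underlying rational matrix of an element of `GL(2,ℚ)⁺` -/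
def mat (g : GL(2, ℚ)⁺) : Matrix (Fin 2) (Fin 2) ℚ := ((g : GL (Fin 2) ℚ) : Matrix (Fin 2) (Fin 2) ℚ)

@[simp] theorem mat_one : mat 1 = 1 := rfl

theorem mat_mul (g h : GL(2, ℚ)⁺) : mat (g * h) = mat g * mat h := rfl

theorem det_mat_pos (g : GL(2, ℚ)⁺) : 0 < (mat g).det := by
  have := g.2
  rw [Matrix.mem_glpos] at this
  simpa [mat] using this

theorem det_mat_ne_zero (g : GL(2, ℚ)⁺) : (mat g).det ≠ 0 := (det_mat_pos g).ne'

theorem mat_inv_mul (g : GL(2, ℚ)⁺) : mat g⁻¹ * mat g = 1 := by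
  rw [← mat_mul, inv_mul_cancel, mat_one]

theorem mat_mul_inv (g : GL(2, ℚ)⁺) : mat g * mat g⁻¹ = 1 := by
  rw [← mat_mul, mul_inv_cancel, mat_one]

instance instMulActionCu : MulAction GL(2, ℚ)⁺ Cu where
  smul g a := Cu.mv (mat g) a
  one_smul a := Cu.mv_one a
  mul_smul g h a := by
    show Cu.mv (mat (g * h)) a = Cu.mv (mat g) (Cu.mv (mat h) a)
    rw [mat_mul, Cu.mv_mul]

theorem smul_cu_def (g : GL(2, ℚ)⁺) (a : Cu) : g • a = Cu.mv (mat g) a := rfl

instance instMulActionFrm : MulAction GL(2, ℚ)⁺ Frm where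
  smul g P := P.pull (mat g⁻¹) (det_mat_ne_zero _)
  one_smul P := by
    apply Frm.ext_bil
    intro a b
    show (P.pull (mat (1 : GL(2, ℚ)⁺)⁻¹) _).bil a b = _
    rw [Frm.bil_pull]
    simp
  mul_smul g h P := by
    apply Frm.ext_bil
    intro a b
    show (P.pull (mat (g * h)⁻¹) _).bil a b = ((P.pull (mat h⁻¹) _).pull (mat g⁻¹) _).bil a b
    rw [Frm.bil_pull, Frm.bil_pull, Frm.bil_pull, mul_inv_rev, mat_mul, Cu.mv_mul, Cu.mv_mul]

theorem smul_frm_def (g : GL(2, ℚ)⁺) (P : Frm) : g • P = P.pull (mat g⁻¹) (det_mat_ne_zero _) := rfl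

theorem bil_smul_frm (g : GL(2, ℚ)⁺) (P : Frm) (a b : Cu) :
    (g • P).bil a b = P.bil (g⁻¹ • a) (g⁻¹ • b) := by
  rw [smul_frm_def, Frm.bil_pull]; rfl

/-- `GL(2,ℚ)⁺`-invariance of the bilinear pairing. -/
theorem bil_smul_smul (g : GL(2, ℚ)⁺) (P : Frm) (a b : Cu) :
    (g • P).bil (g • a) (g • b) = P.bil a b := by
  rw [bil_smul_frm, inv_smul_smul, inv_smul_smul]

theorem dt_smul (g : GL(2, ℚ)⁺) (a b : Cu) : dt (g • a) (g • b) = (mat g).det * dt a b :=
  dt_mv _ _ _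

/-- Side indicator: `1` if `bil P a b * det (a | b) < 0`, else `0`. -/
noncomputable def side (P : Frm) (a b : Cu) : ℤ :=
  if P.bil a b * ((dt a b : ℚ) : ℝ) < 0 then 1 else 0

theorem side_eq_one_iff (P : Frm) (a b : Cu) :
    side P a b = 1 ↔ P.bil a b * ((dt a b : ℚ) : ℝ) < 0 := by
  unfold side; split_ifs with h <;> simp [h]

theorem side_eq_zero_iff (P : Frm) (a b : Cu) :
    side P a b = 0 ↔ ¬ P.bil a b * ((dt a b : ℚ) : ℝ) < 0 := by
  unfold side; split_ifs with h <;> simp [h]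

theorem side_mem (P : Frm) (a b : Cu) : side P a b = 0 ∨ side P a b = 1 := by
  unfold side; split_ifs <;> simp

/-- `GL(2,ℚ)⁺`-invariance of the side indicator. -/
theorem side_smul (g : GL(2, ℚ)⁺) (P : Frm) (a b : Cu) :
    side (g • P) (g • a) (g • b) = side P a b := by
  unfold side
  rw [bil_smul_smul, dt_smul]
  have hd : (0 : ℝ) < (((mat g).det : ℚ) : ℝ) := by exact_mod_cast det_mat_pos g
  have : P.bil a b * (((mat g).det * dt a b : ℚ) : ℝ)
      = (((mat g).det : ℚ) : ℝ) * (P.bil a b * ((dt a b : ℚ) : ℝ)) := by push_cast; ring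
  rw [this]
  have hiff : (((mat g).det : ℚ) : ℝ) * (P.bil a b * ((dt a b : ℚ) : ℝ)) < 0
      ↔ P.bil a b * ((dt a b : ℚ) : ℝ) < 0 := by
    constructor
    · intro h; by_contra h'; rw [not_lt] at h'
      have := mul_nonneg hd.le h'; linarith
    · intro h; exact mul_neg_of_pos_of_neg hd h
  simp only [hiff]

theorem side_smul' (g : GL(2, ℚ)⁺) (P : Frm) (a b : Cu) :
    side P (g • a) (g • b) = side (g⁻¹ • P) a b := by
  rw [← side_smul g⁻¹ P (g • a) (g • b), inv_smul_smul, inv_smul_smul]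

/-- scaling invariance in the first cusp -/
theorem side_scale_left (P : Frm) {t : ℚ} (ht : t ≠ 0) (a b : Cu) :
    side P (Cu.scale t a) b = side P a b := by
  unfold side
  rw [Frm.bil_scale_left, dt_scale_left]
  have ht2 : (0 : ℝ) < (t : ℝ) ^ 2 := by
    have : (t : ℝ) ≠ 0 := by exact_mod_cast ht
    positivity
  have : (t : ℝ) * P.bil a b * ((t * dt a b : ℚ) : ℝ)
      = (t : ℝ) ^ 2 * (P.bil a b * ((dt a b : ℚ) : ℝ)) := by push_cast; ring
  rw [this]
  have hiff : (t : ℝ) ^ 2 * (P.bil a b * ((dt a b : ℚ) : ℝ)) < 0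
      ↔ P.bil a b * ((dt a b : ℚ) : ℝ) < 0 := by
    constructor
    · intro h; by_contra h'; rw [not_lt] at h'
      have := mul_nonneg ht2.le h'; linarith
    · intro h; exact mul_neg_of_pos_of_neg ht2 h
  simp only [hiff]

/-- scaling invariance in the second cusp -/
theorem side_scale_right (P : Frm) {t : ℚ} (ht : t ≠ 0) (a b : Cu) :
    side P a (Cu.scale t b) = side P a b := by
  unfold side
  rw [Frm.bil_scale_right, dt_scale_right]
  have ht2 : (0 : ℝ) < (t : ℝ) ^ 2 := by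
    have : (t : ℝ) ≠ 0 := by exact_mod_cast ht
    positivity
  have : (t : ℝ) * P.bil a b * ((t * dt a b : ℚ) : ℝ)
      = (t : ℝ) ^ 2 * (P.bil a b * ((dt a b : ℚ) : ℝ)) := by push_cast; ring
  rw [this]
  have hiff : (t : ℝ) ^ 2 * (P.bil a b * ((dt a b : ℚ) : ℝ)) < 0
      ↔ P.bil a b * ((dt a b : ℚ) : ℝ) < 0 := by
    constructor
    · intro h; by_contra h'; rw [not_lt] at h'
      have := mul_nonneg ht2.le h'; linarith
    · intro h; exact mul_neg_of_pos_of_neg ht2 h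
  simp only [hiff]

/-- For a point `P` not on the geodesic `{a, b}`, the two orientations see `P` on opposite sides. -/
theorem side_swap (P : Frm) (a b : Cu) (h : P.bil a b * ((dt a b : ℚ) : ℝ) ≠ 0) :
    side P b a = 1 - side P a b := by
  unfold side
  rw [Frm.bil_comm P b a, dt_swap]
  have : P.bil a b * (((- dt a b : ℚ)) : ℝ) = - (P.bil a b * ((dt a b : ℚ) : ℝ)) := by
    push_cast; ring
  rw [this]
  rcases lt_or_gt_of_ne h with h1 | h1
  · have h2 : ¬ (-(P.bil a b * ((dt a b : ℚ) : ℝ)) < 0) := by linarith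
    simp [h1, h2]
  · have h2 : (-(P.bil a b * ((dt a b : ℚ) : ℝ)) < 0) := by linarith
    have h3 : ¬ (P.bil a b * ((dt a b : ℚ) : ℝ) < 0) := by linarith
    simp [h2, h3]

end Fermat.Agent.GM.Theta
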