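import Fermat.Agent.GM.Theta.Fin

/-!
# GATE-M / S41-D-BRIDGE-THETA : the base point `ρ` and the separation lemma

`PU` is the form `x² + x y + y²` (the point `e^{2πi/3}`), fixed by `S * T`.  The geodesic
`g {0, ∞}` (`g ∈ SL(2,ℤ)`) separates `PU` from `S⁻¹ • PU` iff `g ∈ {±1, ±S}`.
-/

set_option autoImplicit false

open scoped MatrixGroups
open ModularGroup

namespace Fermat.Agent.GM.Theta

/-- the cusp `0 = 0/1` -/
def e0 : Cu := ⟨0, 1⟩

/-- the cusp `∞ = 1/0` -/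
def eInf : Cu := ⟨1, 0⟩

/-- the form `x² + x y + y²` -/
noncomputable def PU : Frm where
  A := 1
  B := 1 / 2
  C := 1
  hA := by norm_num
  hD := by norm_num

theorem bil_PU (a b : Cu) :
    PU.bil a b = (a.x : ℝ) * b.x + (1 / 2) * ((a.x : ℝ) * b.y + a.y * b.x) + (a.y : ℝ) * b.y := by
  simp only [Frm.bil, PU]; ring

theorem emb_inv_smul_frm (g : SL(2,ℤ)) (P : Frm) (a b : Cu) :
    ((emb g)⁻¹ • P).bil a b = P.bil (emb g • a) (emb g • b) := by
  rw [bil_smul_frm, inv_inv]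

theorem emb_smul_frm (g : SL(2,ℤ)) (P : Frm) (a b : Cu) :
    (emb g • P).bil a b = P.bil (emb g⁻¹ • a) (emb g⁻¹ • b) := by
  rw [bil_smul_frm, map_inv]

theorem ST_inv_entries : ((S * T)⁻¹ : SL(2,ℤ)) 0 0 = 1 ∧ ((S * T)⁻¹ : SL(2,ℤ)) 0 1 = 1 ∧
    ((S * T)⁻¹ : SL(2,ℤ)) 1 0 = -1 ∧ ((S * T)⁻¹ : SL(2,ℤ)) 1 1 = 0 := by decide

/-- `PU` is fixed by `S * T`. -/
theorem ST_smul_PU : emb (S * T) • PU = PU := by
  apply Frm.ext_bil
  intro a b
  rw [emb_smul_frm, emb_smul_cu, emb_smul_cu, bil_PU, bil_PU]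
  obtain ⟨h1, h2, h3, h4⟩ := ST_inv_entries
  simp only [h1, h2, h3, h4]
  push_cast; ring

theorem S_entries : (S : SL(2,ℤ)) 0 0 = 0 ∧ (S : SL(2,ℤ)) 0 1 = -1 ∧
    (S : SL(2,ℤ)) 1 0 = 1 ∧ (S : SL(2,ℤ)) 1 1 = 0 := by decide

/-- the Diophantine core: `n = pq + rs`, `m = qr`, `ps - qr = 1`. -/
theorem dioph {p q r s : ℤ} (hdet : p * s - q * r = 1)
    (h : (0 ≤ p * q + r * s + q * r ∧ p * q + r * s - q * r ≤ 0) ∨
         (p * q + r * s + q * r ≤ -1 ∧ 1 ≤ p * q + r * s - q * r)) :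
    (q = 0 ∧ r = 0 ∧ p = s) ∨ (p = 0 ∧ s = 0 ∧ q = -r) := by
  have key : (p * q + r * s) ^ 2 ≥ 4 * (q * r) * (q * r + 1) := by
    have h1 : (p * q) * (r * s) = (q * r) * (q * r + 1) := by
      have : p * s = q * r + 1 := by linarith
      calc (p * q) * (r * s) = (q * r) * (p * s) := by ring
        _ = (q * r) * (q * r + 1) := by rw [this]
    nlinarith [sq_nonneg (p * q - r * s)]
  set n := p * q + r * s with hn
  set m := q * r with hm
  rcases h with ⟨h1, h2⟩ | ⟨h1, h2⟩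
  · -- |n| ≤ m
    have hm0 : 0 ≤ m := by linarith
    have hn2 : n ^ 2 ≤ m ^ 2 := by nlinarith
    have : m = 0 := by nlinarith
    have hn0 : n = 0 := by rw [this] at h1 h2; linarith
    left
    have hps : p * s = 1 := by rw [hm] at this; linarith
    have hqr : q * r = 0 := this
    -- p = s = ±1
    have hp : p = 1 ∧ s = 1 ∨ p = -1 ∧ s = -1 := Int.eq_one_or_neg_one_of_mul_eq_one' hps
    rcases mul_eq_zero.1 hqr with hq | hr
    · rcases hp with ⟨hp1, hs1⟩ | ⟨hp1, hs1⟩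
      · refine ⟨hq, ?_, by rw [hp1, hs1]⟩
        rw [hn, hq, hs1] at hn0; linarith
      · refine ⟨hq, ?_, by rw [hp1, hs1]⟩
        rw [hn, hq, hs1] at hn0; linarith
    · rcases hp with ⟨hp1, hs1⟩ | ⟨hp1, hs1⟩
      · refine ⟨?_, hr, by rw [hp1, hs1]⟩
        rw [hn, hr, hp1] at hn0; linarith
      · refine ⟨?_, hr, by rw [hp1, hs1]⟩
        rw [hn, hr, hp1] at hn0; linarith
  · -- |n| ≤ -m-1
    have hm0 : m ≤ -1 := by linarith
    have hn2 : n ^ 2 ≤ (m + 1) ^ 2 := by nlinarith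
    have : m = -1 := by nlinarith
    have hn0 : n = 0 := by rw [this] at h1 h2; linarith
    right
    have hqr : q * r = -1 := this
    have hps : p * s = 0 := by rw [hm] at this; linarith
    have hq : q = 1 ∧ r = -1 ∨ q = -1 ∧ r = 1 := by
      have : q * (-r) = 1 := by linarith
      rcases Int.eq_one_or_neg_one_of_mul_eq_one' this with ⟨h1, h2⟩ | ⟨h1, h2⟩
      · left; exact ⟨h1, by linarith⟩
      · right; exact ⟨h1, by linarith⟩
    rcases hq with ⟨hq1, hr1⟩ | ⟨hq1, hr1⟩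
    · rw [hn, hq1, hr1] at hn0
      have hps' : p = s := by linarith
      rw [hps'] at hps
      have hs : s = 0 := by
        rcases mul_eq_zero.1 hps with h | h <;> exact h
      exact ⟨by rw [hps', hs], hs, by omega⟩
    · rw [hn, hq1, hr1] at hn0
      have hps' : p = s := by linarith
      rw [hps'] at hps
      have hs : s = 0 := by
        rcases mul_eq_zero.1 hps with h | h <;> exact h
      exact ⟨by rw [hps', hs], hs, by omega⟩


theorem emb_smul_e0 (g : SL(2,ℤ)) : emb g • e0 = ⟨(g 0 1 : ℤ), (g 1 1 : ℤ)⟩ := by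
  rw [emb_smul_cu]; simp [e0]

theorem emb_smul_eInf (g : SL(2,ℤ)) : emb g • eInf = ⟨(g 0 0 : ℤ), (g 1 0 : ℤ)⟩ := by
  rw [emb_smul_cu]; simp [eInf]

theorem det_entries (g : SL(2,ℤ)) : g 0 0 * g 1 1 - g 0 1 * g 1 0 = 1 := by
  have := g.det_coe
  rw [Matrix.det_fin_two] at this
  exact this

theorem side_eq_ite (P : Frm) (a b : Cu) (c : Prop) [Decidable c]
    (h : P.bil a b * ((dt a b : ℚ) : ℝ) < 0 ↔ c) : side P a b = if c then 1 else 0 := by
  by_cases hc : c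
  · rw [if_pos hc, side_eq_one_iff]; exact h.2 hc
  · rw [if_neg hc, side_eq_zero_iff]; exact fun h' => hc (h.1 h')

/-- the side of `PU` with respect to `g {0, ∞}` -/
theorem side_PU_edge (g : SL(2,ℤ)) :
    side PU (emb g • e0) (emb g • eInf)
      = if 0 ≤ g 0 0 * g 0 1 + g 1 0 * g 1 1 + g 0 1 * g 1 0 then 1 else 0 := by
  apply side_eq_ite
  rw [emb_smul_e0, emb_smul_eInf, bil_PU]
  have hdet := det_entries g
  simp only [dt]
  set p := g 0 0; set q := g 0 1; set r := g 1 0; set s := g 1 1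
  have h1 : ((p * s : ℤ) : ℝ) = ((q * r + 1 : ℤ) : ℝ) := by
    have : p * s = q * r + 1 := by linarith
    rw [this]
  have hval : (((q : ℚ) : ℝ) * ((p : ℚ) : ℝ) + 1 / 2 * (((q : ℚ) : ℝ) * ((r : ℚ) : ℝ)
        + ((s : ℚ) : ℝ) * ((p : ℚ) : ℝ)) + ((s : ℚ) : ℝ) * ((r : ℚ) : ℝ))
        * (((q : ℚ) * (r : ℚ) - (s : ℚ) * (p : ℚ) : ℚ) : ℝ)
      = -(((p * q + r * s + q * r : ℤ) : ℝ) + 1 / 2) := by
    push_cast at h1 ⊢
    have h2 : (s : ℝ) * p = q * r + 1 := by linarith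
    have h3 : (q : ℝ) * r - s * p = -1 := by linarith
    rw [h3, h2]; ring
  rw [hval]
  constructor
  · intro h
    have : (-1 : ℝ) < ((p * q + r * s + q * r : ℤ) : ℝ) := by linarith
    have : (-1 : ℤ) < p * q + r * s + q * r := by exact_mod_cast this
    omega
  · intro h
    have h' : (0 : ℝ) ≤ ((p * q + r * s + q * r : ℤ) : ℝ) := by exact_mod_cast h
    linarith

/-- the side of `S⁻¹ • PU` with respect to `g {0, ∞}` -/
theorem side_SPU_edge (g : SL(2,ℤ)) :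
    side ((emb S)⁻¹ • PU) (emb g • e0) (emb g • eInf)
      = if 1 ≤ g 0 0 * g 0 1 + g 1 0 * g 1 1 - g 0 1 * g 1 0 then 1 else 0 := by
  apply side_eq_ite
  rw [emb_inv_smul_frm, emb_smul_e0, emb_smul_eInf, emb_smul_cu, emb_smul_cu, bil_PU]
  obtain ⟨s1, s2, s3, s4⟩ := S_entries
  have hdet := det_entries g
  simp only [dt, s1, s2, s3, s4]
  set p := g 0 0; set q := g 0 1; set r := g 1 0; set s := g 1 1
  have h1 : ((p * s : ℤ) : ℝ) = ((q * r + 1 : ℤ) : ℝ) := by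
    have : p * s = q * r + 1 := by linarith
    rw [this]
  have hval : (((((0 : ℤ) : ℚ) * (q : ℚ) + ((-1 : ℤ) : ℚ) * (s : ℚ) : ℚ) : ℝ)
        * ((((0 : ℤ) : ℚ) * (p : ℚ) + ((-1 : ℤ) : ℚ) * (r : ℚ) : ℚ) : ℝ)
      + 1 / 2 * (((((0 : ℤ) : ℚ) * (q : ℚ) + ((-1 : ℤ) : ℚ) * (s : ℚ) : ℚ) : ℝ)
            * ((((1 : ℤ) : ℚ) * (p : ℚ) + ((0 : ℤ) : ℚ) * (r : ℚ) : ℚ) : ℝ)
          + ((((1 : ℤ) : ℚ) * (q : ℚ) + ((0 : ℤ) : ℚ) * (s : ℚ) : ℚ) : ℝ)
            * ((((0 : ℤ) : ℚ) * (p : ℚ) + ((-1 : ℤ) : ℚ) * (r : ℚ) : ℚ) : ℝ))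
      + ((((1 : ℤ) : ℚ) * (q : ℚ) + ((0 : ℤ) : ℚ) * (s : ℚ) : ℚ) : ℝ)
        * ((((1 : ℤ) : ℚ) * (p : ℚ) + ((0 : ℤ) : ℚ) * (r : ℚ) : ℚ) : ℝ))
        * (((q : ℚ) * (r : ℚ) - (s : ℚ) * (p : ℚ) : ℚ) : ℝ)
      = -(((p * q + r * s - q * r : ℤ) : ℝ) - 1 / 2) := by
    push_cast at h1 ⊢
    have h2 : (s : ℝ) * p = q * r + 1 := by linarith
    have h3 : (q : ℝ) * r - s * p = -1 := by linarith
    rw [h3]
    linear_combination ((1:ℝ) / 2) * h2
  rw [hval]
  constructor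
  · intro h
    have : (0 : ℝ) < ((p * q + r * s - q * r : ℤ) : ℝ) := by linarith
    have : (0 : ℤ) < p * q + r * s - q * r := by exact_mod_cast this
    omega
  · intro h
    have h' : (1 : ℝ) ≤ ((p * q + r * s - q * r : ℤ) : ℝ) := by exact_mod_cast h
    linarith


theorem sl2_ext_entries {g h : SL(2,ℤ)} (h00 : g 0 0 = h 0 0) (h01 : g 0 1 = h 0 1)
    (h10 : g 1 0 = h 1 0) (h11 : g 1 1 = h 1 1) : g = h := by
  apply Matrix.SpecialLinearGroup.ext
  intro i j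
  fin_cases i <;> fin_cases j <;> assumption

theorem one_entries : (1 : SL(2,ℤ)) 0 0 = 1 ∧ (1 : SL(2,ℤ)) 0 1 = 0 ∧
    (1 : SL(2,ℤ)) 1 0 = 0 ∧ (1 : SL(2,ℤ)) 1 1 = 1 := by decide

theorem neg_one_entries : (-1 : SL(2,ℤ)) 0 0 = -1 ∧ (-1 : SL(2,ℤ)) 0 1 = 0 ∧
    (-1 : SL(2,ℤ)) 1 0 = 0 ∧ (-1 : SL(2,ℤ)) 1 1 = -1 := by decide

theorem neg_S_entries : (-S : SL(2,ℤ)) 0 0 = 0 ∧ (-S : SL(2,ℤ)) 0 1 = 1 ∧
    (-S : SL(2,ℤ)) 1 0 = -1 ∧ (-S : SL(2,ℤ)) 1 1 = 0 := by decide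

/-- **Separation lemma.** The edge `g {0, ∞}` separates `PU` from `S⁻¹ • PU` iff `g = ±1`
(crossing number `+1`) or `g = ±S` (crossing number `-1`). -/
theorem sep_edge (g : SL(2,ℤ)) :
    side PU (emb g • e0) (emb g • eInf) - side ((emb S)⁻¹ • PU) (emb g • e0) (emb g • eInf)
      = (if g = 1 ∨ g = -1 then 1 else 0) - (if g = S ∨ g = -S then 1 else 0) := by
  rw [side_PU_edge, side_SPU_edge]
  have hdet := det_entries g
  by_cases h1 : g = 1 ∨ g = -1
  · have h2 : ¬ (g = S ∨ g = -S) := by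
      rcases h1 with rfl | rfl <;> decide
    rw [if_pos h1, if_neg h2]
    rcases h1 with rfl | rfl
    · obtain ⟨a, b, c, d⟩ := one_entries
      simp [a, b, c, d]
    · obtain ⟨a, b, c, d⟩ := neg_one_entries
      simp [a, b, c, d]
  · by_cases h2 : g = S ∨ g = -S
    · rw [if_neg h1, if_pos h2]
      rcases h2 with rfl | rfl
      · obtain ⟨a, b, c, d⟩ := S_entries
        simp [a, b, c, d]
      · obtain ⟨a, b, c, d⟩ := neg_S_entries
        simp [a, b, c, d]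
    · rw [if_neg h1, if_neg h2]
      set p := g 0 0 with hp; set q := g 0 1 with hq; set r := g 1 0 with hr; set s := g 1 1 with hs
      by_contra hne
      have hcond : (0 ≤ p * q + r * s + q * r ∧ p * q + r * s - q * r ≤ 0) ∨
          (p * q + r * s + q * r ≤ -1 ∧ 1 ≤ p * q + r * s - q * r) := by
        by_cases c1 : 0 ≤ p * q + r * s + q * r
        · by_cases c2 : 1 ≤ p * q + r * s - q * r
          · exfalso; apply hne; simp [c1, c2]
          · left; exact ⟨c1, by omega⟩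
        · by_cases c2 : 1 ≤ p * q + r * s - q * r
          · right; exact ⟨by omega, c2⟩
          · exfalso; apply hne; simp [c1, c2]
      rcases dioph hdet hcond with ⟨hq0, hr0, hps⟩ | ⟨hp0, hs0, hqr⟩
      · -- g = ±1
        apply h1
        have : s * s = 1 := by rw [hq0, hr0, hps] at hdet; linarith
        rcases Int.eq_one_or_neg_one_of_mul_eq_one' this with ⟨hs1, _⟩ | ⟨hs1, _⟩
        · left
          obtain ⟨a, b, c, d⟩ := one_entries
          exact sl2_ext_entries (by rw [a, ← hp, hps, hs1]) (by rw [b, ← hq, hq0])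
            (by rw [c, ← hr, hr0]) (by rw [d, ← hs, hs1])
        · right
          obtain ⟨a, b, c, d⟩ := neg_one_entries
          exact sl2_ext_entries (by rw [a, ← hp, hps, hs1]) (by rw [b, ← hq, hq0])
            (by rw [c, ← hr, hr0]) (by rw [d, ← hs, hs1])
      · -- g = ±S
        apply h2
        have : r * r = 1 := by rw [hp0, hs0, hqr] at hdet; linarith
        rcases Int.eq_one_or_neg_one_of_mul_eq_one' this with ⟨hr1, _⟩ | ⟨hr1, _⟩
        · left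
          obtain ⟨a, b, c, d⟩ := S_entries
          exact sl2_ext_entries (by rw [a, ← hp, hp0]) (by rw [b, ← hq, hqr, hr1])
            (by rw [c, ← hr, hr1]) (by rw [d, ← hs, hs0])
        · right
          obtain ⟨a, b, c, d⟩ := neg_S_entries
          exact sl2_ext_entries (by rw [a, ← hp, hp0]) (by rw [b, ← hq, hqr, hr1]; norm_num)
            (by rw [c, ← hr, hr1]) (by rw [d, ← hs, hs0])

end Fermat.Agent.GM.Theta
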