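import Fermat.Agent.GM.Theta.Calc
import Fermat.Agent.GM.Theta.Rho
import Fermat.Agent.S16.LB.PingPongLift

/-!
# GATE-M / S41-D-BRIDGE-THETA : `Θ` in the Manin model

For `Γ ≤ SL(2,ℤ)` (with `-1 ∈ Γ`) and `h ∈ SL(2,ℤ)`, the intrinsic crossing homomorphism
`Θ_Γ(h·0, h·∞)` is `-2` times the value at the base coset of the cocycle `c` on `SL(2,ℤ) ⧸ Γ`
with `c (S*T) = 0` and `c S x = m (S • x) - m x`, `m` the indicator of the coset `h⁻¹Γ`.
-/

set_option autoImplicit false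

open scoped MatrixGroups
open ModularGroup

namespace Fermat.Agent.GM.Theta

open Fermat.Agent.GM.Theta.Calc

/-- `SL(2,ℤ)` acts on cusps through `emb`. -/
noncomputable instance instMulActionSLCu : MulAction SL(2,ℤ) Cu := MulAction.compHom Cu emb

/-- `SL(2,ℤ)` acts on base points through `emb`. -/
noncomputable instance instMulActionSLFrm : MulAction SL(2,ℤ) Frm := MulAction.compHom Frm emb

theorem sl_smul_cu (g : SL(2,ℤ)) (a : Cu) : g • a = emb g • a := rfl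

theorem sl_smul_frm (g : SL(2,ℤ)) (P : Frm) : g • P = emb g • P := rfl

/-- invariance of `side` under `GL(2,ℚ)⁺` -/
theorem isInv_side : IsInv GL(2, ℚ)⁺ side := fun g P a b => side_smul g P a b

/-- invariance of `side` under `SL(2,ℤ)` -/
theorem isInv_side_SL : IsInv SL(2,ℤ) side := fun g P a b => side_smul (emb g) P a b

/-- (F) for every subgroup of `SL(2,ℤ)`. -/
theorem finCross_side_SL (Γ : Subgroup SL(2,ℤ)) : FinCross side Γ := by
  intro P P' a b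
  refine Set.Finite.of_injOn (f := fun g : Γ => (g : SL(2,ℤ))) ?_ ?_ (finCross_SL2Z P P' a b)
  · intro g hg
    exact hg
  · intro g _ g' _ h
    exact Subtype.ext h


open Fermat.Agent.S16.LB.PPLift

section Cocycle

variable (Γ : Subgroup SL(2,ℤ))

/-- the crossing cocycle on representatives -/
noncomputable def zpre (a b : Cu) (g k : SL(2,ℤ)) : ℤ :=
  cross side Γ (k⁻¹ • g⁻¹ • PU) (k⁻¹ • PU) a b

theorem zpre_mul_right (a b : Cu) (g k : SL(2,ℤ)) (γ : Γ) :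
    zpre Γ a b g (k * γ) = zpre Γ a b g k := by
  unfold zpre
  rw [mul_inv_rev, mul_smul, mul_smul]
  exact cross_smul isInv_side_SL Γ γ⁻¹ _ _ a b

/-- the crossing cocycle `SL(2,ℤ) → (SL(2,ℤ) ⧸ Γ → ℤ)` of the symbol `{a, b}` -/
noncomputable def zhat (a b : Cu) (g : SL(2,ℤ)) (x : SL(2,ℤ) ⧸ Γ) : ℤ :=
  Quotient.liftOn' x (zpre Γ a b g) (by
    intro k k' h
    rw [QuotientGroup.leftRel_apply] at h
    have : k' = k * ((⟨k⁻¹ * k', h⟩ : Γ) : SL(2,ℤ)) := by simp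
    rw [this, zpre_mul_right])

theorem zhat_mk (a b : Cu) (g k : SL(2,ℤ)) :
    zhat Γ a b g (k : SL(2,ℤ) ⧸ Γ) = zpre Γ a b g k := rfl

/-- the cocycle rule (in the convention of `S16/LB/PingPongLift`) -/
theorem zhat_mul (a b : Cu) (g' g : SL(2,ℤ)) (x : SL(2,ℤ) ⧸ Γ) :
    zhat Γ a b (g' * g) x = zhat Γ a b g x + zhat Γ a b g' (g • x) := by
  induction x using QuotientGroup.induction_on with
  | H k =>
    rw [smul_mk, zhat_mk, zhat_mk, zhat_mk]
    unfold zpre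
    rw [mul_inv_rev, mul_inv_rev, mul_smul, mul_smul, mul_smul, add_comm]
    exact (cross_add (finCross_side_SL Γ) _ _ _ a b).symm

/-- at the base coset the crossing cocycle is `Θ_Γ(a,b)` -/
theorem zhat_x0 (a b : Cu) (γ : Γ) :
    zhat Γ a b (γ : SL(2,ℤ)) (x0 Γ)
      = theta side isInv_side_SL Γ (finCross_side_SL Γ) PU a b (Additive.ofMul γ) := by
  rw [theta_apply]
  show zpre Γ a b (γ : SL(2,ℤ)) 1 = _
  unfold zpre
  rw [inv_one, one_smul, one_smul]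
  have := cross_smul isInv_side_SL Γ γ ((γ : SL(2,ℤ))⁻¹ • PU) PU a b
  rw [smul_inv_smul] at this
  exact this.symm

/-- the crossing cocycle vanishes on `S * T` (which fixes the base point `PU`) -/
theorem zhat_ST (a b : Cu) : zhat Γ a b (S * T) = 0 := by
  funext x
  induction x using QuotientGroup.induction_on with
  | H k =>
    rw [zhat_mk]
    unfold zpre
    have h : (S * T : SL(2,ℤ))⁻¹ • PU = PU := by
      have := ST_smul_PU
      rw [← sl_smul_frm] at this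
      rw [inv_smul_eq_iff, this]
    rw [h, Calc.cross_self]
    rfl


open scoped Classical in
/-- counting the solutions of `γ = t` in a subgroup -/
theorem finsum_subgroup_ite (t : SL(2,ℤ)) :
    ∑ᶠ γ : Γ, (if (γ : SL(2,ℤ)) = t then (1 : ℤ) else 0) = if t ∈ Γ then 1 else 0 := by
  by_cases ht : t ∈ Γ
  · rw [if_pos ht, finsum_eq_single _ (⟨t, ht⟩ : Γ)]
    · simp
    · intro γ hγ
      have : (γ : SL(2,ℤ)) ≠ t := fun h => hγ (Subtype.ext h)
      simp [this]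
  · rw [if_neg ht]
    apply finsum_eq_zero_of_forall_eq_zero
    intro γ
    have : (γ : SL(2,ℤ)) ≠ t := fun h => ht (h ▸ γ.2)
    simp [this]

theorem support_ite_finite (t : SL(2,ℤ)) :
    (Function.support fun γ : Γ => if (γ : SL(2,ℤ)) = t then (1 : ℤ) else 0).Finite := by
  apply Set.Subsingleton.finite
  intro x hx y hy
  rw [Function.mem_support] at hx hy
  have hx' : (x : SL(2,ℤ)) = t := by by_contra h; exact hx (if_neg h)
  have hy' : (y : SL(2,ℤ)) = t := by by_contra h; exact hy (if_neg h)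
  exact Subtype.ext (hx'.trans hy'.symm)

theorem one_ne_neg_one : (1 : SL(2,ℤ)) ≠ -1 := by decide

theorem S_ne_neg_S : (S : SL(2,ℤ)) ≠ -S := by decide

open scoped Classical in
/-- the crossing cocycle of `h {0, ∞}` at `S`, on representatives -/
theorem zpre_S (h k : SL(2,ℤ)) :
    zpre Γ (h • e0) (h • eInf) S k
      = ((if k⁻¹ * h⁻¹ ∈ Γ then 1 else 0) + (if k⁻¹ * -1 * h⁻¹ ∈ Γ then 1 else 0))
        - ((if k⁻¹ * S * h⁻¹ ∈ Γ then 1 else 0) + (if k⁻¹ * -S * h⁻¹ ∈ Γ then 1 else 0)) := by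
  unfold zpre cross
  have hterm : ∀ γ : Γ, term side (k⁻¹ • S⁻¹ • PU) (k⁻¹ • PU) (h • e0) (h • eInf) (γ : SL(2,ℤ))
      = ((if (γ : SL(2,ℤ)) = k⁻¹ * h⁻¹ then (1 : ℤ) else 0)
          + (if (γ : SL(2,ℤ)) = k⁻¹ * -1 * h⁻¹ then 1 else 0))
        - ((if (γ : SL(2,ℤ)) = k⁻¹ * S * h⁻¹ then 1 else 0)
          + (if (γ : SL(2,ℤ)) = k⁻¹ * -S * h⁻¹ then 1 else 0)) := by
    intro γ
    unfold term
    rw [isInv_side_SL.inv_smul k⁻¹, isInv_side_SL.inv_smul k⁻¹ (S⁻¹ • PU), inv_inv,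
      ← mul_smul, ← mul_smul, ← mul_smul, ← mul_smul]
    have hS : (S⁻¹ : SL(2,ℤ)) • PU = (emb S)⁻¹ • PU := by rw [sl_smul_frm, map_inv]
    rw [hS, sl_smul_cu, sl_smul_cu, sep_edge]
    have e1 : (k * (γ : SL(2,ℤ)) * h = 1) ↔ (γ : SL(2,ℤ)) = k⁻¹ * h⁻¹ := by
      constructor
      · intro H
        have : (γ : SL(2,ℤ)) = k⁻¹ * (k * (γ : SL(2,ℤ)) * h) * h⁻¹ := by group
        rw [this, H]; group
      · intro H; rw [H]; group
    have e2 : (k * (γ : SL(2,ℤ)) * h = -1) ↔ (γ : SL(2,ℤ)) = k⁻¹ * -1 * h⁻¹ := by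
      constructor
      · intro H
        have : (γ : SL(2,ℤ)) = k⁻¹ * (k * (γ : SL(2,ℤ)) * h) * h⁻¹ := by group
        rw [this, H]
      · intro H; rw [H]; group
    have e3 : (k * (γ : SL(2,ℤ)) * h = S) ↔ (γ : SL(2,ℤ)) = k⁻¹ * S * h⁻¹ := by
      constructor
      · intro H
        have : (γ : SL(2,ℤ)) = k⁻¹ * (k * (γ : SL(2,ℤ)) * h) * h⁻¹ := by group
        rw [this, H]
      · intro H; rw [H]; group
    have e4 : (k * (γ : SL(2,ℤ)) * h = -S) ↔ (γ : SL(2,ℤ)) = k⁻¹ * -S * h⁻¹ := by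
      constructor
      · intro H
        have : (γ : SL(2,ℤ)) = k⁻¹ * (k * (γ : SL(2,ℤ)) * h) * h⁻¹ := by group
        rw [this, H]
      · intro H; rw [H]; group
    -- split the disjunctions
    have d1 : (if k * (γ : SL(2,ℤ)) * h = 1 ∨ k * (γ : SL(2,ℤ)) * h = -1 then (1 : ℤ) else 0)
        = (if (γ : SL(2,ℤ)) = k⁻¹ * h⁻¹ then (1 : ℤ) else 0)
          + (if (γ : SL(2,ℤ)) = k⁻¹ * -1 * h⁻¹ then 1 else 0) := by
      by_cases c1 : k * (γ : SL(2,ℤ)) * h = 1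
      · have c2 : ¬ k * (γ : SL(2,ℤ)) * h = -1 := by rw [c1]; exact one_ne_neg_one
        rw [if_pos (Or.inl c1), if_pos (e1.1 c1), if_neg (fun H => c2 (e2.2 H))]; rfl
      · by_cases c2 : k * (γ : SL(2,ℤ)) * h = -1
        · rw [if_pos (Or.inr c2), if_neg (fun H => c1 (e1.2 H)), if_pos (e2.1 c2)]; rfl
        · rw [if_neg (by tauto), if_neg (fun H => c1 (e1.2 H)), if_neg (fun H => c2 (e2.2 H))]; rfl
    have d2 : (if k * (γ : SL(2,ℤ)) * h = S ∨ k * (γ : SL(2,ℤ)) * h = -S then (1 : ℤ) else 0)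
        = (if (γ : SL(2,ℤ)) = k⁻¹ * S * h⁻¹ then (1 : ℤ) else 0)
          + (if (γ : SL(2,ℤ)) = k⁻¹ * -S * h⁻¹ then 1 else 0) := by
      by_cases c1 : k * (γ : SL(2,ℤ)) * h = S
      · have c2 : ¬ k * (γ : SL(2,ℤ)) * h = -S := by rw [c1]; exact S_ne_neg_S
        rw [if_pos (Or.inl c1), if_pos (e3.1 c1), if_neg (fun H => c2 (e4.2 H))]; rfl
      · by_cases c2 : k * (γ : SL(2,ℤ)) * h = -S
        · rw [if_pos (Or.inr c2), if_neg (fun H => c1 (e3.2 H)), if_pos (e4.1 c2)]; rfl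
        · rw [if_neg (by tauto), if_neg (fun H => c1 (e3.2 H)), if_neg (fun H => c2 (e4.2 H))]; rfl
    rw [d1, d2]
  rw [finsum_congr hterm]
  have f1 := support_ite_finite Γ (k⁻¹ * h⁻¹)
  have f2 := support_ite_finite Γ (k⁻¹ * -1 * h⁻¹)
  have f3 := support_ite_finite Γ (k⁻¹ * S * h⁻¹)
  have f4 := support_ite_finite Γ (k⁻¹ * -S * h⁻¹)
  have f12 : (Function.support fun γ : Γ => (if (γ : SL(2,ℤ)) = k⁻¹ * h⁻¹ then (1 : ℤ) else 0)
      + (if (γ : SL(2,ℤ)) = k⁻¹ * -1 * h⁻¹ then 1 else 0)).Finite :=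
    (f1.union f2).subset (Function.support_add _ _)
  have f34 : (Function.support fun γ : Γ => (if (γ : SL(2,ℤ)) = k⁻¹ * S * h⁻¹ then (1 : ℤ) else 0)
      + (if (γ : SL(2,ℤ)) = k⁻¹ * -S * h⁻¹ then 1 else 0)).Finite :=
    (f3.union f4).subset (Function.support_add _ _)
  rw [finsum_sub_distrib f12 f34, finsum_add_distrib f1 f2, finsum_add_distrib f3 f4,
    finsum_subgroup_ite, finsum_subgroup_ite, finsum_subgroup_ite, finsum_subgroup_ite]


open scoped Classical in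
/-- indicator function of a coset -/
noncomputable def indic (y : SL(2,ℤ) ⧸ Γ) : SL(2,ℤ) ⧸ Γ → ℤ := fun x => if x = y then 1 else 0

open scoped Classical in
theorem indic_apply (y x : SL(2,ℤ) ⧸ Γ) : indic Γ y x = if x = y then 1 else 0 := rfl

theorem S_inv_eq : (S⁻¹ : SL(2,ℤ)) = -S := by decide

theorem neg_mem_iff (hneg : (-1 : SL(2,ℤ)) ∈ Γ) (a : SL(2,ℤ)) : -a ∈ Γ ↔ a ∈ Γ := by
  have : -a = -1 * a := by rw [neg_mul, one_mul]
  rw [this]
  exact Γ.mul_mem_cancel_left hneg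

open scoped Classical in
/-- **The crossing cocycle of `h{0,∞}` at `S`** is `-2 (m ∘ S - m)`, `m` the indicator of `h⁻¹Γ`. -/
theorem zhat_S (hneg : (-1 : SL(2,ℤ)) ∈ Γ) (h : SL(2,ℤ)) (x : SL(2,ℤ) ⧸ Γ) :
    zhat Γ (h • e0) (h • eInf) S x
      = -2 * (indic Γ ((h⁻¹ : SL(2,ℤ)) : SL(2,ℤ) ⧸ Γ) (S • x)
          - indic Γ ((h⁻¹ : SL(2,ℤ)) : SL(2,ℤ) ⧸ Γ) x) := by
  induction x using QuotientGroup.induction_on with
  | H k =>
    rw [zhat_mk, zpre_S, smul_mk, indic_apply, indic_apply]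
    have i1 : ((k : SL(2,ℤ) ⧸ Γ) = ((h⁻¹ : SL(2,ℤ)) : SL(2,ℤ) ⧸ Γ)) ↔ k⁻¹ * h⁻¹ ∈ Γ :=
      mk_eq_mk_iff k h⁻¹
    have i2 : k⁻¹ * -1 * h⁻¹ ∈ Γ ↔ k⁻¹ * h⁻¹ ∈ Γ := by
      have : k⁻¹ * -1 * h⁻¹ = -(k⁻¹ * h⁻¹) := by rw [mul_neg, mul_one, neg_mul]
      rw [this, neg_mem_iff Γ hneg]
    have i4 : (((S * k : SL(2,ℤ)) : SL(2,ℤ) ⧸ Γ) = ((h⁻¹ : SL(2,ℤ)) : SL(2,ℤ) ⧸ Γ))
        ↔ k⁻¹ * -S * h⁻¹ ∈ Γ := by
      rw [mk_eq_mk_iff, mul_inv_rev, S_inv_eq]
    have i3 : k⁻¹ * S * h⁻¹ ∈ Γ ↔ k⁻¹ * -S * h⁻¹ ∈ Γ := by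
      have : k⁻¹ * -S * h⁻¹ = -(k⁻¹ * S * h⁻¹) := by rw [mul_neg, neg_mul]
      rw [this, neg_mem_iff Γ hneg]
    by_cases c1 : k⁻¹ * h⁻¹ ∈ Γ
    · by_cases c2 : k⁻¹ * -S * h⁻¹ ∈ Γ
      · rw [if_pos c1, if_pos (i2.2 c1), if_pos (i3.2 c2), if_pos c2, if_pos (i4.2 c2),
          if_pos (i1.2 c1)]
        norm_num
      · rw [if_pos c1, if_pos (i2.2 c1), if_neg (fun H => c2 (i3.1 H)), if_neg c2,
          if_neg (fun H => c2 (i4.1 H)), if_pos (i1.2 c1)]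
        norm_num
    · by_cases c2 : k⁻¹ * -S * h⁻¹ ∈ Γ
      · rw [if_neg c1, if_neg (fun H => c1 (i2.1 H)), if_pos (i3.2 c2), if_pos c2,
          if_pos (i4.2 c2), if_neg (fun H => c1 (i1.1 H))]
        norm_num
      · rw [if_neg c1, if_neg (fun H => c1 (i2.1 H)), if_neg (fun H => c2 (i3.1 H)), if_neg c2,
          if_neg (fun H => c2 (i4.1 H)), if_neg (fun H => c1 (i1.1 H))]
        norm_num

/-- **Θ in the Manin model.**  Let `-1 ∈ Γ`, `h ∈ SL(2,ℤ)` and let `c` be a cocycle on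
`SL(2,ℤ) ⧸ Γ` (convention of `S16/LB/PingPongLift`) with `c (S*T) = 0` and
`c S x = m (S • x) - m x`, `m` the indicator of the coset `h⁻¹Γ`.  Then
`Θ_Γ(h·0, h·∞)(γ) = -2 · c γ x0`. -/
theorem theta_eq_cocycle (hneg : (-1 : SL(2,ℤ)) ∈ Γ) (h : SL(2,ℤ))
    (c : SL(2,ℤ) → SL(2,ℤ) ⧸ Γ → ℤ)
    (hc : ∀ g' g x, c (g' * g) x = c g x + c g' (g • x))
    (hcS : ∀ x, c S x = indic Γ ((h⁻¹ : SL(2,ℤ)) : SL(2,ℤ) ⧸ Γ) (S • x)
        - indic Γ ((h⁻¹ : SL(2,ℤ)) : SL(2,ℤ) ⧸ Γ) x)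
    (hcU : c (S * T) = 0) (γ : Γ) :
    theta side isInv_side_SL Γ (finCross_side_SL Γ) PU (h • e0) (h • eInf) (Additive.ofMul γ)
      = -2 * c (γ : SL(2,ℤ)) (x0 Γ) := by
  rw [← zhat_x0]
  have key : zhat Γ (h • e0) (h • eInf) = fun g x => -2 * c g x := by
    apply cocycle_ext
    · exact zhat_mul Γ _ _
    · intro g' g x
      show -2 * c (g' * g) x = -2 * c g x + -2 * c g' (g • x)
      rw [hc]; ring
    · funext x
      rw [zhat_S Γ hneg, hcS]
    · rw [zhat_ST]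
      funext x
      show (0 : ℤ) = -2 * c (S * T) x
      rw [hcU]; simp
  rw [key]

end Cocycle


/-! ### Transfer to subgroups of `GL(2,ℚ)⁺` (where `Calc.theta_conj` / `Calc.master` live) -/

section Transfer

theorem emb_injective : Function.Injective emb := by
  intro g g' h
  have h1 := Matrix.SpecialLinearGroup.toGLPos_injective
    (show Matrix.SpecialLinearGroup.toGLPos (Matrix.SpecialLinearGroup.map (Int.castRingHom ℚ) g)
        = Matrix.SpecialLinearGroup.toGLPos (Matrix.SpecialLinearGroup.map (Int.castRingHom ℚ) g')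
      from h)
  exact Matrix.SpecialLinearGroup.map_intCast_injective h1

variable (Γ : Subgroup SL(2,ℤ))

/-- (F) for the image in `GL(2,ℚ)⁺` of a subgroup of `SL(2,ℤ)`. -/
theorem finCross_side_map : FinCross side (Γ.map emb) := by
  intro P P' a b
  have hspec : ∀ g : Γ.map emb, ∃ g0 : SL(2,ℤ), emb g0 = (g : GL(2, ℚ)⁺) := by
    intro g
    obtain ⟨g0, _, hg0⟩ := Subgroup.mem_map.1 g.2
    exact ⟨g0, hg0⟩
  refine Set.Finite.of_injOn (f := fun g : Γ.map emb => (hspec g).choose) ?_ ?_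
    (finCross_SL2Z P P' a b)
  · intro g hg
    show side P (emb (hspec g).choose • a) (emb (hspec g).choose • b)
      ≠ side P' (emb (hspec g).choose • a) (emb (hspec g).choose • b)
    rw [(hspec g).choose_spec]
    exact hg
  · intro g _ g' _ h
    apply Subtype.ext
    rw [← (hspec g).choose_spec, ← (hspec g').choose_spec]
    exact congrArg emb h

/-- the crossing sums over `Γ` (acting through `emb`) and over its image in `GL(2,ℚ)⁺` agree -/
theorem cross_map_emb (P Q : Frm) (a b : Cu) :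
    cross side (Γ.map emb) P Q a b = cross side Γ P Q a b := by
  unfold cross
  rw [← finsum_comp_equiv (Γ.equivMapOfInjective emb emb_injective).toEquiv]
  rfl

/-- `Θ` for `Γ ≤ SL(2,ℤ)` and for its image in `GL(2,ℚ)⁺` agree -/
theorem theta_map_emb (P : Frm) (a b : Cu) (γ : Γ) :
    theta side isInv_side (Γ.map emb) (finCross_side_map Γ) P a b
        (Additive.ofMul (Γ.equivMapOfInjective emb emb_injective γ))
      = theta side isInv_side_SL Γ (finCross_side_SL Γ) P a b (Additive.ofMul γ) := by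
  rw [theta_apply, theta_apply, cross_map_emb]
  rfl

end Transfer

end Fermat.Agent.GM.Theta
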